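import Mathlib.Data.ZMod.Units
import Mathlib.Data.ZMod.Basic
import Mathlib.Algebra.Field.ZMod
import Mathlib.Algebra.BigOperators.Fin
import Mathlib.Algebra.BigOperators.Ring.Finset
import Mathlib.Algebra.Order.BigOperators.Group.Finset
import Mathlib.Data.Real.Basic
import Mathlib.Data.Nat.Squarefree
import Mathlib.Data.Nat.Totient
import Mathlib.Algebra.GroupWithZero.Units.Fintype
import Mathlib.Data.Fintype.BigOperators
import Mathlib.Algebra.BigOperators.Field
import Mathlib.Tactic.Abel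
import Mathlib.Tactic.NormNum.GCD
import Mathlib.Tactic.FinCases
import Mathlib.Tactic.Linarith
import Mathlib.Tactic.Positivity
import Mathlib.Tactic.FieldSimp

/-!
# The choice of the residues

Modulo a squarefree number prime to `6` every element is `x₀ + x₁ + x₂` with units `x i` so that
`∑ f i (x i)` is at least the sum of the means of the `f i`. Modulo `6` times such a number an odd
element is such a sum with all `f i (x i) > 0` and sum above `5 / 3`, if the means add up to more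
than `2` and the values are in `[0, 1]`.
-/

set_option autoImplicit false

noncomputable section

namespace FA.DenseThreePrimes

open Finset

/-- Sums of three units keep any three means. -/
def MeanTriple (R : Type*) [CommRing R] [Fintype Rˣ] : Prop :=
  ∀ (n : R) (f : Fin 3 → Rˣ → ℝ), (∀ i, ∑ x, f i x = 0) →
    ∃ x : Fin 3 → Rˣ, (x 0 : R) + x 1 + x 2 = n ∧ 0 ≤ ∑ i, f i (x i)

theorem meanTriple_of_subsingleton (R : Type*) [CommRing R] [Fintype Rˣ] [Subsingleton R] :
    MeanTriple R := fun n f hf => by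
  have : Subsingleton Rˣ := ⟨fun a b => Units.ext (Subsingleton.elim _ _)⟩
  refine ⟨fun _ => 1, Subsingleton.elim _ _, (sum_eq_zero fun i _ => ?_).ge⟩
  rw [← hf i, Fintype.sum_subsingleton _ (1 : Rˣ)]

theorem meanTriple_of_equiv {R S : Type*} [CommRing R] [CommRing S] [Fintype Rˣ] [Fintype Sˣ]
    (e : R ≃+* S) (h : MeanTriple R) : MeanTriple S := by
  intro n f hf
  obtain ⟨u, hu⟩ : ∃ u : Rˣ ≃ Sˣ, u = (Units.mapEquiv e.toMulEquiv).toEquiv := ⟨_, rfl⟩
  obtain ⟨x, hx, hsum⟩ := h (e.symm n) (fun i y => f i (u y)) fun i => by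
    rw [u.sum_comp]
    exact hf i
  refine ⟨fun i => u (x i), ?_, hsum⟩
  rw [show n = e (e.symm n) from (e.apply_symm_apply n).symm, ← hx, map_add, map_add, hu]
  rfl

/-- Two factors. -/
theorem meanTriple_prod {R S : Type*} [CommRing R] [CommRing S] [Fintype Rˣ] [Fintype Sˣ]
    [Fintype (R × S)ˣ] (hR : MeanTriple R) (hS : MeanTriple S) : MeanTriple (R × S) := by
  intro n f hf
  obtain ⟨g, hg⟩ : ∃ g : Fin 3 → Rˣ → Sˣ → ℝ,
      g = fun i x y => f i (MulEquiv.prodUnits.symm (x, y)) := ⟨_, rfl⟩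
  obtain ⟨x, hx, hxs⟩ := hR n.1 (fun i a => ∑ b, g i a b) fun i => by
    rw [hg, ← hf i, ← Fintype.sum_prod_type']
    exact MulEquiv.prodUnits.symm.toEquiv.sum_comp (f i)
  have hS0 : (0 : ℝ) < Fintype.card Sˣ := Nat.cast_pos.2 (Fintype.card_pos_iff.2 ⟨1⟩)
  obtain ⟨y, hy, hys⟩ := hS n.2
    (fun i b => g i (x i) b - (∑ b, g i (x i) b) / Fintype.card Sˣ) fun i => by
      rw [sum_sub_distrib, sum_const, card_univ, nsmul_eq_mul, mul_div_cancel₀ _ hS0.ne', sub_self]
  refine ⟨fun i => MulEquiv.prodUnits.symm (x i, y i), Prod.ext hx hy, ?_⟩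
  rw [sum_sub_distrib, ← sum_div] at hys
  have := div_nonneg hxs hS0.le
  rw [hg] at hys this
  linarith

/-- A prime modulus `p ≥ 5`. -/
theorem meanTriple_prime {p : ℕ} [Fact p.Prime] (hp : 5 ≤ p) : MeanTriple (ZMod p) := by
  classical
  intro n f hf
  by_contra hne
  obtain ⟨g, hg⟩ : ∃ g : Fin 3 → ZMod p → ℝ,
      g = fun i a => if h : a ≠ 0 then f i (Units.mk0 a h) else 0 := ⟨_, rfl⟩
  have hg0 : ∀ i, g i 0 = 0 := fun i => by simp [hg]
  have hgs : ∀ i, ∑ a, g i a = 0 := fun i => by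
    rw [← hf i, ← sum_erase _ (hg0 i)]
    refine (sum_bij (fun (u : (ZMod p)ˣ) _ => (u : ZMod p))
      (fun u _ => mem_erase.2 ⟨u.ne_zero, mem_univ _⟩) (fun u _ v _ h => Units.ext h)
      (fun a ha => ⟨Units.mk0 a (mem_erase.1 ha).1, mem_univ _, rfl⟩) fun u _ => ?_).symm
    rw [hg]
    simp
  obtain ⟨V, hV⟩ : ∃ V : ZMod p × ZMod p → ℝ,
      V = fun z => g 0 z.1 + g 1 z.2 + g 2 (n - z.1 - z.2) := ⟨_, rfl⟩
  obtain ⟨S, hS⟩ : ∃ S : Finset (ZMod p × ZMod p),
      S = univ.filter fun z => z.1 ≠ 0 ∧ z.2 ≠ 0 ∧ n - z.1 - z.2 ≠ 0 := ⟨_, rfl⟩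
  have hneg : ∀ z ∈ S, V z < 0 := fun z hz => by
    rw [hS, mem_filter] at hz
    obtain ⟨-, h0, h1, h2⟩ := hz
    refine lt_of_not_ge fun hge => hne
      ⟨![Units.mk0 _ h0, Units.mk0 _ h1, Units.mk0 _ h2], ?_, ?_⟩
    · simp only [Matrix.cons_val_zero, Matrix.cons_val_one, Matrix.cons_val, Units.val_mk0]
      abel
    · rw [hV, hg] at hge
      simp only [dif_pos h0, dif_pos h1, dif_pos h2] at hge
      simpa [Fin.sum_univ_three] using hge
  have hfib : ∀ x : ZMod p, x ≠ 0 →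
      ((univ.filter fun y : ZMod p => y ≠ 0 ∧ n - x - y ≠ 0).card : ℝ) =
        (p : ℝ) - 2 + if x = n then 1 else 0 := fun x _ => by
    have e : (univ.filter fun y : ZMod p => y ≠ 0 ∧ n - x - y ≠ 0) = univ \ {0, n - x} := by
      ext y
      simp [sub_eq_zero, eq_comm]
    rw [e, card_univ_sdiff, ZMod.card]
    split_ifs with h
    · subst h
      simp only [sub_self, mem_singleton, insert_eq_of_mem, card_singleton]
      rw [Nat.cast_sub (by omega)]
      push_cast
      ring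
    · rw [card_pair fun h0 => h (sub_eq_zero.1 h0.symm).symm, Nat.cast_sub (by omega)]
      push_cast
      ring
  have hside : ∀ h : ZMod p → ℝ, h 0 = 0 → ∑ a, h a = 0 → ∑ z ∈ S, h z.1 = h n := by
    intro h h0 hsum
    rw [hS, sum_filter, Fintype.sum_prod_type]
    have e : ∀ x : ZMod p, (∑ y, if x ≠ 0 ∧ y ≠ 0 ∧ n - x - y ≠ 0 then h x else 0) =
        ((p : ℝ) - 2) * h x + if x = n then h x else 0 := by
      intro x
      rcases eq_or_ne x 0 with rfl | hx
      · simp [h0]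
      simp only [hx, ne_eq, not_false_eq_true, true_and]
      rw [← sum_filter, sum_const, nsmul_eq_mul, hfib x hx]
      split_ifs <;> ring
    simp only [e, sum_add_distrib, ← mul_sum, hsum, mul_zero, zero_add, sum_ite_eq', mem_univ,
      if_true]
  have hU : ∑ z ∈ S, V z = g 0 n + g 1 n + g 2 n := by
    rw [hV]
    simp only [sum_add_distrib]
    rw [hside _ (hg0 0) (hgs 0)]
    congr 1
    · refine congrArg _ ?_
      rw [← hside _ (hg0 1) (hgs 1)]
      refine sum_nbij' Prod.swap Prod.swap ?_ ?_ (fun _ _ => rfl) (fun _ _ => rfl) fun _ _ => rfl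
      all_goals
        intro z hz
        simp only [hS, mem_filter, mem_univ, true_and, Prod.fst_swap,
          Prod.snd_swap] at hz ⊢
        exact ⟨hz.2.1, hz.1, by rw [sub_right_comm]; exact hz.2.2⟩
    · rw [← hside _ (hg0 2) (hgs 2)]
      refine sum_nbij' (fun z => (n - z.1 - z.2, z.2)) (fun z => (n - z.1 - z.2, z.2)) ?_ ?_
        (fun z _ => Prod.ext (by dsimp only; abel) rfl)
        (fun z _ => Prod.ext (by dsimp only; abel) rfl) fun _ _ => rfl
      all_goals
        intro z hz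
        simp only [hS, mem_filter, mem_univ, true_and] at hz ⊢
        exact ⟨hz.2.2, hz.2.1, by rw [show n - (n - z.1 - z.2) - z.2 = z.1 by abel]; exact hz.1⟩
  have hp5 : (5 : ℝ) ≤ p := by exact_mod_cast hp
  have hUneg : ∑ z ∈ S, V z < 0 := by
    refine sum_neg hneg (card_pos.1 ?_)
    by_contra h0
    rw [Nat.pos_iff_ne_zero, not_not, card_eq_zero] at h0
    have h1 := hfib 1 one_ne_zero
    have h2 : (univ.filter fun y : ZMod p => y ≠ 0 ∧ n - 1 - y ≠ 0) = ∅ := by
      refine filter_eq_empty_iff.2 fun y _ hy => ?_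
      have : ((1, y) : ZMod p × ZMod p) ∈ S := hS ▸ mem_filter.2 ⟨mem_univ _, one_ne_zero, hy⟩
      rw [h0] at this
      exact notMem_empty _ this
    rw [h2, card_empty, Nat.cast_zero] at h1
    split_ifs at h1 <;> linarith
  rcases eq_or_ne n 0 with rfl | hn
  · simp only [hg0] at hU
    linarith
  have hline : ∀ φ : ZMod p → ZMod p × ZMod p, Function.Injective φ →
      (∀ a, a ≠ 0 → φ a ∈ S) → ∑ z ∈ S, V z ≤ ∑ a ∈ univ.erase 0, V (φ a) := by
    intro φ hφ hmem
    rw [← sum_image hφ.injOn]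
    have hsub : (univ.erase (0 : ZMod p)).image φ ⊆ S :=
      image_subset_iff.2 fun a ha => hmem a (mem_erase.1 ha).1
    rw [← sum_sdiff hsub]
    exact add_le_of_nonpos_left (sum_nonpos fun z hz => (hneg z (mem_sdiff.1 hz).1).le)
  have hcard : ((univ.erase (0 : ZMod p)).card : ℝ) = (p : ℝ) - 1 := by
    rw [card_erase_of_mem (mem_univ _), card_univ, ZMod.card, Nat.cast_sub (by omega)]
    norm_num
  have hgn : ∀ i (c : ZMod p → ZMod p), Function.Bijective c → c 0 = 0 →
      ∑ a ∈ univ.erase 0, g i (c a) = 0 := fun i c hc hc0 => by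
    rw [sum_erase _ (by rw [hc0, hg0]), hc.sum_comp (g i), hgs]
  have hneg' : Function.Bijective fun a : ZMod p => -a := neg_involutive.bijective
  have l0 := hline (fun a => (n, a)) (fun a b h => (Prod.ext_iff.1 h).2) fun a ha => by
    rw [hS, mem_filter]
    exact ⟨mem_univ _, hn, ha, by simpa using ha⟩
  have l1 := hline (fun a => (a, n)) (fun a b h => (Prod.ext_iff.1 h).1) fun a ha => by
    rw [hS, mem_filter]
    exact ⟨mem_univ _, ha, hn, by simpa using ha⟩
  have l2 := hline (fun a => (a, -a)) (fun a b h => (Prod.ext_iff.1 h).1) fun a ha => by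
    rw [hS, mem_filter]
    exact ⟨mem_univ _, ha, by simpa using ha, by simpa using hn⟩
  simp only [hV, show ∀ a : ZMod p, n - n - a = -a from fun a => by abel,
    show ∀ a : ZMod p, n - a - n = -a from fun a => by abel,
    show ∀ a : ZMod p, n - a - -a = n from fun a => by abel] at l0 l1 l2
  simp only [sum_add_distrib, sum_const, nsmul_eq_mul, hcard, hgn _ _ hneg' neg_zero] at l0 l1 l2
  have h0' : ∑ a ∈ univ.erase (0 : ZMod p), g 1 a = 0 := hgn 1 id Function.bijective_id rfl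
  have h1' : ∑ a ∈ univ.erase (0 : ZMod p), g 0 a = 0 := hgn 0 id Function.bijective_id rfl
  simp only [h0', h1'] at l0 l1 l2
  rw [hV] at hU hUneg
  simp only [sum_add_distrib] at hU hUneg
  nlinarith

theorem meanTriple_squarefree : ∀ m : ℕ, [NeZero m] → Squarefree m → m.Coprime 6 →
    MeanTriple (ZMod m) := by
  intro m
  induction m using Nat.strong_induction_on with
  | h m ih =>
    intro _ hsq hcop
    rcases eq_or_ne m 1 with rfl | hm1
    · exact meanTriple_of_subsingleton _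
    obtain ⟨p, hp, k, rfl⟩ := Nat.exists_prime_and_dvd hm1
    have := Fact.mk hp
    have hk0 : 0 < k := Nat.pos_of_ne_zero fun h => by
      subst h
      exact NeZero.ne (p * 0) (mul_zero p)
    have : NeZero k := ⟨hk0.ne'⟩
    have hpk : p.Coprime k := Nat.coprime_of_squarefree_mul hsq
    have hp5 : 5 ≤ p := by
      have hc := Nat.Coprime.coprime_dvd_left (dvd_mul_right p k) hcop
      have h2 : p ≠ 2 := fun h => by rw [h] at hc; norm_num at hc
      have h3 : p ≠ 3 := fun h => by rw [h] at hc; norm_num at hc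
      have h4 : p ≠ 4 := fun h => absurd (h ▸ hp) (by decide)
      have := hp.two_le
      omega
    refine meanTriple_of_equiv (ZMod.chineseRemainder hpk).symm
      (meanTriple_prod (meanTriple_prime hp5) (ih k ?_ hsq.of_mul_right
        (Nat.Coprime.coprime_dvd_left (dvd_mul_left k p) hcop)))
    nlinarith

/-- The triples modulo `6` with one exceptional position. -/
theorem exists_position {a b : Fin 3 → ℝ} (ha : ∀ i, 0 ≤ a i ∧ a i ≤ 1)
    (hb : ∀ i, 0 ≤ b i ∧ b i ≤ 1) (h : 4 < ∑ i, (a i + b i)) :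
    ∃ j, (∀ i, 0 < if i = j then b i else a i) ∧ 5 / 3 < ∑ i, if i = j then b i else a i := by
  simp only [Fin.sum_univ_three, Fin.forall_fin_succ, Fin.exists_fin_succ] at *
  have := ha; have := hb
  by_contra hne
  simp only [Fin.isValue, reduceIte, Fin.succ_zero_eq_one, Fin.succ_one_eq_two] at *
  simp only [IsEmpty.forall_iff, and_true, IsEmpty.exists_iff, or_false, not_or, not_and,
    not_lt, show ¬ (0 : Fin 3) = 1 by decide, show ¬ (0 : Fin 3) = 2 by decide,
    show ¬ (1 : Fin 3) = 0 by decide, show ¬ (1 : Fin 3) = 2 by decide,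
    show ¬ (2 : Fin 3) = 0 by decide, show ¬ (2 : Fin 3) = 1 by decide, if_false] at hne
  obtain ⟨n0, n1, n2⟩ := hne
  obtain ⟨⟨_, _⟩, ⟨_, _⟩, ⟨_, _⟩⟩ := ha
  obtain ⟨⟨_, _⟩, ⟨_, _⟩, ⟨_, _⟩⟩ := hb
  rcases le_or_gt (a 0) 0 with a0 | a0
  · linarith [n0 ⟨by linarith, by linarith, by linarith⟩]
  rcases le_or_gt (a 1) 0 with a1 | a1
  · linarith [n1 ⟨by linarith, by linarith, by linarith⟩]
  rcases le_or_gt (a 2) 0 with a2 | a2
  · linarith [n2 ⟨by linarith, by linarith, by linarith⟩]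
  rcases le_or_gt (b 0) 0 with b0 | b0
  · linarith [n1 ⟨a0, by linarith, a2⟩, n2 ⟨a0, a1, by linarith⟩]
  rcases le_or_gt (b 1) 0 with b1 | b1
  · linarith [n0 ⟨by linarith, a1, a2⟩, n2 ⟨a0, a1, by linarith⟩]
  rcases le_or_gt (b 2) 0 with b2 | b2
  · linarith [n0 ⟨by linarith, a1, a2⟩, n1 ⟨a0, by linarith, a2⟩]
  linarith [n0 ⟨b0, a1, a2⟩, n1 ⟨a0, b1, a2⟩, n2 ⟨a0, a1, b2⟩]

/-- The units modulo `6`. -/
theorem sum_units_six (F : (ZMod 6)ˣ → ℝ) : ∑ u, F u = F 1 + F (-1) := by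
  rw [show (univ : Finset (ZMod 6)ˣ) = {1, -1} by decide, sum_pair (by decide)]

/-- **The residues.** -/
theorem exists_residues {m n : ℕ} [NeZero m] (hsq : Squarefree m) (hcop : m.Coprime 6)
    (hn : Odd n) (f : Fin 3 → (ZMod (6 * m))ˣ → ℝ) (hf : ∀ i x, 0 ≤ f i x ∧ f i x ≤ 1)
    (h : 2 * ((6 * m).totient : ℝ) < ∑ i, ∑ x, f i x) :
    ∃ x : Fin 3 → (ZMod (6 * m))ˣ, (x 0 : ZMod (6 * m)) + x 1 + x 2 = n ∧
      (∀ i, 0 < f i (x i)) ∧ 5 / 3 < ∑ i, f i (x i) := by
  obtain ⟨e, he⟩ : ∃ e : (ZMod (6 * m))ˣ ≃* (ZMod 6)ˣ × (ZMod m)ˣ,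
      e = (Units.mapEquiv (ZMod.chineseRemainder hcop.symm).toMulEquiv).trans
        MulEquiv.prodUnits := ⟨_, rfl⟩
  obtain ⟨g, hg⟩ : ∃ g : Fin 3 → (ZMod 6)ˣ → (ZMod m)ˣ → ℝ,
      g = fun i u v => f i (e.symm (u, v)) := ⟨_, rfl⟩
  have hsum : ∀ i, ∑ x, f i x = ∑ v, (g i 1 v + g i (-1) v) := fun i => by
    rw [← e.symm.toEquiv.sum_comp, Fintype.sum_prod_type, sum_units_six, ← sum_add_distrib, hg]
    rfl
  have hφ : ((6 * m).totient : ℝ) = 2 * (Fintype.card (ZMod m)ˣ : ℝ) := by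
    rw [ZMod.card_units_eq_totient, Nat.totient_mul hcop.symm, show Nat.totient 6 = 2 by decide]
    push_cast
    ring
  have hm0 : (0 : ℝ) < Fintype.card (ZMod m)ˣ := Nat.cast_pos.2 (Fintype.card_pos_iff.2 ⟨1⟩)
  obtain ⟨F, hF⟩ : ∃ F : Fin 3 → (ZMod m)ˣ → ℝ, F = fun i v => g i 1 v + g i (-1) v := ⟨_, rfl⟩
  obtain ⟨y, hy, hys⟩ := meanTriple_squarefree m hsq hcop (n : ZMod m)
    (fun i v => F i v - (∑ v, F i v) / Fintype.card (ZMod m)ˣ) fun i => by
      rw [sum_sub_distrib, sum_const, card_univ, nsmul_eq_mul, mul_div_cancel₀ _ hm0.ne', sub_self]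
  have h4 : 4 < ∑ i, F i (y i) := by
    rw [sum_sub_distrib, ← sum_div] at hys
    simp only [hsum, hφ] at h
    rw [hF] at hys ⊢
    refine lt_of_lt_of_le ((lt_div_iff₀ hm0).2 ?_) (sub_nonneg.1 hys)
    linarith
  obtain ⟨a, hadef⟩ : ∃ a : Fin 3 → ℝ, a = fun i => g i 1 (y i) := ⟨_, rfl⟩
  obtain ⟨b, hbdef⟩ : ∃ b : Fin 3 → ℝ, b = fun i => g i (-1) (y i) := ⟨_, rfl⟩
  have hab : ∀ i, (0 ≤ a i ∧ a i ≤ 1) ∧ 0 ≤ b i ∧ b i ≤ 1 := fun i => by
    rw [hadef, hbdef, hg]
    exact ⟨hf i _, hf i _⟩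
  have h4' : 4 < ∑ i, (a i + b i) := by rw [hadef, hbdef]; rw [hF] at h4; exact h4
  suffices hsuf : ∃ u : Fin 3 → (ZMod 6)ˣ, (u 0 : ZMod 6) + u 1 + u 2 = n ∧
      (∀ i, 0 < g i (u i) (y i)) ∧ 5 / 3 < ∑ i, g i (u i) (y i) by
    obtain ⟨u, hu, hpos, hbig⟩ := hsuf
    rw [hg] at hpos hbig
    refine ⟨fun i => e.symm (u i, y i), (ZMod.chineseRemainder hcop.symm).injective ?_, hpos,
      hbig⟩
    have he' : ∀ i, ZMod.chineseRemainder hcop.symm (e.symm (u i, y i) : ZMod (6 * m)) =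
        ((u i : ZMod 6), (y i : ZMod m)) := fun i => by
      have h1 := e.apply_symm_apply (u i, y i)
      conv_rhs => rw [show ((u i : ZMod 6), (y i : ZMod m)) =
        (((e (e.symm (u i, y i))).1 : ZMod 6), ((e (e.symm (u i, y i))).2 : ZMod m)) by rw [h1]]
      rw [he]
      rfl
    rw [map_add, map_add, he', he', he', map_natCast]
    exact Prod.ext hu hy
  have hn6 : (n : ZMod 6) = 1 ∨ (n : ZMod 6) = 3 ∨ (n : ZMod 6) = -1 := by
    rw [← ZMod.natCast_mod]
    obtain ⟨k, rfl⟩ := hn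
    rcases (show (2 * k + 1) % 6 = 1 ∨ (2 * k + 1) % 6 = 3 ∨ (2 * k + 1) % 6 = 5 by omega) with
      h6 | h6 | h6 <;> rw [h6] <;> decide
  rcases hn6 with h6 | h6 | h6
  · obtain ⟨j, hpos, hbig⟩ := exists_position (fun i => (hab i).1) (fun i => (hab i).2) h4'
    rw [hadef, hbdef] at hpos hbig
    refine ⟨fun i => if i = j then -1 else 1, ?_, fun i => ?_, ?_⟩
    · rw [h6]
      fin_cases j <;> decide
    · have := hpos i
      simp only at this ⊢
      split_ifs at this ⊢ <;> exact this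
    · refine hbig.trans_eq (sum_congr rfl fun i _ => ?_)
      simp only
      split_ifs <;> rfl
  · rw [sum_add_distrib] at h4'
    rcases le_total (∑ i, b i) (∑ i, a i) with hle | hle
    · refine ⟨fun _ => 1, by rw [h6]; decide, fun i => ?_, ?_⟩
      · have h1 : ∀ i, a i ≤ 1 := fun i => (hab i).1.2
        rw [Fin.sum_univ_three, Fin.sum_univ_three] at *
        have e : a i = g i 1 (y i) := by rw [hadef]
        rw [← e]
        fin_cases i <;> simp only [Fin.zero_eta, Fin.mk_one, Fin.reduceFinMk] <;>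
          linarith [h1 0, h1 1, h1 2]
      · rw [hadef] at h4' hle
        linarith
    · refine ⟨fun _ => -1, by rw [h6]; decide, fun i => ?_, ?_⟩
      · have h1 : ∀ i, b i ≤ 1 := fun i => (hab i).2.2
        rw [Fin.sum_univ_three, Fin.sum_univ_three] at *
        have e : b i = g i (-1) (y i) := by rw [hbdef]
        rw [← e]
        fin_cases i <;> simp only [Fin.zero_eta, Fin.mk_one, Fin.reduceFinMk] <;>
          linarith [h1 0, h1 1, h1 2]
      · rw [hbdef] at h4' hle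
        linarith
  · obtain ⟨j, hpos, hbig⟩ := exists_position (fun i => (hab i).2) (fun i => (hab i).1)
      (by simpa [add_comm] using h4')
    rw [hadef, hbdef] at hpos hbig
    refine ⟨fun i => if i = j then 1 else -1, ?_, fun i => ?_, ?_⟩
    · rw [h6]
      fin_cases j <;> decide
    · have := hpos i
      simp only at this ⊢
      split_ifs at this ⊢ <;> exact this
    · refine hbig.trans_eq (sum_congr rfl fun i _ => ?_)
      simp only
      split_ifs <;> rfl

end FA.DenseThreePrimes
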