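import Fermat.Agent.ThreePrimes.Exponential
import Fermat.Agent.ThreePrimes.Major
import Mathlib.Algebra.Field.ZMod
import Mathlib.Analysis.SpecialFunctions.Pow.Real
import Mathlib.Combinatorics.Pigeonhole

/-!
# Dense models by smoothing over a Bohr set

If `0 ≤ f i ≤ ν` on `ZMod M`, the Fourier coefficients of `ν` are within `η M` of those of some
`0 ≤ u ≤ 1` and the `5/2`-th moments of those of the `f i` are `O (M ^ (5/2))`, then the count of
`x + y + z = n` is within `ε M ^ 2` of that for models `g i ≤ 1 + ε` with the same sums.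
-/

set_option autoImplicit false

noncomputable section

namespace FA.DenseThreePrimes

open Finset
open FA.ThreePrimes (eAdd)
open scoped Real ComplexConjugate

variable {M : ℕ} [NeZero M]

/-- `e (x / M)` on `ZMod M`. -/
def zchar (x : ZMod M) : ℂ := eAdd ((x.val : ℝ) / M)

theorem zchar_natCast (n : ℕ) : zchar (n : ZMod M) = eAdd ((n : ℝ) / M) := by
  have hM : (M : ℝ) ≠ 0 := Nat.cast_ne_zero.2 (NeZero.ne M)
  rw [zchar, ZMod.val_natCast, ← ThreePrimes.eAdd_add_intCast _ ((n / M : ℕ) : ℤ)]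
  congr 1
  have h : (n : ℝ) = ((n % M : ℕ) : ℝ) + (M : ℝ) * ((n / M : ℕ) : ℝ) := by
    exact_mod_cast (Nat.mod_add_div n M).symm
  generalize n % M = u, n / M = v at h
  push_cast
  rw [h]
  field_simp

theorem zchar_add (x y : ZMod M) : zchar (x + y) = zchar x * zchar y := by
  conv_lhs => rw [← ZMod.natCast_zmod_val x, ← ZMod.natCast_zmod_val y, ← Nat.cast_add]
  rw [zchar_natCast, zchar, zchar, ← ThreePrimes.eAdd_add]
  push_cast
  ring_nf

omit [NeZero M] in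
theorem zchar_zero : zchar (0 : ZMod M) = 1 := by simp [zchar, ThreePrimes.eAdd_zero]

omit [NeZero M] in
theorem norm_zchar (x : ZMod M) : ‖zchar x‖ = 1 := ThreePrimes.norm_eAdd _

theorem conj_zchar (x : ZMod M) : conj (zchar x) = zchar (-x) := by
  have h : zchar x * zchar (-x) = 1 := by rw [← zchar_add, add_neg_cancel, zchar_zero]
  have h2 : conj (zchar x) * zchar x = 1 := by simp [Complex.conj_mul', norm_zchar]
  calc conj (zchar x) = conj (zchar x) * (zchar x * zchar (-x)) := by rw [h, mul_one]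
    _ = zchar (-x) := by rw [← mul_assoc, h2, one_mul]

/-- Orthogonality. -/
theorem sum_zchar_mul (x : ZMod M) : ∑ r, zchar (r * x) = if x = 0 then (M : ℂ) else 0 := by
  have h1 : ∑ r, zchar (r * x) = ∑ k ∈ range M, eAdd (((x.val : ℤ) : ℝ) * k / M) := by
    refine sum_nbij' ZMod.val (fun k => (k : ZMod M)) (fun r _ => mem_range.2 (ZMod.val_lt r))
      (fun k _ => mem_univ _) (fun r _ => ZMod.natCast_zmod_val r)
      (fun k hk => ZMod.val_cast_of_lt (mem_range.1 hk)) fun r _ => ?_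
    conv_lhs => rw [← ZMod.natCast_zmod_val r, ← ZMod.natCast_zmod_val x, ← Nat.cast_mul,
      zchar_natCast]
    push_cast
    ring_nf
  rw [h1, ThreePrimes.sum_eAdd_grid (Nat.pos_of_ne_zero (NeZero.ne M))]
  refine if_congr ?_ rfl rfl
  rw [← ZMod.intCast_zmod_eq_zero_iff_dvd, Int.cast_natCast, ZMod.natCast_zmod_val]

/-- The Fourier transform on `ZMod M`. -/
def zhat (f : ZMod M → ℝ) (r : ZMod M) : ℂ := ∑ x, (f x : ℂ) * zchar (r * x)

theorem norm_zhat_le {f : ZMod M → ℝ} (h0 : ∀ x, 0 ≤ f x) (r : ZMod M) :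
    ‖zhat f r‖ ≤ ∑ x, f x := by
  refine (norm_sum_le _ _).trans (le_of_eq (sum_congr rfl fun x _ => ?_))
  rw [norm_mul, norm_zchar, mul_one, Complex.norm_real, Real.norm_eq_abs, abs_of_nonneg (h0 x)]

/-- Inversion. -/
theorem sum_zhat_mul (f : ZMod M → ℝ) (x : ZMod M) :
    ∑ r, zhat f r * zchar (-(r * x)) = (M : ℂ) * (f x : ℂ) := by
  simp only [zhat, sum_mul, mul_assoc, ← zchar_add]
  rw [sum_comm]
  simp only [← mul_sum, ← sub_eq_add_neg, ← mul_sub, sum_zchar_mul, sub_eq_zero, mul_ite, mul_zero,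
    sum_ite_eq', mem_univ, if_true]
  rw [mul_comm]

/-- The count of `x + y + z = n`. -/
def tripleCount (f₀ f₁ f₂ : ZMod M → ℝ) (n : ZMod M) : ℝ :=
  ∑ x, ∑ y, f₀ x * f₁ y * f₂ (n - x - y)

theorem mul_tripleCount (f₀ f₁ f₂ : ZMod M → ℝ) (n : ZMod M) :
    (M : ℂ) * (tripleCount f₀ f₁ f₂ n : ℂ) =
      ∑ r, zhat f₀ r * zhat f₁ r * zhat f₂ r * zchar (-(r * n)) := by
  simp only [tripleCount, Complex.ofReal_sum, Complex.ofReal_mul, mul_sum]
  simp only [mul_left_comm (M : ℂ), ← sum_zhat_mul f₂, mul_sum]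
  rw [sum_congr rfl fun x _ => sum_comm, sum_comm]
  refine sum_congr rfl fun r _ => ?_
  rw [show zhat f₀ r * zhat f₁ r * zhat f₂ r * zchar (-(r * n)) =
    (zhat f₀ r * zhat f₁ r) * (zhat f₂ r * zchar (-(r * n))) by ring,
    show zhat f₀ r = ∑ x, (f₀ x : ℂ) * zchar (r * x) from rfl,
    show zhat f₁ r = ∑ x, (f₁ x : ℂ) * zchar (r * x) from rfl, sum_mul_sum, sum_mul]
  refine sum_congr rfl fun x _ => ?_
  rw [sum_mul]
  refine sum_congr rfl fun y _ => ?_
  rw [show -(r * (n - x - y)) = r * x + r * y + -(r * n) by ring, zchar_add, zchar_add]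
  ring

/-- The average of `zchar` over a set. -/
def setHat (B : Finset (ZMod M)) (r : ZMod M) : ℂ := (∑ b ∈ B, zchar (r * b)) / (B.card : ℂ)

/-- `f` averaged over `B - B`. -/
def smooth (B : Finset (ZMod M)) (f : ZMod M → ℝ) (x : ZMod M) : ℝ :=
  (∑ y ∈ B, ∑ z ∈ B, f (x - y + z)) / (B.card : ℝ) ^ 2

theorem zhat_smooth (B : Finset (ZMod M)) (f : ZMod M → ℝ) (r : ZMod M) :
    zhat (smooth B f) r = zhat f r * ((‖setHat B r‖ ^ 2 : ℝ) : ℂ) := by
  rw [Complex.ofReal_pow, ← Complex.mul_conj', setHat, map_div₀, map_natCast, div_mul_div_comm,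
    map_sum, sum_mul_sum, mul_div_assoc', mul_sum, zhat]
  simp only [smooth, Complex.ofReal_div, Complex.ofReal_sum, div_mul_eq_mul_div, ← sum_div, sq,
    sum_mul, mul_sum, Complex.ofReal_mul, Complex.ofReal_natCast]
  rw [sum_comm]
  congr 1
  refine sum_congr rfl fun y _ => ?_
  rw [sum_comm]
  refine sum_congr rfl fun z _ => ?_
  rw [zhat, sum_mul]
  refine sum_nbij' (fun x => x - y + z) (fun x => x + y - z) (fun _ _ => mem_univ _)
    (fun _ _ => mem_univ _) (fun x _ => by abel) (fun x _ => by abel) fun x _ => ?_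
  rw [conj_zchar, ← zchar_add, mul_assoc, ← zchar_add]
  congr 2
  ring

theorem sum_smooth {B : Finset (ZMod M)} (hB : B.Nonempty) (f : ZMod M → ℝ) :
    ∑ x, smooth B f x = ∑ x, f x := by
  simp only [smooth, ← sum_div]
  rw [sum_comm, sum_congr rfl fun y _ => sum_comm]
  have e : ∀ y z : ZMod M, ∑ x, f (x - y + z) = ∑ x, f x := fun y z => by
    rw [← Equiv.sum_comp (Equiv.addRight (-y + z)) f]
    exact sum_congr rfl fun x _ => by simp [sub_eq_add_neg, add_assoc]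
  have hB0 : (B.card : ℝ) ≠ 0 := Nat.cast_ne_zero.2 hB.card_pos.ne'
  simp only [e, sum_const, nsmul_eq_mul]
  field_simp

theorem sum_norm_sq_setHat (B : Finset (ZMod M)) :
    ∑ r, ‖setHat B r‖ ^ 2 = (M : ℝ) * B.card / (B.card : ℝ) ^ 2 := by
  apply Complex.ofReal_injective
  push_cast
  simp only [← Complex.mul_conj', setHat, map_div₀, map_natCast, div_mul_div_comm, map_sum,
    sum_mul_sum, conj_zchar, ← zchar_add, ← sum_div, ← sub_eq_add_neg, ← mul_sub]
  rw [sum_comm, sum_congr rfl fun b _ => sum_comm]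
  simp only [sum_zchar_mul, sub_eq_zero]
  rw [sq]
  congr 1
  rw [sum_congr rfl fun b hb => (sum_ite_eq B b _).trans (if_pos hb), sum_const, nsmul_eq_mul,
    mul_comm]

/-- **The smoothed majorant is almost at most `1`.** -/
theorem smooth_le {B : Finset (ZMod M)} (hB : B.Nonempty) {f ν u : ZMod M → ℝ}
    (hf : ∀ x, f x ≤ ν x) (hu : ∀ x, u x ≤ 1) {η : ℝ}
    (hclose : ∀ r, ‖zhat ν r - zhat u r‖ ≤ η * M) (x : ZMod M) :
    smooth B f x ≤ 1 + η * M / B.card := by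
  have hB0 : (0 : ℝ) < B.card := Nat.cast_pos.2 hB.card_pos
  have hM0 : (0 : ℝ) < M := Nat.cast_pos.2 (Nat.pos_of_ne_zero (NeZero.ne M))
  have h1 : smooth B f x ≤ smooth B ν x :=
    div_le_div_of_nonneg_right (sum_le_sum fun y _ => sum_le_sum fun z _ => hf _) (sq_nonneg _)
  have h2 : smooth B u x ≤ 1 := by
    rw [smooth, div_le_one (by positivity), sq]
    refine (sum_le_card_nsmul _ _ (B.card : ℝ) fun y _ => ?_).trans_eq (nsmul_eq_mul _ _)
    exact (sum_le_card_nsmul _ _ 1 fun z _ => hu _).trans_eq (by rw [nsmul_eq_mul, mul_one])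
  have h3 : |smooth B ν x - smooth B u x| ≤ η * M / B.card := by
    refine le_of_mul_le_mul_left ?_ hM0
    have e : ((M : ℝ) * |smooth B ν x - smooth B u x|) =
        ‖∑ r, (zhat ν r - zhat u r) * ((‖setHat B r‖ ^ 2 : ℝ) : ℂ) * zchar (-(r * x))‖ := by
      simp only [sub_mul, sum_sub_distrib, ← zhat_smooth, sum_zhat_mul]
      rw [← mul_sub, ← Complex.ofReal_sub, norm_mul, Complex.norm_natCast, Complex.norm_real,
        Real.norm_eq_abs]
    rw [e]
    refine (norm_sum_le _ _).trans ?_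
    refine (sum_le_sum (g := fun r => η * M * ‖setHat B r‖ ^ 2) fun r _ => ?_).trans ?_
    · rw [norm_mul, norm_mul, norm_zchar, mul_one, Complex.norm_real, Real.norm_eq_abs,
        abs_of_nonneg (sq_nonneg _)]
      exact mul_le_mul_of_nonneg_right (hclose r) (sq_nonneg _)
    · rw [← mul_sum, sum_norm_sq_setHat]
      refine le_of_eq ?_
      field_simp
  linarith [(abs_le.1 h3).2]

/-- **A large set on which the given characters are almost `1`.** -/
theorem exists_bohr (S : Finset (ZMod M)) {K : ℕ} (hK : 0 < K) :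
    ∃ B : Finset (ZMod M), B.Nonempty ∧ (M : ℝ) ≤ (K : ℝ) ^ S.card * B.card ∧
      ∀ r ∈ S, ∀ b ∈ B, ‖zchar (r * b) - 1‖ ≤ 8 / K := by
  classical
  have hM0 : (0 : ℝ) < M := Nat.cast_pos.2 (Nat.pos_of_ne_zero (NeZero.ne M))
  have hK0 : (0 : ℝ) < K := Nat.cast_pos.2 hK
  have hlt : ∀ y : ZMod M, y.val * K / M < K := fun y =>
    (Nat.div_lt_iff_lt_mul (Nat.pos_of_ne_zero (NeZero.ne M))).2
      (by rw [mul_comm K]; exact Nat.mul_lt_mul_of_pos_right (ZMod.val_lt y) hK)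
  obtain ⟨box, hbox⟩ : ∃ box : ZMod M → S → Fin K,
      box = fun y r => ⟨((r : ZMod M) * y).val * K / M, hlt _⟩ := ⟨_, rfl⟩
  have hc : (Finset.univ : Finset (ZMod M)).card = M := (card_univ).trans (ZMod.card M)
  obtain ⟨k, -, hk⟩ := exists_le_of_sum_le (s := (univ : Finset (S → Fin K)))
    (univ_nonempty_iff.2 ⟨fun _ => ⟨0, hK⟩⟩) (f := fun _ => (M : ℝ) / (K : ℝ) ^ S.card)
    (g := fun k => (((univ : Finset (ZMod M)).filter fun y => box y = k).card : ℝ)) (by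
      rw [sum_const, card_univ, Fintype.card_fun, Fintype.card_coe, Fintype.card_fin, nsmul_eq_mul,
        Nat.cast_pow, mul_div_cancel₀ _ (by positivity), ← Nat.cast_sum,
        ← card_eq_sum_card_fiberwise fun y _ => mem_univ (box y), hc])
  have hne : ((univ : Finset (ZMod M)).filter fun y => box y = k).Nonempty := by
    rw [nonempty_iff_ne_empty]
    intro h0
    rw [h0, card_empty, Nat.cast_zero] at hk
    exact absurd hk (not_le.2 (by positivity))
  obtain ⟨y₀, hy₀⟩ := hne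
  refine ⟨((univ : Finset (ZMod M)).filter fun y => box y = k).image (· - y₀),
    Nonempty.image ⟨y₀, hy₀⟩ _, ?_, fun r hr b hb => ?_⟩
  · rw [card_image_of_injective _ sub_left_injective, mul_comm]
    rwa [div_le_iff₀ (by positivity)] at hk
  obtain ⟨y, hy, rfl⟩ := mem_image.1 hb
  rw [mem_filter] at hy hy₀
  have e : (r * y).val * K / M = (r * y₀).val * K / M := by
    have := congrFun (hy.2.trans hy₀.2.symm) ⟨r, hr⟩
    rw [hbox] at this
    exact congrArg Fin.val this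
  have hnear : |((r * y).val : ℝ) / M - ((r * y₀).val : ℝ) / M| ≤ 1 / K := by
    have h1 := Nat.div_add_mod ((r * y).val * K) M
    have h2 := Nat.div_add_mod ((r * y₀).val * K) M
    have h3 := Nat.mod_lt ((r * y).val * K) (Nat.pos_of_ne_zero (NeZero.ne M))
    have h4 := Nat.mod_lt ((r * y₀).val * K) (Nat.pos_of_ne_zero (NeZero.ne M))
    rw [e] at h1
    generalize (r * y).val = u at h1 h3 ⊢
    generalize (r * y₀).val = v at h1 h2 h4 ⊢
    have a1 : (u : ℝ) * K ≤ v * K + M := by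
      exact_mod_cast (show u * K ≤ v * K + M by omega)
    have a2 : (v : ℝ) * K ≤ u * K + M := by
      exact_mod_cast (show v * K ≤ u * K + M by omega)
    rw [← sub_div, abs_div, Nat.abs_cast, div_le_div_iff₀ hM0 hK0]
    rcases abs_cases ((u : ℝ) - v) with ⟨h, -⟩ | ⟨h, -⟩ <;> rw [h] <;> linarith
  have e2 : zchar (r * (y - y₀)) - 1 =
      conj (zchar (r * y₀)) * (zchar (r * y) - zchar (r * y₀)) := by
    rw [mul_sub (conj _), conj_zchar, ← zchar_add, ← zchar_add, neg_add_cancel, zchar_zero]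
    congr 2
    ring
  rw [e2, norm_mul, Complex.norm_conj, norm_zchar, one_mul, zchar, zchar]
  have e3 : eAdd (((r * y).val : ℝ) / M) - eAdd (((r * y₀).val : ℝ) / M) =
      eAdd (((r * y₀).val : ℝ) / M) *
        (eAdd (((r * y).val : ℝ) / M - ((r * y₀).val : ℝ) / M) - 1) := by
    rw [mul_sub, ← ThreePrimes.eAdd_add, add_sub_cancel, mul_one]
  rw [e3, norm_mul, ThreePrimes.norm_eAdd, one_mul]
  refine (ThreePrimes.norm_eAdd_sub_one_le _).trans ?_
  refine (mul_le_mul_of_nonneg_left hnear (by positivity)).trans ?_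
  rw [mul_one_div]
  exact div_le_div_of_nonneg_right (by linarith [Real.pi_le_four]) hK0.le

theorem prod_three_le {a b c : ℝ} (ha : 0 ≤ a) (hb : 0 ≤ b) (hc : 0 ≤ c) :
    a * b * c ≤ a ^ 3 + b ^ 3 + c ^ 3 := by
  have h1 : a * b * c ≤ max a (max b c) * max a (max b c) * max a (max b c) := by
    gcongr
    exacts [le_max_left _ _, le_max_of_le_right (le_max_left _ _),
      le_max_of_le_right (le_max_right _ _)]
  refine h1.trans ?_
  have := pow_nonneg ha 3
  have := pow_nonneg hb 3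
  have := pow_nonneg hc 3
  rcases max_choice a (max b c) with h | h <;> rw [h]
  · linarith [show a * a * a = a ^ 3 by ring]
  · rcases max_choice b c with h | h <;> rw [h]
    · linarith [show b * b * b = b ^ 3 by ring]
    · linarith [show c * c * c = c ^ 3 by ring]

theorem cube_le_of_le {x y : ℝ} (hx : 0 ≤ x) (h : x ≤ y) :
    x ^ 3 ≤ √y * x ^ (5 / 2 : ℝ) := by
  rw [show x ^ 3 = x ^ (1 / 2 : ℝ) * x ^ (5 / 2 : ℝ) by
    rw [← Real.rpow_add_of_nonneg hx (by norm_num) (by norm_num), ← Real.rpow_natCast]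
    norm_num, ← Real.sqrt_eq_rpow]
  exact mul_le_mul_of_nonneg_right (Real.sqrt_le_sqrt h) (Real.rpow_nonneg hx _)

/-- **The transference.** -/
theorem exists_transference {C ε : ℝ} (hC : 0 < C) (hε : 0 < ε) : ∃ η : ℝ, 0 < η ∧
    ∀ (M : ℕ) [NeZero M] (f ν : Fin 3 → ZMod M → ℝ) (u : ZMod M → ℝ),
      (∀ i x, 0 ≤ f i x ∧ f i x ≤ ν i x) → (∀ x, 0 ≤ u x ∧ u x ≤ 1) →
      (∀ i r, ‖zhat (ν i) r - zhat u r‖ ≤ η * M) →
      (∀ i, ∑ r, ‖zhat (f i) r‖ ^ (5 / 2 : ℝ) ≤ C * (M : ℝ) ^ (5 / 2 : ℝ)) →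
      ∃ g : Fin 3 → ZMod M → ℝ, (∀ i x, 0 ≤ g i x ∧ g i x ≤ 1 + ε) ∧
        (∀ i, ∑ x, g i x = ∑ x, f i x) ∧
        ∀ n, tripleCount (g 0) (g 1) (g 2) n ≤
          tripleCount (f 0) (f 1) (f 2) n + ε * (M : ℝ) ^ 2 := by
  obtain ⟨δ, hδ⟩ : ∃ δ, δ = min 1 ((ε / (450 * C)) ^ 2) := ⟨_, rfl⟩
  have hδ0 : 0 < δ := hδ ▸ lt_min one_pos (by positivity)
  have hδ1 : δ ≤ 1 := hδ ▸ min_le_left _ _
  obtain ⟨K, hK⟩ : ∃ K, K = ⌈1 / δ⌉₊ := ⟨_, rfl⟩
  have hK1 : 1 / δ ≤ K := hK ▸ Nat.le_ceil _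
  have hK0 : 0 < K := hK ▸ Nat.ceil_pos.2 (by positivity)
  obtain ⟨s, hs⟩ : ∃ s, s = ⌈3 * C / δ ^ (5 / 2 : ℝ)⌉₊ := ⟨_, rfl⟩
  refine ⟨min 1 (ε / (K : ℝ) ^ s), lt_min one_pos (by positivity),
    fun M _ f ν u hf hu hclose hres => ?_⟩
  classical
  have hM0 : (0 : ℝ) < M := Nat.cast_pos.2 (Nat.pos_of_ne_zero (NeZero.ne M))
  have htop : ∀ i r, ‖zhat (f i) r‖ ≤ 2 * M := fun i r => by
    refine (norm_zhat_le (fun x => (hf i x).1) r).trans
      ((sum_le_sum fun x _ => (hf i x).2).trans ?_)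
    have h1 := (Complex.abs_re_le_norm _).trans (hclose i 0)
    simp only [zhat, zero_mul, zchar_zero, mul_one, Complex.sub_re, Complex.re_sum,
      Complex.ofReal_re] at h1
    have h2 : ∑ x, u x ≤ M := (sum_le_card_nsmul _ _ 1 fun x _ => (hu x).2).trans_eq (by
      rw [nsmul_eq_mul, mul_one, card_univ, ZMod.card])
    nlinarith [abs_le.1 h1, min_le_left 1 (ε / (K : ℝ) ^ s)]
  obtain ⟨S, hS⟩ : ∃ S : Finset (ZMod M), S = univ.filter fun r =>
      ∃ i, δ * M ≤ ‖zhat (f i) r‖ := ⟨_, rfl⟩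
  have hScard : S.card ≤ s := by
    rw [hs, ← Nat.cast_le (α := ℝ)]
    refine le_trans ?_ (Nat.le_ceil _)
    rw [le_div_iff₀ (by positivity)]
    refine le_of_mul_le_mul_right ?_ (show (0 : ℝ) < (M : ℝ) ^ (5 / 2 : ℝ) by positivity)
    rw [mul_assoc, ← Real.mul_rpow hδ0.le hM0.le, ← nsmul_eq_mul]
    refine
      ((card_nsmul_le_sum S (fun r => ∑ i, ‖zhat (f i) r‖ ^ (5 / 2 : ℝ)) _ fun r hr => ?_).trans
      (sum_le_sum_of_subset_of_nonneg (subset_univ S) fun r _ _ => by positivity)).trans ?_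
    · rw [hS, mem_filter] at hr
      obtain ⟨i, hi⟩ := hr.2
      exact le_trans (Real.rpow_le_rpow (by positivity) hi (by norm_num))
        (single_le_sum (f := fun i => ‖zhat (f i) r‖ ^ (5 / 2 : ℝ))
          (fun j _ => by positivity) (mem_univ i))
    · rw [sum_comm, Fin.sum_univ_three]
      linarith [hres 0, hres 1, hres 2]
  obtain ⟨B, hB, hBcard, hBchar⟩ := exists_bohr S hK0
  have hB0 : (0 : ℝ) < B.card := Nat.cast_pos.2 hB.card_pos
  refine ⟨fun i => smooth B (f i), fun i x => ⟨?_, ?_⟩, fun i => sum_smooth hB (f i), fun n => ?_⟩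
  · exact div_nonneg (sum_nonneg fun y _ => sum_nonneg fun z _ => (hf i _).1) (sq_nonneg _)
  · refine (smooth_le hB (fun x => (hf i x).2) (fun x => (hu x).2) (hclose i) x).trans ?_
    have hK' : (1 : ℝ) ≤ K := Nat.one_le_cast.2 hK0
    rw [add_le_add_iff_left, div_le_iff₀ hB0]
    calc min 1 (ε / (K : ℝ) ^ s) * M
        ≤ ε / (K : ℝ) ^ s * ((K : ℝ) ^ S.card * B.card) := by
          refine mul_le_mul (min_le_right _ _) hBcard hM0.le (by positivity)
      _ ≤ ε / (K : ℝ) ^ s * ((K : ℝ) ^ s * B.card) := by gcongr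
      _ = ε * B.card := by field_simp
  obtain ⟨β, hβ⟩ : ∃ β : ZMod M → ℝ, β = fun r => ‖setHat B r‖ ^ 2 := ⟨_, rfl⟩
  have hβ1 : ∀ r, 0 ≤ β r ∧ β r ≤ 1 := fun r => by
    rw [hβ]
    refine ⟨sq_nonneg _, pow_le_one₀ (norm_nonneg _) ?_⟩
    rw [setHat, norm_div, Complex.norm_natCast, div_le_one hB0]
    exact (norm_sum_le _ _).trans_eq (by simp [norm_zchar])
  have hβS : ∀ r ∈ S, 1 - β r ≤ 16 * δ := fun r hr => by
    have h1 : ‖setHat B r - 1‖ ≤ 8 * δ := by
      rw [setHat, div_sub_one (Nat.cast_ne_zero.2 hB.card_pos.ne'), norm_div, Complex.norm_natCast,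
        div_le_iff₀ hB0, show (B.card : ℂ) = ∑ _b ∈ B, (1 : ℂ) by simp, ← sum_sub_distrib]
      refine (norm_sum_le _ _).trans ((sum_le_card_nsmul _ _ (8 * δ) fun b hb => ?_).trans_eq
        (by rw [nsmul_eq_mul, mul_comm]))
      refine (hBchar r hr b hb).trans ?_
      rw [div_le_iff₀ (Nat.cast_pos.2 hK0)]
      rw [div_le_iff₀ hδ0] at hK1
      linarith
    have h2 := norm_sub_norm_le (1 : ℂ) (setHat B r)
    rw [norm_one, norm_sub_rev] at h2
    rw [hβ]
    nlinarith [norm_nonneg (setHat B r), mul_self_nonneg (1 - ‖setHat B r‖)]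
  obtain ⟨P, hP⟩ : ∃ P : ZMod M → ℝ,
      P = fun r => ‖zhat (f 0) r‖ * ‖zhat (f 1) r‖ * ‖zhat (f 2) r‖ := ⟨_, rfl⟩
  have hdiff : (M : ℝ) * (tripleCount (smooth B (f 0)) (smooth B (f 1)) (smooth B (f 2)) n -
      tripleCount (f 0) (f 1) (f 2) n) ≤ ∑ r, P r * (1 - β r ^ 3) := by
    refine (le_abs_self _).trans ?_
    rw [← Real.norm_eq_abs, ← Complex.norm_real]
    push_cast
    rw [mul_sub, mul_tripleCount, mul_tripleCount, ← sum_sub_distrib]
    refine (norm_sum_le _ _).trans (le_of_eq (sum_congr rfl fun r _ => ?_))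
    simp only [zhat_smooth]
    rw [show ∀ a b c z : ℂ, ∀ t : ℂ, a * t * (b * t) * (c * t) * z - a * b * c * z =
      a * b * c * z * (t ^ 3 - 1) from fun a b c z t => by ring, norm_mul, norm_mul, norm_mul,
      norm_mul, norm_zchar, mul_one, hP, hβ]
    simp only
    rw [← Complex.ofReal_pow, ← Complex.ofReal_one, ← Complex.ofReal_sub, Complex.norm_real,
      Real.norm_eq_abs, abs_sub_comm, abs_of_nonneg (sub_nonneg.2 (pow_le_one₀ (sq_nonneg _)
        (by have := (hβ1 r).2; rwa [hβ] at this)))]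
  have hsqM : √(M : ℝ) * (M : ℝ) ^ (5 / 2 : ℝ) = (M : ℝ) * (M : ℝ) ^ 2 := by
    rw [Real.sqrt_eq_rpow, ← Real.rpow_add hM0, ← pow_succ', ← Real.rpow_natCast]
    norm_num
  have hbound : ∀ r, P r * (1 - β r ^ 3) ≤
      150 * √δ * √(M : ℝ) * ∑ i, ‖zhat (f i) r‖ ^ (5 / 2 : ℝ) := by
    intro r
    have hsum0 : 0 ≤ ∑ i, ‖zhat (f i) r‖ ^ (5 / 2 : ℝ) := sum_nonneg fun i _ => by positivity
    have hP0 : 0 ≤ P r := hP ▸ by positivity
    have hP3 : ∀ y, (∀ i, ‖zhat (f i) r‖ ≤ y) →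
        P r ≤ √y * ∑ i, ‖zhat (f i) r‖ ^ (5 / 2 : ℝ) := fun y hy => by
      rw [hP, Fin.sum_univ_three, mul_add, mul_add]
      exact (prod_three_le (norm_nonneg _) (norm_nonneg _) (norm_nonneg _)).trans
        (add_le_add (add_le_add (cube_le_of_le (norm_nonneg _) (hy 0))
          (cube_le_of_le (norm_nonneg _) (hy 1))) (cube_le_of_le (norm_nonneg _) (hy 2)))
    obtain ⟨hb0, hb1⟩ := hβ1 r
    have hb3 : 1 - β r ^ 3 ≤ 3 * (1 - β r) := by
      nlinarith [mul_nonneg (sq_nonneg (1 - β r)) (show 0 ≤ 2 + β r by linarith)]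
    have hb31 : 1 - β r ^ 3 ≤ 1 := by have := pow_nonneg hb0 3; linarith
    have hb30 : 0 ≤ 1 - β r ^ 3 := sub_nonneg.2 (pow_le_one₀ hb0 hb1)
    by_cases hr : r ∈ S
    · have h2 : √(2 * M) ≤ 2 * √(M : ℝ) := by
        rw [Real.sqrt_le_left (by positivity), mul_pow, Real.sq_sqrt hM0.le]
        linarith
      have h3 : δ ≤ √δ := Real.le_sqrt_of_sq_le (by nlinarith)
      refine (mul_le_mul (hP3 (2 * M) fun i => htop i r) (hb3.trans (mul_le_mul_of_nonneg_left
        (hβS r hr) (by norm_num))) hb30 (by positivity)).trans ?_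
      calc √(2 * (M : ℝ)) * (∑ i, ‖zhat (f i) r‖ ^ (5 / 2 : ℝ)) * (3 * (16 * δ))
          ≤ 2 * √(M : ℝ) * (∑ i, ‖zhat (f i) r‖ ^ (5 / 2 : ℝ)) * (3 * (16 * √δ)) := by gcongr
        _ ≤ _ := by
          have : 0 ≤ √δ * √(M : ℝ) * ∑ i, ‖zhat (f i) r‖ ^ (5 / 2 : ℝ) := by positivity
          linarith
    · refine (mul_le_of_le_one_right hP0 hb31).trans ((hP3 (δ * M) fun i => ?_).trans ?_)
      · by_contra hlt
        exact hr (hS ▸ mem_filter.2 ⟨mem_univ r, i, (not_le.1 hlt).le⟩)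
      · rw [Real.sqrt_mul hδ0.le]
        have : 0 ≤ √δ * √(M : ℝ) * ∑ i, ‖zhat (f i) r‖ ^ (5 / 2 : ℝ) := by positivity
        linarith
  have hfin : ∑ r, P r * (1 - β r ^ 3) ≤ (M : ℝ) * (ε * (M : ℝ) ^ 2) := by
    refine (sum_le_sum fun r _ => hbound r).trans ?_
    rw [← mul_sum, sum_comm, Fin.sum_univ_three]
    have hδε : 450 * C * √δ ≤ ε := by
      have h1 : √δ ≤ ε / (450 * C) := by
        rw [Real.sqrt_le_left (by positivity), hδ]
        exact min_le_right _ _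
      rwa [le_div_iff₀ (by positivity), mul_comm] at h1
    calc 150 * √δ * √(M : ℝ) * (∑ r, ‖zhat (f 0) r‖ ^ (5 / 2 : ℝ) +
          ∑ r, ‖zhat (f 1) r‖ ^ (5 / 2 : ℝ) + ∑ r, ‖zhat (f 2) r‖ ^ (5 / 2 : ℝ))
        ≤ 150 * √δ * √(M : ℝ) * (C * (M : ℝ) ^ (5 / 2 : ℝ) + C * (M : ℝ) ^ (5 / 2 : ℝ) +
          C * (M : ℝ) ^ (5 / 2 : ℝ)) :=
          mul_le_mul_of_nonneg_left (add_le_add (add_le_add (hres 0) (hres 1)) (hres 2))
            (by positivity)
      _ = 450 * C * √δ * (√(M : ℝ) * (M : ℝ) ^ (5 / 2 : ℝ)) := by ring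
      _ ≤ ε * ((M : ℝ) * (M : ℝ) ^ 2) := by
          rw [hsqM]
          exact mul_le_mul_of_nonneg_right hδε (by positivity)
      _ = _ := by ring
  linarith [le_of_mul_le_mul_left (hdiff.trans hfin) hM0]

end FA.DenseThreePrimes
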