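import Fermat.Agent.DenseThreePrimes.Restriction
import Fermat.Agent.DenseThreePrimes.Transference
import Fermat.Agent.Root.SummaryPrimeNumberTheorem

/-!
# The weights on `ZMod M` and the prime counts

The restriction moment of weights below the weighted primes of one class on `ZMod M`, and the two
consequences of the prime number theorem that are needed.
-/

set_option autoImplicit false

noncomputable section

namespace FA.DenseThreePrimes

open Finset Filter
open FA.ThreePrimes (eAdd geomSum trigSum)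
open scoped Real Nat.Prime

/-- The weights satisfy the hypotheses of the restriction estimate. -/
theorem eventually_isTrickMajorant (A : ℕ) {Q a : ℕ} (hQ : 0 < Q) (haQ : a < Q)
    (ha : a.Coprime Q) : ∀ᶠ L : ℕ in atTop, IsTrickMajorant A L (trickWeight Q a) := by
  filter_upwards [eventually_trick_majorant A hQ haQ ha,
    eventually_trick_fourier (W := 1) hQ haQ ha
      (fun p hp hp1 => absurd hp1 (not_le.2 hp.one_lt)) (show (0 : ℝ) < 8 by norm_num)
      (by norm_num),
    eventually_ge_atTop (2 * Q)] with L hmaj hfour hL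
  refine ⟨trickWeight_nonneg Q a, ?_, fun n hn => ?_, hmaj⟩
  · have h := (Complex.abs_re_le_norm _).trans (hfour 0)
    simp only [trickSum, geomSum, mul_zero, ThreePrimes.eAdd_zero, mul_one, Complex.sub_re,
      Complex.re_sum, Complex.ofReal_re, Complex.natCast_re, sum_const, Nat.card_Ioc, Nat.sub_zero,
      nsmul_eq_mul] at h
    linarith [abs_le.1 h]
  · rw [mem_Icc] at hn
    have hb : Real.log ((Q * n + a : ℕ) : ℝ) ≤ 2 * Real.log L := by
      have h1 : Q * n + a ≤ L ^ 2 := by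
        have h2 : Q * n ≤ Q * L := Nat.mul_le_mul_left Q hn.2
        have h3 : a ≤ Q * L := haQ.le.trans (Nat.le_mul_of_pos_right Q (by omega))
        rw [sq]
        nlinarith
      rw [show (2 : ℝ) * Real.log L = Real.log ((L ^ 2 : ℕ) : ℝ) by
        push_cast; rw [Real.log_pow]; norm_num]
      exact Real.log_le_log (Nat.cast_pos.2 (Nat.lt_of_lt_of_le (Nat.mul_pos hQ hn.1)
        (Nat.le_add_right _ a))) (Nat.cast_le.2 h1)
    rw [trickWeight]
    split_ifs with hp
    · exact (mul_le_of_le_one_left (Real.log_natCast_nonneg _) (totient_div_le_one Q)).trans hb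
    · rw [mul_zero]
      exact le_trans (Real.log_natCast_nonneg _) hb

/-- `ZMod M` as `1, …, M`. -/
theorem sum_zmod_eq_sum_Icc {α : Type*} [AddCommMonoid α] {M : ℕ} [NeZero M] (F : ZMod M → α) :
    ∑ x, F x = ∑ n ∈ Icc 1 M, F (n : ZMod M) := by
  have hM : 0 < M := Nat.pos_of_ne_zero (NeZero.ne M)
  refine sum_nbij' (fun x => if x.val = 0 then M else x.val) (fun n => (n : ZMod M)) ?_ ?_ ?_ ?_ ?_
  · intro x _
    rw [mem_Icc]
    have := ZMod.val_lt x
    split_ifs <;> omega
  · exact fun n _ => mem_univ _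
  · intro x _
    split_ifs with h
    · rw [ZMod.natCast_self, (ZMod.val_eq_zero x).1 h]
    · rw [ZMod.natCast_zmod_val]
  · intro n hn
    rw [mem_Icc] at hn
    rcases hn.2.eq_or_lt with h | h
    · subst h
      simp
    · rw [ZMod.val_cast_of_lt h, if_neg (by omega)]
  · intro x _
    split_ifs with h
    · rw [ZMod.natCast_self, (ZMod.val_eq_zero x).1 h]
    · rw [ZMod.natCast_zmod_val]

/-- **The moment on `ZMod M` of a function below a weight.** -/
theorem exists_zhat_moment : ∃ (A : ℕ) (C : ℝ), 0 < C ∧ ∀ (M : ℕ) [NeZero M] (w : ℕ → ℝ)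
    (f : ZMod M → ℝ), IsTrickMajorant A M w → (∀ x, 0 ≤ f x) →
      (∀ n ∈ Icc 1 M, f (n : ZMod M) ≤ w n) →
        ∑ r, ‖zhat f r‖ ^ (5 / 2 : ℝ) ≤ C * (M : ℝ) ^ (5 / 2 : ℝ) := by
  obtain ⟨A, C, hC, h⟩ := exists_weighted_restriction (show (2 : ℝ) < 5 / 2 by norm_num)
  refine ⟨A, C * 9 ^ (5 / 4 : ℝ), by positivity, fun M _ w f hw hf hle => ?_⟩
  have hM : 0 < M := Nat.pos_of_ne_zero (NeZero.ne M)
  obtain ⟨a, ha⟩ : ∃ a : ℕ → ℂ,
      a = fun n : ℕ => ((f (n : ZMod M) / √(w n) : ℝ) : ℂ) := ⟨_, rfl⟩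
  have hmain : ∀ r : ZMod M, zhat f r = wRestrict M w a r.val := by
    intro r
    rw [zhat, sum_zmod_eq_sum_Icc, wRestrict]
    refine sum_congr rfl fun n hn => ?_
    rw [ha]
    simp only
    rw [show (r * (n : ZMod M)) = ((r.val * n : ℕ) : ZMod M) by
      rw [Nat.cast_mul, ZMod.natCast_zmod_val], zchar_natCast, ← Complex.ofReal_mul]
    congr 2
    · rcases (Real.sqrt_nonneg (w n)).eq_or_lt with h0 | h0
      · rw [← h0, mul_zero]
        refine le_antisymm ?_ (hf _)
        exact (hle n hn).trans (Real.sqrt_eq_zero'.1 h0.symm)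
      · rw [div_mul_cancel₀ _ h0.ne']
    · push_cast
      ring
  have henergy : PrimeRestriction.energy M a ≤ 9 * M := by
    refine le_trans (sum_le_sum fun n hn => ?_) hw.sum_le
    rw [ha, Complex.norm_real, Real.norm_eq_abs, sq_abs, div_pow, Real.sq_sqrt (hw.nonneg n)]
    rcases (hw.nonneg n).eq_or_lt with h0 | h0
    · rw [← h0, div_zero]
    · rw [div_le_iff₀ h0]
      exact (pow_le_pow_left₀ (hf _) (hle n hn) 2).trans_eq (sq _)
  have e : ∑ r : ZMod M, ‖zhat f r‖ ^ (5 / 2 : ℝ) =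
      ∑ k ∈ range M, ‖wRestrict M w a k‖ ^ (5 / 2 : ℝ) := by
    refine sum_nbij' ZMod.val (fun k => (k : ZMod M)) (fun r _ => mem_range.2 (ZMod.val_lt r))
      (fun k _ => mem_univ _) (fun r _ => ZMod.natCast_zmod_val r)
      (fun k hk => ZMod.val_cast_of_lt (mem_range.1 hk)) fun r _ => by rw [hmain]
  rw [e]
  refine (h M hM w hw a).trans ?_
  rw [mul_assoc]
  refine mul_le_mul_of_nonneg_left ?_ hC.le
  refine (Real.rpow_le_rpow (mul_nonneg (Nat.cast_nonneg M) (PrimeRestriction.energy_nonneg _ _))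
    (mul_le_mul_of_nonneg_left henergy (Nat.cast_nonneg M)) (by norm_num)).trans (le_of_eq ?_)
  rw [show (M : ℝ) * (9 * M) = 9 * (M : ℝ) ^ (2 : ℝ) by rw [Real.rpow_two]; ring,
    Real.mul_rpow (by norm_num) (by positivity), ← Real.rpow_mul (Nat.cast_nonneg M)]
  norm_num

/-- `π n log n ≥ (1 - ε) n`. -/
theorem eventually_primeCounting_log {ε : ℝ} (hε : 0 < ε) :
    ∀ᶠ n : ℕ in atTop, (1 - ε) * n ≤ (π n : ℝ) * Real.log n := by
  have h := (PNT.Summary.prime_number_theorem.eventually_const_le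
    (show 1 - ε < 1 by linarith))
  filter_upwards [(tendsto_natCast_atTop_atTop (R := ℝ)).eventually h, eventually_gt_atTop 0]
    with n hn hn0
  rwa [Nat.floor_natCast, le_div_iff₀ (Nat.cast_pos.2 hn0)] at hn

/-- The primes of a set with a lower bound relative to `π` carry that share of `∑ log p`. -/
theorem eventually_log_mass {η : ℝ} (hη : 0 < η) (hη1 : η ≤ 1) (Q : ℕ) :
    ∀ᶠ n : ℕ in atTop, ∀ δ : ℝ, 0 ≤ δ → δ ≤ 1 → ∀ S : Finset ℕ,
      (∀ p ∈ S, p ≤ n) → δ * (π n : ℝ) ≤ S.card →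
        (δ - 3 * η) * n ≤ ∑ p ∈ S.filter (fun p => Q < p), Real.log p := by
  have hlog := Real.tendsto_log_atTop.comp (tendsto_natCast_atTop_atTop (R := ℝ))
  filter_upwards [eventually_primeCounting_log hη, hlog.eventually_ge_atTop (1 / η + 2),
    eventually_log_conditions 4 ((Q : ℝ) + 2 + 16 / η ^ 2), eventually_gt_atTop 1]
    with n hπ hl hl2 hn
  intro δ hδ0 hδ1 S hS hcard
  obtain ⟨hlQ, hl4⟩ := hl2
  simp only [Function.comp_apply] at hl
  obtain ⟨l, hlr⟩ : ∃ l, l = Real.log n := ⟨_, rfl⟩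
  rw [← hlr] at hπ hl hlQ hl4
  have hQ0 : (0 : ℝ) ≤ Q := Nat.cast_nonneg Q
  have hη2 : (0 : ℝ) ≤ 16 / η ^ 2 := by positivity
  have hl0 : 0 < l := by linarith
  have hn0 : (0 : ℝ) < n := Nat.cast_pos.2 (by omega)
  obtain ⟨y, hy⟩ : ∃ y, y = (n : ℝ) / l ^ 2 := ⟨_, rfl⟩
  have hy0 : 0 < y := hy ▸ by positivity
  have hQy : (Q : ℝ) ≤ y := by
    rw [hy, le_div_iff₀ (by positivity)]
    refine le_trans ?_ hl4
    calc (Q : ℝ) * l ^ 2 ≤ l ^ 2 * l ^ 2 := by
          refine mul_le_mul_of_nonneg_right ?_ (by positivity)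
          nlinarith
      _ = l ^ 4 := by ring
  have hsmall : ((S.filter fun p : ℕ => (p : ℝ) ≤ y).card : ℝ) ≤ y + 1 := by
    refine le_trans (Nat.cast_le.2 (card_le_card (t := range (⌊y⌋₊ + 1)) fun p hp => ?_)) ?_
    · rw [mem_filter] at hp
      exact mem_range.2 (Nat.lt_succ_of_le (Nat.le_floor hp.2))
    · rw [card_range]
      push_cast
      linarith [Nat.floor_le hy0.le]
  have hbig : (δ * (π n : ℝ) - (y + 1)) ≤ ((S.filter fun p : ℕ => ¬ (p : ℝ) ≤ y).card : ℝ) := by
    have := card_filter_add_card_filter_not (s := S) (fun p : ℕ => (p : ℝ) ≤ y)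
    rw [← this] at hcard
    push_cast at hcard
    linarith
  have hlogy : (1 - η) * l ≤ Real.log y := by
    rw [hy, Real.log_div hn0.ne' (by positivity), ← hlr, Real.log_pow]
    have h2 := Real.log_le_rpow_div hl0.le (show (0 : ℝ) < 1 / 2 by norm_num)
    rw [← Real.sqrt_eq_rpow] at h2
    push_cast
    have h3 : √l * (4 : ℝ) ≤ η * l := by
      have h4 : 4 / η ≤ √l := by
        refine Real.le_sqrt_of_sq_le ?_
        rw [div_pow]
        linarith
      rw [div_le_iff₀ hη] at h4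
      calc √l * 4 ≤ √l * (√l * η) := mul_le_mul_of_nonneg_left h4 (Real.sqrt_nonneg l)
        _ = η * l := by rw [← mul_assoc, Real.mul_self_sqrt hl0.le, mul_comm]
    linarith
  refine le_trans ?_ (sum_le_sum_of_subset_of_nonneg
    (s := S.filter fun p : ℕ => ¬ (p : ℝ) ≤ y) (fun p hp => ?_)
    fun p _ _ => Real.log_natCast_nonneg p)
  swap
  · rw [mem_filter] at hp ⊢
    refine ⟨hp.1, ?_⟩
    exact_mod_cast hQy.trans_lt (not_le.1 hp.2)
  refine le_trans ?_ (card_nsmul_le_sum _ _ ((1 - η) * l) fun p hp => ?_)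
  · rw [nsmul_eq_mul]
    refine le_trans ?_ (mul_le_mul_of_nonneg_right hbig (mul_nonneg (by linarith) hl0.le))
    have h5 : (y + 1) * l ≤ η * n := by
      have h6 : y * l = (n : ℝ) / l := by rw [hy]; field_simp
      have h7 : (n : ℝ) / l ≤ η / 2 * n := by
        rw [div_le_iff₀ hl0]
        have : 2 ≤ η * l := by
          have h8 : η * (16 / η ^ 2) ≤ η * l := mul_le_mul_of_nonneg_left (by linarith) hη.le
          have h9 : η * (16 / η ^ 2) = 16 / η := by field_simp
          have : 16 ≤ 16 / η := by rw [le_div_iff₀ hη]; linarith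
          linarith
        nlinarith
      have h10 : l ≤ η / 2 * n := by
        refine le_trans ?_ h7
        rw [le_div_iff₀ hl0]
        refine le_trans ?_ hl4
        have h8 : l ^ 2 ≤ l ^ 4 := pow_le_pow_right₀ (by linarith) (by norm_num)
        rwa [← sq]
      linarith
    have h11 := mul_le_mul_of_nonneg_left hπ (mul_nonneg hδ0 (show 0 ≤ 1 - η by linarith))
    have h12 := mul_le_mul_of_nonneg_left h5 (show 0 ≤ 1 - η by linarith)
    nlinarith [mul_nonneg (mul_nonneg hη.le hn0.le) (sub_nonneg.2 hδ1)]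
  · rw [mem_filter, not_le] at hp
    exact hlogy.trans (Real.log_le_log hy0 hp.2.le)

end FA.DenseThreePrimes
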