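import Fermat.Agent.DenseThreePrimes.Pollard
import Fermat.Agent.DenseThreePrimes.Residues
import Fermat.Agent.DenseThreePrimes.Weights
import Mathlib.NumberTheory.Primorial

/-!
# The theorem of Li and Pan

Three sets of primes with relative densities of sum above `2` represent every large odd `N` at
least `c N ^ 2 / (log N) ^ 3` times as `p₀ + p₁ + p₂`.
-/

set_option autoImplicit false

noncomputable section

namespace FA.DenseThreePrimes

open Finset Filter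
open FA.ThreePrimes (eAdd geomSum)
open scoped Real Nat.Prime

/-- The weights of the elements of `S` in one class, on `ZMod M`. -/
def trickFun (Q a L : ℕ) (S : Finset ℕ) {M : ℕ} (x : ZMod M) : ℝ :=
  if x.val ∈ Icc 1 L then (if Q * x.val + a ∈ S then trickWeight Q a x.val else 0) else 0

theorem trickFun_nonneg (Q a L : ℕ) (S : Finset ℕ) {M : ℕ} (x : ZMod M) :
    0 ≤ trickFun Q a L S x := by
  rw [trickFun]
  split_ifs
  exacts [trickWeight_nonneg _ _ _, le_rfl, le_rfl]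

theorem trickFun_le (Q a L : ℕ) (S : Finset ℕ) {M : ℕ} (x : ZMod M) :
    trickFun Q a L S x ≤ if x.val ∈ Icc 1 L then trickWeight Q a x.val else 0 := by
  rw [trickFun]
  split_ifs
  exacts [le_rfl, trickWeight_nonneg _ _ _, le_rfl]

/-- A sum over `1, …, L` inside `ZMod M`. -/
theorem sum_zmod_interval {α : Type*} [AddCommMonoid α] {M L : ℕ} [NeZero M] (hLM : L < M)
    (F : ℕ → α) : ∑ x : ZMod M, (if x.val ∈ Icc 1 L then F x.val else 0) = ∑ n ∈ Icc 1 L, F n := by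
  rw [← sum_filter]
  refine sum_nbij' ZMod.val (fun n => (n : ZMod M)) ?_ ?_ (fun x _ => ZMod.natCast_zmod_val x) ?_
    fun _ _ => rfl
  · exact fun x hx => (mem_filter.1 hx).2
  · intro n hn
    have := (mem_Icc.1 hn).2
    exact mem_filter.2 ⟨mem_univ _, by rwa [ZMod.val_cast_of_lt (show n < M by omega)]⟩
  · intro n hn
    have := (mem_Icc.1 hn).2
    exact ZMod.val_cast_of_lt (by omega)

theorem zhat_interval {M L : ℕ} [NeZero M] (hLM : L < M) (F : ℕ → ℝ) (r : ZMod M) :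
    zhat (fun x : ZMod M => if x.val ∈ Icc 1 L then F x.val else 0) r =
      ∑ n ∈ Icc 1 L, (F n : ℂ) * eAdd ((n : ℝ) * ((r.val : ℝ) / M)) := by
  rw [zhat, ← sum_zmod_interval (M := M) hLM]
  refine sum_congr rfl fun x _ => ?_
  split_ifs with h
  · conv_lhs => rw [← ZMod.natCast_zmod_val r, ← ZMod.natCast_zmod_val x, ← Nat.cast_mul,
      zchar_natCast, ZMod.natCast_zmod_val x]
    push_cast
    ring_nf
  · simp

/-- The total weight of a set in one class. -/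
theorem sum_trickFun {Q a n M : ℕ} [NeZero M] (hQ : 0 < Q) (haQ : a < Q) (ha : 0 < a)
    (hLM : n / Q < M) {S : Finset ℕ} (hS : ∀ p ∈ S, p.Prime ∧ p ≤ n) :
    ∑ x : ZMod M, trickFun Q a (n / Q) S x = (Q.totient : ℝ) / Q *
      ∑ p ∈ (S.filter fun p => Q < p).filter (fun p => p % Q = a), Real.log p := by
  simp only [trickFun]
  rw [sum_zmod_interval hLM fun k => if Q * k + a ∈ S then trickWeight Q a k else 0, ← sum_filter,
    mul_sum]
  refine sum_nbij' (fun k => Q * k + a) (fun p => p / Q) ?_ ?_ ?_ ?_ ?_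
  · intro k hk
    simp only [mem_filter, mem_Icc] at hk ⊢
    refine ⟨⟨hk.2, ?_⟩, by rw [Nat.mul_add_mod, Nat.mod_eq_of_lt haQ]⟩
    have := Nat.le_mul_of_pos_right Q hk.1.1
    omega
  · intro p hp
    simp only [mem_filter, mem_Icc] at hp ⊢
    have e := Nat.div_add_mod p Q
    rw [hp.2] at e
    exact ⟨⟨Nat.div_pos hp.1.2.le hQ, Nat.div_le_div_right (hS p hp.1.1).2⟩,
      by rw [e]; exact hp.1.1⟩
  · intro k _
    rw [Nat.mul_add_div hQ, Nat.div_eq_of_lt haQ, add_zero]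
  · intro p hp
    simp only [mem_filter] at hp
    have e := Nat.div_add_mod p Q
    rw [hp.2] at e
    exact e
  · intro k hk
    rw [trickWeight, if_pos (hS _ (mem_filter.1 hk).2).1]

/-- The classes share the primes above `Q`. -/
theorem sum_classes {Q : ℕ} [NeZero Q] {S : Finset ℕ} (hS : ∀ p ∈ S, p.Prime) :
    ∑ b : (ZMod Q)ˣ, ∑ p ∈ (S.filter fun p => Q < p).filter (fun p => p % Q = (b : ZMod Q).val),
      Real.log p = ∑ p ∈ S.filter (fun p => Q < p), Real.log p := by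
  have hQ : 0 < Q := Nat.pos_of_ne_zero (NeZero.ne Q)
  simp only [sum_filter (fun p => p % Q = _)]
  rw [sum_comm]
  refine sum_congr rfl fun p hp => ?_
  rw [mem_filter] at hp
  have hc : p.Coprime Q :=
    (hS p hp.1).coprime_iff_not_dvd.2 fun h => absurd (Nat.le_of_dvd hQ h) (not_le.2 hp.2)
  rw [Fintype.sum_eq_single (ZMod.unitOfCoprime p hc) fun b hb => if_neg fun h => hb (Units.ext ?_),
    if_pos]
  · rw [ZMod.coe_unitOfCoprime, ZMod.val_natCast]
  · rw [ZMod.coe_unitOfCoprime, ← ZMod.natCast_mod p Q, h, ZMod.natCast_zmod_val]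

/-- **Li and Pan**, for densities in `[0, 1]`. -/
theorem exists_dense_three_bounded {δ : Fin 3 → ℝ} (h0 : ∀ i, 0 ≤ δ i) (h1 : ∀ i, δ i ≤ 1)
    (h : 2 < ∑ i, δ i) : ∃ c : ℝ, 0 < c ∧ ∃ N₀ : ℕ, ∀ N : ℕ, N₀ ≤ N → Odd N →
      ∀ A : Fin 3 → Finset ℕ, (∀ i, ∀ p ∈ A i, p.Prime) →
        (∀ i, δ i * (π (2 * N / 3) : ℝ) ≤ ((A i).filter fun p => p ≤ 2 * N / 3).card) →
          c * ((N : ℝ) ^ 2 / Real.log N ^ 3) ≤
            ((((A 0) ×ˢ (A 1) ×ˢ (A 2)).filter fun z => z.1 + z.2.1 + z.2.2 = N).card : ℝ) := by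
  obtain ⟨σ₀, hσ₀⟩ : ∃ σ₀, σ₀ = ∑ i, δ i - 2 := ⟨_, rfl⟩
  have hσ₀0 : 0 < σ₀ := by linarith
  have hσ₀1 : σ₀ ≤ 1 := by
    rw [hσ₀, Fin.sum_univ_three]
    linarith [h1 0, h1 1, h1 2]
  obtain ⟨τ, hτ⟩ : ∃ τ, τ = σ₀ / 10 := ⟨_, rfl⟩
  obtain ⟨σ, hσ⟩ : ∃ σ, σ = min (1 / 100) (τ / 10) := ⟨_, rfl⟩
  have hσ0 : 0 < σ := hσ ▸ lt_min (by norm_num) (by linarith)
  have hσ1 : σ ≤ 1 / 100 := hσ ▸ min_le_left _ _
  have hσ2 : σ ≤ τ / 10 := hσ ▸ min_le_right _ _
  obtain ⟨ε, hε⟩ : ∃ ε, ε = min σ (σ ^ 6 / 128) := ⟨_, rfl⟩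
  have hε0 : 0 < ε := hε ▸ lt_min hσ0 (by positivity)
  obtain ⟨Aexp, C, hC, hmom⟩ := exists_zhat_moment
  obtain ⟨ηt, hηt, htr⟩ := exists_transference hC hε0
  obtain ⟨η, hη⟩ : ∃ η, η = min ηt (min (σ₀ / 100) (1 / 1000)) := ⟨_, rfl⟩
  have hη0 : 0 < η := hη ▸ lt_min hηt (lt_min (by linarith) (by norm_num))
  have hη1 : η ≤ ηt := hη ▸ min_le_left _ _
  have hη2 : η ≤ σ₀ / 100 := hη ▸ (min_le_right _ _).trans (min_le_left _ _)
  have hη3 : η ≤ 1 / 1000 := hη ▸ (min_le_right _ _).trans (min_le_right _ _)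
  obtain ⟨W, hW⟩ : ∃ W, W = ⌈8 / η⌉₊ + 3 := ⟨_, rfl⟩
  have hWη : 8 ≤ η * W := by
    rw [mul_comm, ← div_le_iff₀ hη0, hW]
    push_cast
    linarith [Nat.le_ceil (8 / η)]
  obtain ⟨m, hm⟩ : 6 ∣ primorial W := by
    have h2 := Nat.Prime.dvd_primorial_iff Nat.prime_two (n := W)
    have h3 := Nat.Prime.dvd_primorial_iff Nat.prime_three (n := W)
    exact Nat.Coprime.mul_dvd_of_dvd_of_dvd (show Nat.Coprime 2 3 by norm_num)
      (h2.2 (by omega)) (h3.2 (by omega))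
  have hm0 : 0 < m := Nat.pos_of_mul_pos_left (hm ▸ primorial_pos W)
  have : NeZero m := ⟨hm0.ne'⟩
  have hsq6 : Squarefree (6 * m) := hm ▸ squarefree_primorial W
  have hcop : m.Coprime 6 := (Nat.coprime_of_squarefree_mul hsq6).symm
  obtain ⟨Q, hQdef⟩ : ∃ Q, Q = 6 * m := ⟨_, rfl⟩
  have hQ : 0 < Q := by omega
  have hQ6 : (6 : ℝ) ≤ Q := by exact_mod_cast (show 6 ≤ Q by omega)
  have hWQ : ∀ p : ℕ, p.Prime → p ≤ W → p ∣ Q := fun p hp hpW =>
    hQdef ▸ hm ▸ (Nat.Prime.dvd_primorial_iff hp).2 hpW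
  have hev : ∀ᶠ L : ℕ in atTop, ∀ a ∈ (range Q).filter (fun a => a.Coprime Q),
      IsTrickMajorant Aexp L (trickWeight Q a) ∧
        ∀ θ : ℝ, ‖trickSum Q a L θ - geomSum L θ‖ ≤ η * L :=
    (eventually_all_finset _).2 fun a ha => by
      rw [mem_filter, mem_range] at ha
      exact (eventually_isTrickMajorant Aexp hQ ha.1 ha.2).and
        (eventually_trick_fourier hQ ha.1 ha.2 hWQ hη0 hWη)
  obtain ⟨L₀, hL₀⟩ := eventually_atTop.1 hev
  obtain ⟨n₁, hn₁⟩ := eventually_atTop.1 (eventually_log_mass hη0 (by linarith) Q)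
  obtain ⟨x₀, hx₀⟩ :=
    eventually_atTop.1 (PNT.Summary.exists_prime_between (isUnit_one (M := ZMod 1)) hη0)
  obtain ⟨κ, hκ⟩ : ∃ κ, κ = σ ^ 6 / 128 := ⟨_, rfl⟩
  have hκ0 : 0 < κ := hκ ▸ by positivity
  refine ⟨κ / (8 * (Q : ℝ) ^ 2), by positivity,
    3 * Q * (L₀ + 2) + 3 * n₁ + ⌈Q * (max x₀ 0 + 8 / σ + 8 / η)⌉₊ + 12 * Q + 9,
    fun N hN hodd A hA hcard => ?_⟩
  obtain ⟨n, hn⟩ : ∃ n, n = 2 * N / 3 := ⟨_, rfl⟩
  rw [← hn] at hcard
  obtain ⟨L, hL⟩ : ∃ L, L = n / Q := ⟨_, rfl⟩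
  have hnN : 3 * n ≤ 2 * N ∧ 2 * N < 3 * n + 3 := by omega
  have hLn : Q * L ≤ n ∧ n < Q * L + Q := by
    rw [hL]
    have := Nat.mod_lt n hQ
    have := Nat.div_add_mod n Q
    omega
  have hLL₀ : L₀ ≤ L ∧ 1 ≤ L := by
    have h' : Q * (L₀ + 1) ≤ n := by
      have e1 : 3 * Q * (L₀ + 2) = 3 * (Q * (L₀ + 1)) + 3 * Q := by ring
      omega
    have h'' : L₀ + 1 ≤ L := hL ▸ (Nat.le_div_iff_mul_le hQ).2 (by rw [mul_comm]; exact h')
    omega
  have hN0 : (0 : ℝ) < N := Nat.cast_pos.2 (by omega)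
  obtain ⟨X, hX⟩ : ∃ X : ℝ, X = N / Q + 4 := ⟨_, rfl⟩
  have hNb : max x₀ 0 + 8 / σ + 8 / η ≤ (N : ℝ) / Q := by
    rw [le_div_iff₀ (by linarith), mul_comm]
    refine (Nat.le_ceil _).trans (Nat.cast_le.2 ?_)
    omega
  have hσ8 : 0 < 8 / σ := by positivity
  have hη8 : 0 < 8 / η := by positivity
  obtain ⟨M, hM, -, hXM, hMX⟩ := hx₀ X (by rw [hX]; linarith [le_max_left x₀ 0, le_max_right x₀ 0])
  have := Fact.mk hM
  have : NeZero M := ⟨hM.ne_zero⟩
  have hMσ : 8 / σ ≤ (M : ℝ) := by rw [hX] at hXM; linarith [le_max_right x₀ 0]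
  have hLN : (L : ℝ) ≤ 2 / 3 * (N / Q) := by
    rw [mul_div_assoc', le_div_iff₀ (by linarith)]
    have e1 : ((Q * L : ℕ) : ℝ) ≤ (n : ℝ) := Nat.cast_le.2 hLn.1
    have e2 : ((3 * n : ℕ) : ℝ) ≤ ((2 * N : ℕ) : ℝ) := Nat.cast_le.2 hnN.1
    push_cast at e1 e2
    linarith
  have hLM : L < M := by
    rw [← Nat.cast_lt (α := ℝ)]
    rw [hX] at hXM
    linarith [div_nonneg hN0.le (show (0 : ℝ) ≤ Q by linarith)]
  have hLlow : (2 / 3 - 2 * η) * M ≤ L := by
    have e1 : (2 * N : ℝ) / 3 - 1 - Q ≤ (Q : ℝ) * L := by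
      have a1 : ((2 * N : ℕ) : ℝ) ≤ ((3 * n + 3 : ℕ) : ℝ) := Nat.cast_le.2 hnN.2.le
      have a2 : ((n + 0 : ℕ) : ℝ) ≤ ((Q * L + Q : ℕ) : ℝ) := Nat.cast_le.2 hLn.2.le
      push_cast at a1 a2
      linarith
    have e2 : (2 / 3 - 2 * η) * (M : ℝ) ≤ (2 / 3 - η) * X := by
      refine (mul_le_mul_of_nonneg_left hMX (by linarith)).trans ?_
      rw [← mul_assoc]
      refine mul_le_mul_of_nonneg_right ?_ (by rw [hX]; positivity)
      nlinarith
    refine le_of_mul_le_mul_left ((mul_le_mul_of_nonneg_left e2 (by linarith)).trans ?_)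
      (show (0 : ℝ) < Q by linarith)
    have e3 : 8 / η * (η * Q) ≤ (N : ℝ) / Q * (η * Q) :=
      mul_le_mul_of_nonneg_right (by linarith [le_max_right x₀ 0]) (by positivity)
    have e4 : 8 / η * (η * Q) = 8 * Q := by field_simp
    have e5 : (N : ℝ) / Q * (η * Q) = η * N := by field_simp
    have e6 : (Q : ℝ) * X = N + 4 * Q := by rw [hX]; field_simp
    calc (Q : ℝ) * ((2 / 3 - η) * X) = (2 / 3 - η) * (N + 4 * Q) := by rw [← e6]; ring
      _ ≤ _ := by nlinarith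
  have hMN : M ≤ N := by
    rw [← Nat.cast_le (α := ℝ)]
    refine hMX.trans ?_
    rw [hX]
    have e1 : (N : ℝ) / Q ≤ N / 6 := div_le_div_of_nonneg_left hN0.le (by norm_num) hQ6
    have e2 : ((12 : ℕ) : ℝ) ≤ (N : ℝ) := Nat.cast_le.2 (by omega)
    push_cast at e2
    calc (1 + η) * ((N : ℝ) / Q + 4) ≤ 2 * ((N : ℝ) / Q + 4) :=
          mul_le_mul_of_nonneg_right (by linarith) (by positivity)
      _ ≤ N := by linarith
  obtain ⟨S, hS⟩ : ∃ S : Fin 3 → Finset ℕ, S = fun i => (A i).filter fun p => p ≤ n := ⟨_, rfl⟩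
  have hSp : ∀ i, ∀ p ∈ S i, p.Prime ∧ p ≤ n := fun i p hp => by
    rw [hS, mem_filter] at hp
    exact ⟨hA i p hp.1, hp.2⟩
  have : NeZero Q := ⟨hQ.ne'⟩
  have hval : ∀ b : (ZMod Q)ˣ, (b : ZMod Q).val < Q ∧ (b : ZMod Q).val.Coprime Q ∧
      0 < (b : ZMod Q).val := fun b => by
    have hc := ZMod.val_coe_unit_coprime b
    refine ⟨ZMod.val_lt _, hc, Nat.pos_of_ne_zero fun h0 => ?_⟩
    rw [h0, Nat.coprime_zero_left] at hc
    omega
  have hgood : ∀ b : (ZMod Q)ˣ, ∀ K, L₀ ≤ K →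
      IsTrickMajorant Aexp K (trickWeight Q (b : ZMod Q).val) ∧
        ∀ θ : ℝ, ‖trickSum Q (b : ZMod Q).val K θ - geomSum K θ‖ ≤ η * K := fun b K hK =>
    hL₀ K hK _ (mem_filter.2 ⟨mem_range.2 (hval b).1, (hval b).2.1⟩)
  obtain ⟨D, hD⟩ : ∃ D : Fin 3 → (ZMod Q)ˣ → ℝ, D = fun (i : Fin 3) (b : (ZMod Q)ˣ) =>
      (∑ x : ZMod M, trickFun Q (b : ZMod Q).val L (S i) x) / L := ⟨_, rfl⟩
  have hLpos : (0 : ℝ) < L := Nat.cast_pos.2 (by omega)
  have hD1 : ∀ i b, 0 ≤ D i b ∧ D i b ≤ 1 + η := fun i b => by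
    rw [hD]
    refine ⟨div_nonneg (sum_nonneg fun x _ => trickFun_nonneg _ _ _ _ x) hLpos.le, ?_⟩
    rw [div_le_iff₀ hLpos]
    refine (sum_le_sum fun x _ => trickFun_le _ _ _ _ x).trans ?_
    rw [sum_zmod_interval hLM (trickWeight Q (b : ZMod Q).val)]
    have h := (Complex.abs_re_le_norm _).trans ((hgood b L hLL₀.1).2 0)
    simp only [trickSum, geomSum, mul_zero, ThreePrimes.eAdd_zero, mul_one, Complex.sub_re,
      Complex.re_sum, Complex.ofReal_re, Complex.natCast_re, sum_const, Nat.card_Ioc, Nat.sub_zero,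
      nsmul_eq_mul] at h
    linarith [abs_le.1 h]
  have hDsum : ∀ i, (δ i - 3 * η) * (Q.totient : ℝ) ≤ ∑ b, D i b := fun i => by
    have hmass := hn₁ n (by omega) (δ i) (h0 i) (h1 i) (S i) (fun p hp => (hSp i p hp).2)
      (by rw [hS]; exact hcard i)
    have e : ∀ b : (ZMod Q)ˣ, ∑ x : ZMod M, trickFun Q (b : ZMod Q).val L (S i) x =
        (Q.totient : ℝ) / Q * ∑ p ∈ ((S i).filter fun p => Q < p).filter
          (fun p => p % Q = (b : ZMod Q).val), Real.log p := fun b =>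
      hL ▸ sum_trickFun hQ (hval b).1 (hval b).2.2 (hL ▸ hLM) (hSp i)
    rw [hD]
    simp only [e]
    rw [← sum_div, ← mul_sum, sum_classes fun p hp => (hSp i p hp).1, le_div_iff₀ hLpos]
    rcases le_total (δ i - 3 * η) 0 with hneg | hpos
    · exact (mul_nonpos_of_nonpos_of_nonneg
        (mul_nonpos_of_nonpos_of_nonneg hneg (Nat.cast_nonneg _)) hLpos.le).trans
        (mul_nonneg (by positivity) (sum_nonneg fun p _ => Real.log_natCast_nonneg p))
    · refine le_trans (le_of_eq ?_) (mul_le_mul_of_nonneg_left ((mul_le_mul_of_nonneg_left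
        (show ((Q * L : ℕ) : ℝ) ≤ n from Nat.cast_le.2 hLn.1) hpos).trans hmass) (by positivity))
      push_cast
      field_simp
  obtain ⟨α, hα⟩ : ∃ α : Fin 3 → (ZMod Q)ˣ → ℝ, α = fun i b => min 1 (D i b) := ⟨_, rfl⟩
  have hφcard : (Fintype.card (ZMod Q)ˣ : ℝ) = Q.totient := by rw [ZMod.card_units_eq_totient]
  subst hQdef
  obtain ⟨b, hb, hbpos, hbsum⟩ := exists_residues (n := N) hsq6.of_mul_right hcop hodd
    (fun i b => max (α i b - τ) 0) (fun i b => ⟨le_max_right _ _, max_le (by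
      rw [hα]; linarith [min_le_left (1 : ℝ) (D i b)]) zero_le_one⟩) (by
      have hlow : ∀ i b, D i b - (η + τ) ≤ max (α i b - τ) 0 := fun i b => by
        refine le_trans ?_ (le_max_left _ _)
        rw [hα]
        rcases min_choice (1 : ℝ) (D i b) with h' | h' <;> simp only [h'] <;> linarith [(hD1 i b).2]
      have hφ : (0 : ℝ) < (6 * m).totient := Nat.cast_pos.2 (Nat.totient_pos.2 (by omega))
      refine lt_of_lt_of_le ?_ (sum_le_sum fun i _ => sum_le_sum fun b _ => hlow i b)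
      simp only [sum_sub_distrib, sum_const, card_univ, nsmul_eq_mul, hφcard, Fintype.card_fin,
        Nat.cast_ofNat, Fin.sum_univ_three]
      rw [Fin.sum_univ_three] at hσ₀
      nlinarith [hDsum 0, hDsum 1, hDsum 2,
        mul_pos (show 0 < σ₀ - 12 * η - 3 * τ by linarith) hφ])
  have hαD : ∀ i, τ < D i (b i) := fun i => by
    have := hbpos i
    simp only [lt_max_iff, lt_irrefl, or_false, hα] at this
    linarith [min_le_right (1 : ℝ) (D i (b i))]
  have hαsum : 5 / 3 < ∑ i, D i (b i) := hbsum.trans_le (sum_le_sum fun i _ => max_le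
    (by rw [hα]; linarith [min_le_right (1 : ℝ) (D i (b i))]) (hD1 i (b i)).1)
  obtain ⟨a, ha⟩ : ∃ a : Fin 3 → ℕ, a = fun i => (b i : ZMod (6 * m)).val := ⟨_, rfl⟩
  have hasum : a 0 + a 1 + a 2 < 3 * (6 * m) := by
    rw [ha]
    have := (hval (b 0)).1
    have := (hval (b 1)).1
    have := (hval (b 2)).1
    simp only
    omega
  obtain ⟨k, hk⟩ : ∃ k, k = (N - (a 0 + a 1 + a 2)) / (6 * m) := ⟨_, rfl⟩
  have hkN : 6 * m * k + (a 0 + a 1 + a 2) = N := by
    have hmod : ((a 0 + a 1 + a 2 : ℕ) : ZMod (6 * m)) = (N : ZMod (6 * m)) := by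
      rw [ha]
      push_cast
      simp only [ZMod.natCast_zmod_val]
      exact hb
    have hdvd := (Nat.modEq_iff_dvd' (by omega)).1 ((ZMod.natCast_eq_natCast_iff _ _ _).1 hmod)
    rw [hk, Nat.mul_div_cancel' hdvd]
    omega
  obtain ⟨f, hf⟩ : ∃ f : Fin 3 → ZMod M → ℝ,
      f = fun i => trickFun (6 * m) (a i) L (S i) := ⟨_, rfl⟩
  have hfD : ∀ i, ∑ x, f i x = D i (b i) * L := fun i => by
    rw [hD, hf, ha]
    simp only
    rw [div_mul_cancel₀ _ hLpos.ne']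
  obtain ⟨g, hg, hgsum, hgle⟩ := htr M f
    (fun i x => if x.val ∈ Icc 1 L then trickWeight (6 * m) (a i) x.val else 0)
    (fun x => if x.val ∈ Icc 1 L then 1 else 0)
    (fun i x => by rw [hf]; exact ⟨trickFun_nonneg _ _ _ _ x, trickFun_le _ _ _ _ x⟩)
    (fun x => by split_ifs <;> norm_num)
    (fun i r => by
      rw [zhat_interval hLM, zhat_interval hLM fun _ => 1, ha]
      simp only [Complex.ofReal_one, one_mul]
      exact ((hgood (b i) L hLL₀.1).2 _).trans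
        (mul_le_mul hη1 (Nat.cast_le.2 hLM.le) (Nat.cast_nonneg L) hηt.le))
    (fun i => hmom M (trickWeight (6 * m) (a i)) (f i)
      (by rw [ha]; exact (hgood (b i) M (by omega)).1)
      (fun x => by rw [hf]; exact trickFun_nonneg _ _ _ _ x) fun k hk => by
        rw [hf]
        refine (trickFun_le _ _ _ _ _).trans ?_
        split_ifs with h'
        · rw [ZMod.val_cast_of_lt ((mem_Icc.1 hk).2.lt_of_ne ?_)]
          rintro rfl
          simp at h'
        · exact trickWeight_nonneg _ _ _)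
  have hεσ : ε ≤ σ := hε ▸ min_le_left _ _
  have hεκ : ε ≤ κ := hκ ▸ hε ▸ min_le_right _ _
  have hcount := three_weights_count (G := 1 + ε) (σ := σ) (by linarith) hσ0 hMσ (f := g)
    (fun i x => (hg i x).1) (fun i x => (hg i x).2)
    (fun i => by
      rw [hgsum i, hfD i]
      calc 2 * σ * (1 + ε) * M ≤ 2 * (τ / 10) * 2 * M := by gcongr <;> linarith
        _ ≤ τ * ((2 / 3 - 2 * η) * M) := by
          rw [mul_comm τ, mul_assoc, mul_assoc, mul_assoc]
          nlinarith [mul_le_mul_of_nonneg_right hη3 (mul_nonneg (show 0 ≤ τ by linarith)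
            (Nat.cast_nonneg (α := ℝ) M)), mul_nonneg (show 0 ≤ τ by linarith)
            (Nat.cast_nonneg (α := ℝ) M)]
        _ ≤ D i (b i) * L := mul_le_mul (hαD i).le hLlow (mul_nonneg (by linarith)
            (Nat.cast_nonneg _)) (hD1 i (b i)).1)
    (by
      simp only [hgsum, hfD, ← sum_mul]
      calc (1 + ε) * (1 + 4 * σ) * (M : ℝ) ≤ 5 / 3 * ((2 / 3 - 2 * η) * M) := by
            rw [← mul_assoc]
            refine mul_le_mul_of_nonneg_right ?_ (Nat.cast_nonneg M)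
            nlinarith
        _ ≤ (∑ i, D i (b i)) * L := mul_le_mul hαsum.le hLlow (mul_nonneg (by linarith)
            (Nat.cast_nonneg _)) (by linarith))
    ((k : ZMod M))
  have hT : κ * (M : ℝ) ^ 2 ≤ tripleCount (f 0) (f 1) (f 2) (k : ZMod M) := by
    have := hgle (k : ZMod M)
    have e : σ ^ 6 / 64 * (M : ℝ) ^ 2 ≤ tripleCount (g 0) (g 1) (g 2) (k : ZMod M) := hcount
    rw [show σ ^ 6 / 64 = 2 * κ by rw [hκ]; ring] at e
    linarith [mul_le_mul_of_nonneg_right hεκ (sq_nonneg (M : ℝ))]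
  obtain ⟨Tr, hTr⟩ : ∃ Tr : Finset (ℕ × ℕ × ℕ),
      Tr = ((A 0) ×ˢ (A 1) ×ˢ (A 2)).filter fun z => z.1 + z.2.1 + z.2.2 = N := ⟨_, rfl⟩
  rw [← hTr]
  obtain ⟨l, hl⟩ : ∃ l, l = Real.log N := ⟨_, rfl⟩
  rw [← hl]
  have hl0 : 0 < l := hl ▸ Real.log_pos (Nat.one_lt_cast.2 (by omega))
  have hw : ∀ i x, 0 ≤ f i x ∧ f i x ≤ 2 * l := fun i x => by
    rw [hf]
    refine ⟨trickFun_nonneg _ _ _ _ x, (trickFun_le _ _ _ _ x).trans ?_⟩
    split_ifs with h'
    · rw [ha]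
      refine ((hgood (b i) M (by omega)).1.le_log _ (mem_Icc.2
        ⟨(mem_Icc.1 h').1, (ZMod.val_lt x).le⟩)).trans ?_
      rw [hl]
      exact mul_le_mul_of_nonneg_left (Real.log_le_log (Nat.cast_pos.2 hM.pos)
        (Nat.cast_le.2 hMN)) two_pos.le
    · linarith
  obtain ⟨Z, hZ⟩ : ∃ Z : Finset (ZMod M × ZMod M), Z = univ.filter fun z =>
      f 0 z.1 * f 1 z.2 * f 2 ((k : ZMod M) - z.1 - z.2) ≠ 0 := ⟨_, rfl⟩
  have hTZ : tripleCount (f 0) (f 1) (f 2) (k : ZMod M) ≤ Z.card * (2 * l) ^ 3 := by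
    rw [tripleCount, ← Fintype.sum_prod_type' (f := fun x y => f 0 x * f 1 y * f 2 (_ - x - y)),
      ← sum_filter_ne_zero, ← hZ, ← nsmul_eq_mul]
    refine sum_le_card_nsmul _ _ _ fun z _ => ?_
    obtain ⟨p0, q0⟩ := hw 0 z.1
    obtain ⟨p1, q1⟩ := hw 1 z.2
    obtain ⟨p2, q2⟩ := hw 2 ((k : ZMod M) - z.1 - z.2)
    rw [pow_succ, sq]
    gcongr
  have hsupp : ∀ i x, f i x ≠ 0 → (1 ≤ x.val ∧ x.val ≤ L) ∧ 6 * m * x.val + a i ∈ A i := by
    intro i x hx
    rw [hf] at hx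
    simp only [trickFun] at hx
    split_ifs at hx with h' h''
    · exact ⟨mem_Icc.1 h', (mem_filter.1 (by rw [hS] at h''; exact h'')).1⟩
    all_goals exact absurd rfl hx
  have hZT : Z.card ≤ Tr.card := by
    refine card_le_card_of_injOn (fun z => (6 * m * z.1.val + a 0, 6 * m * z.2.val + a 1,
      6 * m * ((k : ZMod M) - z.1 - z.2).val + a 2)) (fun z hz => ?_) (fun z _ z' _ he => ?_)
    · simp only [mem_coe, hZ, mem_filter, mem_univ, true_and, mul_ne_zero_iff] at hz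
      obtain ⟨⟨⟨u0, v0⟩, g0⟩, ⟨⟨u1, v1⟩, g1⟩, ⟨⟨u2, v2⟩, g2⟩⟩ :=
        And.intro (hsupp 0 _ hz.1.1) (And.intro (hsupp 1 _ hz.1.2) (hsupp 2 _ hz.2))
      simp only [mem_coe, hTr, mem_filter, mem_product]
      refine ⟨⟨g0, g1, g2⟩, ?_⟩
      obtain ⟨x, hx⟩ : ∃ x, x = z.1.val := ⟨_, rfl⟩
      obtain ⟨y, hy⟩ : ∃ y, y = z.2.val := ⟨_, rfl⟩
      obtain ⟨w, hwdef⟩ : ∃ w, w = ((k : ZMod M) - z.1 - z.2).val := ⟨_, rfl⟩
      rw [← hx, ← hy, ← hwdef]
      rw [← hx] at u0 v0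
      rw [← hy] at u1 v1
      rw [← hwdef] at u2 v2
      have hmodM : ((x + y + w : ℕ) : ZMod M) = (k : ZMod M) := by
        rw [hx, hy, hwdef]
        push_cast
        simp only [ZMod.natCast_zmod_val]
        ring
      have hkM : k < M ∧ x + y + w < k + M := by
        have e0 : ((6 * m * k + (a 0 + a 1 + a 2) : ℕ) : ℝ) = N := by rw [hkN]
        have e1 : ((a 0 + a 1 + a 2 : ℕ) : ℝ) < ((3 * (6 * m) : ℕ) : ℝ) := Nat.cast_lt.2 hasum
        have e2 : ((x + y + w : ℕ) : ℝ) ≤ ((3 * L : ℕ) : ℝ) := Nat.cast_le.2 (by omega)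
        push_cast at e0 e1 e2 hX hLN
        have e3 : (N : ℝ) / (6 * m) * (6 * m) = N :=
          div_mul_cancel₀ _ (by positivity)
        have k1 : (k : ℝ) ≤ N / (6 * m) := by
          rw [le_div_iff₀ (by positivity)]
          linarith [Nat.cast_nonneg (α := ℝ) (a 0), Nat.cast_nonneg (α := ℝ) (a 1),
            Nat.cast_nonneg (α := ℝ) (a 2)]
        have k2 : (N : ℝ) / (6 * m) < k + 3 := by
          rw [div_lt_iff₀ (by positivity)]
          linarith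
        rw [hX] at hXM
        constructor
        · rw [← Nat.cast_lt (α := ℝ)]
          linarith
        · rw [← Nat.cast_lt (α := ℝ)]
          push_cast
          linarith
      have hxk : x + y + w = k := by
        have h5 := (ZMod.natCast_eq_natCast_iff' _ _ _).1 hmodM
        rw [Nat.mod_eq_of_lt hkM.1] at h5
        have h6 := Nat.div_add_mod (x + y + w) M
        rw [h5] at h6
        rcases Nat.eq_zero_or_pos ((x + y + w) / M) with h7 | h7
        · rw [h7, mul_zero, zero_add] at h6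
          exact h6.symm
        · have h8 : M ≤ M * ((x + y + w) / M) := Nat.le_mul_of_pos_right M h7
          omega
      rw [← hkN, ← hxk]
      ring
    · simp only [Prod.mk.injEq, Nat.add_right_cancel_iff] at he
      exact Prod.ext (ZMod.val_injective M (Nat.eq_of_mul_eq_mul_left (by omega) he.1))
        (ZMod.val_injective M (Nat.eq_of_mul_eq_mul_left (by omega) he.2.1))
  have hfinal := (hT.trans hTZ).trans (mul_le_mul_of_nonneg_right (Nat.cast_le.2 hZT)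
    (pow_nonneg (by linarith) 3))
  have hMlow : (N : ℝ) / (6 * m : ℕ) ≤ M := by rw [hX] at hXM; linarith
  have h9 := (mul_le_mul_of_nonneg_left (pow_le_pow_left₀ (by positivity) hMlow 2) hκ0.le).trans
    hfinal
  rw [← div_le_iff₀ (by positivity)] at h9
  refine le_trans (le_of_eq ?_) h9
  field_simp
  ring

/-- **The theorem of Li and Pan.** -/
theorem exists_dense_three {δ : Fin 3 → ℝ} (h : 2 < ∑ i, δ i) :
    ∃ c : ℝ, 0 < c ∧ ∃ N₀ : ℕ, ∀ N : ℕ, N₀ ≤ N → Odd N →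
      ∀ A : Fin 3 → Finset ℕ, (∀ i, ∀ p ∈ A i, p.Prime) →
        (∀ i, δ i * (π (2 * N / 3) : ℝ) ≤ ((A i).filter fun p => p ≤ 2 * N / 3).card) →
          c * ((N : ℝ) ^ 2 / Real.log N ^ 3) ≤
            ((((A 0) ×ˢ (A 1) ×ˢ (A 2)).filter fun z => z.1 + z.2.1 + z.2.2 = N).card : ℝ) := by
  by_cases h1 : ∃ i, 1 < δ i
  · obtain ⟨i, hi⟩ := h1
    refine ⟨1, one_pos, 3, fun N hN _ A hA hc => ?_⟩
    have hπ : 0 < π (2 * N / 3) := Nat.pos_of_ne_zero fun h0 => by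
      rw [Nat.primeCounting_eq_zero_iff] at h0
      omega
    have hle : (((A i).filter fun p => p ≤ 2 * N / 3).card : ℝ) ≤ (π (2 * N / 3) : ℝ) := by
      rw [Nat.primeCounting, Nat.primeCounting', Nat.count_eq_card_filter_range]
      refine Nat.cast_le.2 (card_le_card fun p hp => ?_)
      rw [mem_filter] at hp
      exact mem_filter.2 ⟨mem_range.2 (Nat.lt_succ_of_le hp.2), hA i p hp.1⟩
    exact absurd ((hc i).trans hle) (not_le.2 (lt_mul_of_one_lt_left (Nat.cast_pos.2 hπ) hi))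
  push Not at h1
  refine exists_dense_three_bounded (fun i => ?_) h1 h
  rw [Fin.sum_univ_three] at h
  have := h1 0
  have := h1 1
  have := h1 2
  fin_cases i <;> simp only [Fin.zero_eta, Fin.mk_one, Fin.reduceFinMk] <;> linarith

end FA.DenseThreePrimes
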