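import Fermat.Agent.PrimeRestriction.Kernel
import Fermat.Agent.ShiftedPrimeDifferences.Twist

/-!
# The weighted primes of one class as a majorant

For the weights `φ(Q) / Q log (Q n + a)` on the primes `Q n + a`: the exponential sums are within
`η L` of those of the constant `1` if all small primes divide `Q`, and in general they are below
`L` times the Fejér majorant of the primes, with constants independent of `Q`, for large `L`.
-/

set_option autoImplicit false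

noncomputable section

namespace FA.DenseThreePrimes

open Finset Filter ArithmeticFunction
open FA.ThreePrimes (eAdd geomSum nearDist clip arcCentres centre)
open FA.ThreePrimesClasses (classTwist classFactor)
open FA.ShiftedPrimeDifferences (classPrimes primeTwist mem_classPrimes)
open FA.PrimeRestriction (arcKernel)
open scoped Real

/-- The weight of `n`: `φ(Q) / Q log (Q n + a)` if `Q n + a` is prime. -/
def trickWeight (Q a n : ℕ) : ℝ :=
  (Q.totient : ℝ) / Q * if (Q * n + a).Prime then Real.log ((Q * n + a : ℕ) : ℝ) else 0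

theorem trickWeight_nonneg (Q a n : ℕ) : 0 ≤ trickWeight Q a n :=
  mul_nonneg (by positivity) (by
    split_ifs
    exacts [Real.log_natCast_nonneg _, le_rfl])

/-- `∑_{1 ≤ n ≤ L} trickWeight n e (n θ)`. -/
def trickSum (Q a L : ℕ) (θ : ℝ) : ℂ :=
  ∑ n ∈ Icc 1 L, (trickWeight Q a n : ℂ) * eAdd (n * θ)

theorem totient_div_le_one (Q : ℕ) : (Q.totient : ℝ) / Q ≤ 1 :=
  div_le_one_of_le₀ (Nat.cast_le.2 (Nat.totient_le Q)) (Nat.cast_nonneg Q)

/-- The trick sum in terms of the primes of the class. -/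
theorem trickSum_eq {Q a : ℕ} (hQ : 0 < Q) (haQ : a < Q) (L : ℕ) (θ : ℝ) :
    trickSum Q a L θ = (((Q.totient : ℝ) / Q : ℝ) : ℂ) * eAdd (-((a : ℝ) * (θ / Q))) *
      (primeTwist Q a (Q * L + a) (θ / Q) -
        if a.Prime then (Real.log a : ℂ) * eAdd (a * (θ / Q)) else 0) := by
  have e : primeTwist Q a (Q * L + a) (θ / Q) = ∑ n ∈ range (L + 1),
      if (Q * n + a).Prime then (Real.log ((Q * n + a : ℕ) : ℝ) : ℂ) *
        eAdd (((Q * n + a : ℕ) : ℝ) * (θ / Q)) else 0 := by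
    rw [← sum_filter, primeTwist]
    refine sum_nbij' (fun m => m / Q) (fun n => Q * n + a) ?_ ?_ ?_ ?_ ?_
    · intro m hm
      obtain ⟨hle, hp, hmod⟩ := mem_classPrimes.1 hm
      rw [Nat.mod_eq_of_lt haQ] at hmod
      have e1 := Nat.div_add_mod m Q
      rw [hmod] at e1
      simp only [mem_filter, mem_range]
      refine ⟨Nat.lt_succ_of_le (Nat.le_of_mul_le_mul_left (by omega) hQ), ?_⟩
      rwa [e1]
    · intro n hn
      simp only [mem_filter, mem_range] at hn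
      rw [mem_classPrimes]
      refine ⟨by have := Nat.mul_le_mul_left Q (Nat.lt_succ_iff.1 hn.1); omega, hn.2, ?_⟩
      rw [Nat.mul_add_mod]
    · intro m hm
      obtain ⟨-, -, hmod⟩ := mem_classPrimes.1 hm
      rw [Nat.mod_eq_of_lt haQ] at hmod
      have e1 := Nat.div_add_mod m Q
      rw [hmod] at e1
      exact e1
    · intro n _
      rw [Nat.mul_add_div hQ, Nat.div_eq_of_lt haQ, add_zero]
    · intro m hm
      obtain ⟨-, -, hmod⟩ := mem_classPrimes.1 hm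
      rw [Nat.mod_eq_of_lt haQ] at hmod
      have e1 := Nat.div_add_mod m Q
      rw [hmod] at e1
      simp only [e1]
  rw [e, range_eq_Ico, sum_eq_sum_Ico_succ_bot (Nat.succ_pos L)]
  simp only [mul_zero, zero_add, add_sub_cancel_left]
  rw [show Ico (1 : ℕ) (L + 1) = Icc 1 L from rfl, mul_sum, trickSum]
  refine sum_congr rfl fun n _ => ?_
  rw [trickWeight]
  split_ifs with hp
  · rw [mul_assoc ((((Q.totient : ℝ) / Q : ℝ)) : ℂ) (eAdd _), mul_left_comm (eAdd _),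
      ← ThreePrimes.eAdd_add, ← mul_assoc, Complex.ofReal_mul]
    congr 2
    have hQ' : (Q : ℝ) ≠ 0 := Nat.cast_ne_zero.2 hQ.ne'
    push_cast
    field_simp
    ring
  · simp

theorem norm_prime_term_le {a Q : ℕ} (haQ : a < Q) (x : ℝ) :
    ‖if a.Prime then (Real.log a : ℂ) * eAdd (a * x) else 0‖ ≤ Q := by
  split_ifs with hp
  · rw [norm_mul, ThreePrimes.norm_eAdd, mul_one, Complex.norm_real, Real.norm_eq_abs,
      abs_of_nonneg (Real.log_natCast_nonneg a)]
    exact (Real.log_le_self (Nat.cast_nonneg a)).trans (Nat.cast_le.2 haQ.le)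
  · simp

theorem trickSum_add_intCast (Q a L : ℕ) (θ : ℝ) (k : ℤ) :
    trickSum Q a L (θ + k) = trickSum Q a L θ := by
  refine sum_congr rfl fun n _ => congrArg _ ?_
  rw [mul_add, show (n : ℝ) * (k : ℝ) = (((n : ℤ) * k : ℤ) : ℝ) by push_cast; ring,
    ThreePrimes.eAdd_add_intCast]

theorem geomSum_add_intCast (L : ℕ) (θ : ℝ) (k : ℤ) : geomSum L (θ + k) = geomSum L θ := by
  rw [geomSum, geomSum]
  refine sum_congr rfl fun n _ => ?_
  rw [mul_add, show (n : ℝ) * (k : ℝ) = (((n : ℤ) * k : ℤ) : ℝ) by push_cast; ring,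
    ThreePrimes.eAdd_add_intCast]

/-- Cut into blocks of `Q`. -/
theorem geomSum_blocks (Q a : ℕ) (θ : ℝ) (hQ : 0 < Q) : ∀ L : ℕ,
    geomSum (Q * L + a) (θ / Q) = geomSum a (θ / Q) +
      eAdd ((a : ℝ) * (θ / Q)) * (∑ j ∈ range Q, eAdd (-((j : ℝ) * (θ / Q)))) * geomSum L θ := by
  intro L
  induction L with
  | zero => simp [geomSum]
  | succ L ih =>
    have h1 : geomSum (Q * (L + 1) + a) (θ / Q) = geomSum (Q * L + a) (θ / Q) +
        ∑ n ∈ Ioc (Q * L + a) (Q * (L + 1) + a), eAdd (n * (θ / Q)) := by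
      rw [geomSum, geomSum, sum_Ioc_consecutive _ (Nat.zero_le _) (by rw [mul_add]; omega)]
    have h2 : ∑ n ∈ Ioc (Q * L + a) (Q * (L + 1) + a), eAdd (n * (θ / Q)) =
        eAdd ((a : ℝ) * (θ / Q)) * (∑ j ∈ range Q, eAdd (-((j : ℝ) * (θ / Q)))) *
          eAdd (((L + 1 : ℕ) : ℝ) * θ) := by
      rw [mul_sum, sum_mul]
      refine sum_nbij' (fun n => Q * (L + 1) + a - n) (fun j => Q * (L + 1) + a - j)
        ?_ ?_ ?_ ?_ ?_
      any_goals
        intro n hn
        simp only [mem_Ioc, mem_range, mul_add, mul_one] at hn ⊢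
        omega
      intro n hn
      rw [mem_Ioc] at hn
      rw [← ThreePrimes.eAdd_add, ← ThreePrimes.eAdd_add, Nat.cast_sub hn.2]
      congr 1
      have hQ' : (Q : ℝ) ≠ 0 := Nat.cast_ne_zero.2 hQ.ne'
      push_cast
      field_simp
      ring
    rw [h1, ih, h2]
    simp only [geomSum]
    rw [sum_Ioc_succ_top (Nat.zero_le L)]
    ring

theorem tendsto_affine {Q : ℕ} (hQ : 0 < Q) (a : ℕ) :
    Tendsto (fun L => Q * L + a) atTop atTop :=
  tendsto_atTop_mono (fun L => (Nat.le_mul_of_pos_left L hQ).trans (Nat.le_add_right _ _))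
    tendsto_id

/-- **The exponential sums of the weights are close to those of `1`.** -/
theorem eventually_trick_fourier {Q a W : ℕ} (hQ : 0 < Q) (haQ : a < Q) (ha : a.Coprime Q)
    (hW : ∀ p : ℕ, p.Prime → p ≤ W → p ∣ Q) {η : ℝ} (hη : 0 < η) (hWη : 8 ≤ η * W) :
    ∀ᶠ L : ℕ in atTop, ∀ θ : ℝ, ‖trickSum Q a L θ - geomSum L θ‖ ≤ η * L := by
  have h := (tendsto_affine hQ a).eventually
    (ShiftedPrimeDifferences.eventually_primeTwist_approx hQ ha hW
      (show 0 < η / 4 by positivity) (by linarith))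
  filter_upwards [h, eventually_ge_atTop a,
    (tendsto_natCast_atTop_atTop (R := ℝ)).eventually_ge_atTop (4 * (6 * Q) / η)] with L hL hLa hbig
  intro θ
  obtain ⟨x, hx⟩ : ∃ x : ℝ, x = θ - (round θ : ℝ) := ⟨_, rfl⟩
  have hx2 : |x| ≤ 1 / 2 := hx ▸ abs_sub_round θ
  rw [show θ = x + (round θ : ℝ) by rw [hx]; ring, trickSum_add_intCast, geomSum_add_intCast]
  rw [div_le_iff₀ hη] at hbig
  obtain ⟨β, hβ⟩ : ∃ β : ℝ, β = x / Q := ⟨_, rfl⟩
  have hQ1 : (1 : ℝ) ≤ Q := Nat.one_le_cast.2 hQ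
  have hQC : (Q : ℂ) ≠ 0 := Nat.cast_ne_zero.2 hQ.ne'
  have hβQ : |β| ≤ 1 / (2 * (Q : ℝ)) := by
    rw [hβ, abs_div, Nat.abs_cast, ← div_div]
    exact div_le_div_of_nonneg_right hx2 (by linarith)
  have h1 := hL β hβQ
  obtain ⟨c, hc⟩ : ∃ c : ℂ, c = ∑ j ∈ range Q, eAdd (-((j : ℝ) * β)) := ⟨_, rfl⟩
  have hc0 : ‖c - Q‖ ≤ Q * (8 * |x|) := by
    rw [hc, show (Q : ℂ) = ∑ _j ∈ range Q, (1 : ℂ) by simp, ← sum_sub_distrib]
    refine (norm_sum_le _ _).trans ((sum_le_card_nsmul _ _ (8 * |x|) fun j hj => ?_).trans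
      (le_of_eq (by rw [card_range, nsmul_eq_mul])))
    refine (ThreePrimes.norm_eAdd_sub_one_le _).trans ?_
    rw [abs_neg, abs_mul, Nat.abs_cast]
    have h2 : (j : ℝ) * |β| ≤ |x| := by
      rw [hβ, abs_div, Nat.abs_cast, mul_div_assoc', div_le_iff₀ (by linarith), mul_comm]
      exact mul_le_mul_of_nonneg_left (Nat.cast_le.2 (mem_range.1 hj).le) (abs_nonneg x)
    have h3 : 2 * π ≤ 8 := by linarith [Real.pi_le_four]
    exact mul_le_mul h3 h2 (by positivity) (by norm_num)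
  have hgeom : ‖(c - Q) * geomSum L x‖ ≤ 4 * Q := by
    rw [norm_mul]
    rcases eq_or_ne x 0 with h0 | h0
    · rw [show ‖c - (Q : ℂ)‖ = 0 from le_antisymm (hc0.trans (by rw [h0]; simp)) (norm_nonneg _),
        zero_mul]
      positivity
    · have h4 := ShiftedPrimeDifferences.norm_geomSum_le_inv L (abs_pos.2 h0)
        (le_of_eq (ThreePrimes.nearDist_eq_abs hx2).symm)
      refine (mul_le_mul hc0 h4 (norm_nonneg _) (by positivity)).trans (le_of_eq ?_)
      have : |x| ≠ 0 := abs_ne_zero.2 h0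
      field_simp
      norm_num
  obtain ⟨E, hE⟩ : ∃ E : ℂ, E = if a.Prime then (Real.log a : ℂ) * eAdd (a * β) else 0 :=
    ⟨_, rfl⟩
  have key : (Q : ℂ) * (trickSum Q a L x - geomSum L x) =
      eAdd (-((a : ℝ) * β)) * ((Q.totient : ℂ) * primeTwist Q a (Q * L + a) β -
        geomSum (Q * L + a) β) + eAdd (-((a : ℝ) * β)) * geomSum a β +
      (c - Q) * geomSum L x - (Q.totient : ℂ) * (eAdd (-((a : ℝ) * β)) * E) := by
    have h2 : eAdd (-((a : ℝ) * β)) * eAdd ((a : ℝ) * β) = 1 := by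
      rw [← ThreePrimes.eAdd_add, neg_add_cancel, ThreePrimes.eAdd_zero]
    rw [hβ] at hE h2 hc ⊢
    rw [trickSum_eq hQ haQ, geomSum_blocks Q a x hQ, ← hc, ← hE]
    generalize eAdd ((a : ℝ) * (x / Q)) = v at h2 ⊢
    generalize eAdd (-((a : ℝ) * (x / Q))) = u at h2 ⊢
    push_cast
    field_simp
    linear_combination c * geomSum L x * h2
  have hφ : (Q.totient : ℝ) ≤ Q := Nat.cast_le.2 (Nat.totient_le Q)
  have hbound : (Q : ℝ) * ‖trickSum Q a L x - geomSum L x‖ ≤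
      η / 4 * ((Q * L + a : ℕ) : ℝ) + (Q : ℝ) + 4 * Q + Q * Q := by
    rw [← Complex.norm_natCast Q, ← norm_mul, key, Complex.norm_natCast]
    refine (norm_sub_le _ _).trans (add_le_add (norm_add₃_le.trans (add_le_add (add_le_add ?_ ?_)
      hgeom)) ?_)
    · rw [norm_mul, ThreePrimes.norm_eAdd, one_mul]
      exact h1
    · rw [norm_mul, ThreePrimes.norm_eAdd, one_mul]
      exact (ShiftedPrimeDifferences.norm_geomSum_le_card a β).trans (Nat.cast_le.2 haQ.le)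
    · rw [norm_mul, norm_mul, ThreePrimes.norm_eAdd, one_mul, Complex.norm_natCast]
      exact mul_le_mul hφ (hE ▸ norm_prime_term_le haQ β) (norm_nonneg _) (by linarith)
  have hLa' : (a : ℝ) ≤ L := Nat.cast_le.2 hLa
  push_cast at hbound
  refine le_of_mul_le_mul_left (hbound.trans ?_) (show (0 : ℝ) < Q by linarith)
  nlinarith

theorem eventually_log_conditions (m : ℕ) (K : ℝ) :
    ∀ᶠ L : ℕ in atTop, K ≤ Real.log L ∧ Real.log L ^ m ≤ (L : ℝ) := by
  refine ((Real.tendsto_log_atTop.comp tendsto_natCast_atTop_atTop).eventually_ge_atTop K).and ?_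
  have h := (Real.isLittleO_pow_log_id_atTop (n := m)).bound one_pos
  refine ((tendsto_natCast_atTop_atTop (R := ℝ)).eventually h).mono fun L hL => ?_
  rw [one_mul, Real.norm_eq_abs, Real.norm_eq_abs, id, Nat.abs_cast] at hL
  exact (le_abs_self _).trans hL

/-- The main term on an arc with a prime to `Q` denominator. -/
theorem arc_term_le {L U J d r : ℕ} (hJ : 2 ^ (J + 4) ≤ L) (hU : 1 ≤ U) (hUJ : U ≤ 2 ^ J)
    (hd : 0 < d) (hr : r < d) (θ : ℝ) :
    (d.totient : ℝ)⁻¹ * clip L (θ - (r : ℝ) / d) ≤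
      L * (2 / √(U : ℝ) + arcKernel L U J θ) := by
  have hL0 : (0 : ℝ) < L := Nat.cast_pos.2 (lt_of_lt_of_le (by positivity) hJ)
  have hK := PrimeRestriction.arcKernel_nonneg L U J θ
  have hU1 : (1 : ℝ) ≤ U := Nat.one_le_cast.2 hU
  by_cases hsm : d ≤ U ∧ nearDist (θ - (r : ℝ) / d) * L ≤ U
  · have h1 := PrimeRestriction.le_arcKernel hJ hUJ hd hsm.1 hr hsm.2
    rw [← mul_div_assoc, div_le_iff₀ hL0] at h1
    refine h1.trans ?_
    rw [mul_add, mul_comm (L : ℝ) (arcKernel L U J θ)]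
    exact le_add_of_nonneg_left (by positivity)
  · refine le_trans ?_ (mul_le_mul_of_nonneg_left (le_add_of_nonneg_right hK) hL0.le)
    rcases not_and_or.1 hsm with hs | hs
    · refine (mul_le_mul (PrimeRestriction.inv_totient_le_sqrt hd) (ThreePrimes.clip_le _ _)
        (ThreePrimes.clip_nonneg hL0.le _) (by positivity)).trans ?_
      rw [mul_comm]
      refine mul_le_mul_of_nonneg_left (div_le_div_of_nonneg_left two_pos.le (by positivity)
        (Real.sqrt_le_sqrt (Nat.cast_le.2 (not_le.1 hs).le))) hL0.le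
    · rw [not_le, ← div_lt_iff₀ hL0] at hs
      have h1 := ThreePrimes.clip_le_inv (Z := (L : ℝ)) (show 0 < (U : ℝ) / L by positivity) hs.le
      refine (mul_le_of_le_one_left (ThreePrimes.clip_nonneg hL0.le _)
        (inv_le_one_of_one_le₀ (by exact_mod_cast Nat.totient_pos.2 hd))).trans (h1.trans ?_)
      rw [mul_div_assoc', one_div, inv_div, mul_div_assoc',
        div_le_div_iff₀ (by positivity) (by positivity)]
      have h2 : √(U : ℝ) ≤ U := by
        rw [Real.sqrt_le_left (by linarith)]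
        nlinarith
      nlinarith

/-- The coefficient vanishes or comes from a denominator prime to `Q`. -/
theorem classFactor_cases {Q a q r : ℕ} (hQ : 0 < Q) (hq : 0 < q) (hr : q.Coprime r)
    (ha : a.Coprime Q) : classFactor Q a q r = 0 ∨ ∃ g d : ℕ, q = g * d ∧ g ∣ Q ∧ 0 < d ∧
      (Q.totient : ℝ) * ‖classFactor Q a q r‖ ≤ (d.totient : ℝ)⁻¹ := by
  by_cases hc : (q / q.gcd Q).Coprime Q
  swap
  · exact Or.inl (ThreePrimesClasses.classFactor_eq_zero hQ hq hr ha hc)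
  obtain ⟨d, hd⟩ : ∃ d, d = q / q.gcd Q := ⟨_, rfl⟩
  rw [← hd] at hc
  have hqe : q.gcd Q * d = q := by rw [hd, Nat.mul_div_cancel' (Nat.gcd_dvd_left q Q)]
  have hd0 : 0 < d := Nat.pos_of_mul_pos_left (hqe.symm ▸ hq)
  obtain ⟨b, hb⟩ := ThreePrimesClasses.exists_class_inverse hQ hc a
  have key := ThreePrimesClasses.classFactor_eq (g := q.gcd Q) hQ hd0 (Nat.gcd_dvd_right q Q) hc
    (hqe.symm ▸ hr) ha hb
  rw [hqe] at key
  refine Or.inr ⟨q.gcd Q, d, hqe.symm, Nat.gcd_dvd_right q Q, hd0, ?_⟩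
  have hφ : (0 : ℝ) < Q.totient := Nat.cast_pos.2 (Nat.totient_pos.2 hQ)
  rw [key, norm_mul, ThreePrimes.norm_eAdd, mul_one, Complex.norm_real, Real.norm_eq_abs, abs_div,
    abs_mul, Nat.abs_cast, Nat.abs_cast]
  calc (Q.totient : ℝ) * (|ThreePrimes.moebiusR d| / (Q.totient * d.totient))
      = |ThreePrimes.moebiusR d| / d.totient := by field_simp
    _ ≤ 1 / (d.totient : ℝ) :=
      div_le_div_of_nonneg_right (ThreePrimes.abs_moebiusR_le d) (Nat.cast_nonneg _)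
    _ = _ := one_div _

/-- **The majorant**, with constants independent of `Q`. -/
theorem eventually_trick_majorant (A : ℕ) {Q a : ℕ} (hQ : 0 < Q) (haQ : a < Q)
    (ha : a.Coprime Q) : ∀ᶠ L : ℕ in atTop, ∀ U J : ℕ, 1 ≤ U → U ≤ 2 ^ J → 2 ^ (J + 4) ≤ L →
      ∀ θ : ℝ, ‖trickSum Q a L θ‖ ≤
        L * (4 / √(U : ℝ) + 1 / Real.log L ^ A + 2 * arcKernel L U J θ) := by
  obtain ⟨b, hb⟩ : ∃ b, b = A + 6 := ⟨_, rfl⟩
  obtain ⟨E, hE⟩ : ∃ E, E = 2 * b + A + 2 := ⟨_, rfl⟩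
  obtain ⟨C₁, hC₁, hmin⟩ := ThreePrimesClasses.exists_class_minor b
  obtain ⟨C₂, hC₂, hmaj⟩ := ThreePrimesClasses.exists_class_major (2 * b + 1) E
  obtain ⟨K, hK⟩ : ∃ K, K = 2 * C₁ + 144 * C₂ + 16 := ⟨_, rfl⟩
  obtain ⟨m, hm⟩ : ∃ m, m = 8 * b + 4 := ⟨_, rfl⟩
  filter_upwards [eventually_log_conditions m (K * Q + (Q : ℝ) ^ 2 + 3),
    (tendsto_affine hQ a).eventually (eventually_log_conditions m 0),
    eventually_ge_atTop (max (2 * Q) 2)] with L hL hXc hLb
  intro U J hU hUJ hJ θ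
  obtain ⟨hl, hlm⟩ := hL
  obtain ⟨-, hXm⟩ := hXc
  obtain ⟨X, hX⟩ : ∃ X, X = Q * L + a := ⟨_, rfl⟩
  rw [← hX] at hXm
  obtain ⟨l, hlr⟩ : ∃ l, l = Real.log L := ⟨_, rfl⟩
  obtain ⟨lX, hlXr⟩ : ∃ lX, lX = Real.log X := ⟨_, rfl⟩
  rw [← hlr] at hl hlm
  rw [← hlXr] at hXm
  have hL2 : 2 * Q ≤ L ∧ 2 ≤ L := ⟨(le_max_left _ _).trans hLb, (le_max_right _ _).trans hLb⟩
  have hQ1 : (1 : ℝ) ≤ Q := Nat.one_le_cast.2 hQ
  have hK16 : 16 ≤ K := by linarith
  have hl1 : 1 ≤ l := by nlinarith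
  have hl0 : 0 < l := by linarith
  have hQl : (Q : ℝ) ^ 2 ≤ l := by nlinarith
  have hKl : K * Q ≤ l := by nlinarith
  have hLX : L ≤ X := hX ▸ (Nat.le_mul_of_pos_left L hQ).trans (Nat.le_add_right _ _)
  have hL0 : (0 : ℝ) < L := Nat.cast_pos.2 (by omega)
  have hX0 : (0 : ℝ) < X := Nat.cast_pos.2 (by omega)
  have hX2Q : (X : ℝ) ≤ 2 * Q * L := by
    have : X ≤ 2 * Q * L := by
      have h2 : a ≤ Q * L := haQ.le.trans (Nat.le_mul_of_pos_right Q (by omega))
      rw [hX, mul_assoc, two_mul]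
      omega
    exact_mod_cast this
  have hllX : l ≤ lX := hlr ▸ hlXr ▸ Real.log_le_log hL0 (Nat.cast_le.2 hLX)
  have hlX2 : lX ≤ 2 * l := by
    rw [hlXr, hlr, ← Real.log_rpow hL0]
    refine Real.log_le_log hX0 (hX2Q.trans ?_)
    rw [show ((2 : ℝ)) = ((2 : ℕ) : ℝ) by norm_num, Real.rpow_natCast, sq]
    exact mul_le_mul_of_nonneg_right (by exact_mod_cast hL2.1) hL0.le
  have hlX1 : 1 ≤ lX := hl1.trans hllX
  obtain ⟨R, hR⟩ : ∃ R, R = lX ^ (2 * b) := ⟨_, rfl⟩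
  have hR1 : 1 ≤ R := hR ▸ one_le_pow₀ hlX1
  have hQlX : (Q : ℝ) ^ 2 ≤ lX := hQl.trans hllX
  have hRX : R ≤ X := hR.le.trans ((pow_le_pow_right₀ hlX1 (by omega)).trans hXm)
  have hQR : 2 * (Q : ℝ) * R ≤ X := by
    refine le_trans ?_ hXm
    have : 2 * (Q : ℝ) ≤ lX := le_trans (by nlinarith) (hKl.trans hllX)
    calc 2 * (Q : ℝ) * R ≤ lX * R := mul_le_mul_of_nonneg_right this (by linarith)
      _ = lX ^ (2 * b + 1) := by rw [hR, pow_succ, mul_comm]
      _ ≤ _ := pow_le_pow_right₀ hlX1 (by omega)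
  obtain ⟨t, ht⟩ : ∃ t : ℝ, t = θ / Q := ⟨_, rfl⟩
  have hK0 := PrimeRestriction.arcKernel_nonneg L U J θ
  have hU0 : 0 ≤ 4 / √(U : ℝ) := by positivity
  obtain ⟨Y, hY⟩ : ∃ Y : ℝ, Y = (L : ℝ) / l ^ (A + 2) := ⟨_, rfl⟩
  have hY0 : 0 ≤ Y := hY ▸ by positivity
  have hφQ : (Q.totient : ℝ) / Q ≤ 1 := totient_div_le_one Q
  have hφ0 : 0 ≤ (Q.totient : ℝ) / Q := by positivity
  have hpp : 2 * √(X : ℝ) * lX + Q ≤ 13 * Q * Y := by
    have h1 : l ^ (2 * (A + 3)) ≤ L := (pow_le_pow_right₀ hl1 (by omega)).trans hlm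
    have h2 : l ^ (A + 3) ≤ √(L : ℝ) := by
      rw [Real.le_sqrt (by positivity) hL0.le, ← pow_mul, mul_comm]
      exact h1
    have h3 : √(L : ℝ) * l ≤ Y := by
      rw [hY, le_div_iff₀ (by positivity), mul_assoc, ← pow_succ']
      exact (mul_le_mul_of_nonneg_left h2 (Real.sqrt_nonneg _)).trans_eq
        (Real.mul_self_sqrt hL0.le)
    have h4 : √(X : ℝ) ≤ 2 * Q * √(L : ℝ) := by
      rw [Real.sqrt_le_left (by positivity), mul_pow, Real.sq_sqrt hL0.le]
      refine hX2Q.trans (mul_le_mul_of_nonneg_right ?_ hL0.le)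
      nlinarith
    have h5 : 1 ≤ Y := by
      refine le_trans ?_ h3
      exact one_le_mul_of_one_le_of_one_le (Real.one_le_sqrt.2 (Nat.one_le_cast.2 (by omega))) hl1
    have h6 : 2 * √(X : ℝ) * lX ≤ 8 * Q * Y := by
      calc 2 * √(X : ℝ) * lX ≤ 2 * (2 * Q * √(L : ℝ)) * (2 * l) := by gcongr
        _ = 8 * Q * (√(L : ℝ) * l) := by ring
        _ ≤ _ := mul_le_mul_of_nonneg_left h3 (by positivity)
    nlinarith
  have hfinal : K * Q * Y ≤ L * (1 / l ^ A) := by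
    rw [hY, mul_one_div, pow_add, ← div_div, mul_div_assoc', div_le_iff₀ (by positivity),
      mul_comm (K * Q)]
    refine mul_le_mul_of_nonneg_left ?_ (by positivity)
    exact hKl.trans (le_self_pow₀ hl1 two_ne_zero)
  have hreduce : ∀ ⦃G : ℝ⦄, (Q.totient : ℝ) / Q * ‖classTwist Q a X t‖ ≤
      (2 * C₁ + 144 * C₂) * Q * Y + L * G →
      ‖trickSum Q a L θ‖ ≤ L * (1 / l ^ A) + L * G := by
    intro G hG
    rw [trickSum_eq hQ haQ, ← ht, ← hX, norm_mul, norm_mul, ThreePrimes.norm_eAdd, mul_one,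
      Complex.norm_real, Real.norm_eq_abs, abs_of_nonneg hφ0]
    have h1 := ShiftedPrimeDifferences.norm_classTwist_sub_primeTwist_le Q a
      (show 1 ≤ X by omega) t
    rw [← hlXr] at h1
    have h2 := norm_prime_term_le haQ t
    have h3 : ‖primeTwist Q a X t - if a.Prime then (Real.log a : ℂ) * eAdd (a * t) else 0‖ ≤
        ‖classTwist Q a X t‖ + 13 * Q * Y := by
      refine (norm_sub_le _ _).trans ?_
      have h4 := norm_le_norm_add_norm_sub (classTwist Q a X t) (primeTwist Q a X t)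
      linarith
    have h5 := mul_le_mul_of_nonneg_left h3 hφ0
    have h6 := mul_le_of_le_one_left (show 0 ≤ 13 * (Q : ℝ) * Y by positivity) hφQ
    nlinarith [mul_nonneg (Nat.cast_nonneg (α := ℝ) Q) hY0]
  rw [← hlr]
  by_cases hmajor : ∃ z ∈ arcCentres (Q * ⌊R⌋₊), nearDist (t - centre z) ≤ R / X
  swap
  · push Not at hmajor
    refine (hreduce (G := 0) ?_).trans ?_
    · rw [mul_zero, add_zero]
      refine (mul_le_of_le_one_left (norm_nonneg _) hφQ).trans ((hmin Q a X t hQ (hlXr ▸ hlX1)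
        (hlXr ▸ hR ▸ hRX) (fun z hz => by
          rw [← hlXr, ← hR] at hz ⊢
          exact hmajor z hz)).trans ?_)
      rw [← hlXr]
      have h1 : (X : ℝ) * lX ^ 4 / lX ^ b ≤ 2 * Q * Y := by
        rw [show b = 4 + (A + 2) by omega, pow_add, ← div_div, mul_div_assoc (X : ℝ),
          div_self (by positivity), mul_one, hY, mul_div_assoc']
        exact div_le_div₀ (by positivity) hX2Q (by positivity)
          (pow_le_pow_left₀ (by linarith) hllX _)
      have : 0 ≤ 144 * C₂ * (Q : ℝ) * Y := by positivity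
      linarith [mul_le_mul_of_nonneg_left h1 hC₁.le]
    · rw [mul_zero, add_zero]
      exact mul_le_mul_of_nonneg_left (by linarith) hL0.le
  obtain ⟨⟨q, r⟩, hz, hnd⟩ := hmajor
  rw [ThreePrimes.mem_arcCentres] at hz
  obtain ⟨⟨hq, hqP⟩, hrq, hcop⟩ := hz
  simp only at hq hqP hrq hcop
  have hqR : (q : ℝ) ≤ Q * R := by
    refine (Nat.cast_le.2 hqP).trans ?_
    push_cast
    exact mul_le_mul_of_nonneg_left (Nat.floor_le (by linarith)) (by linarith)
  have hqQ : ((q * Q : ℕ) : ℝ) ≤ Real.log X ^ (2 * b + 1) := by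
    rw [← hlXr, pow_succ, ← hR]
    push_cast
    calc (q : ℝ) * Q ≤ Q * R * Q := mul_le_mul_of_nonneg_right hqR (by linarith)
      _ = R * (Q : ℝ) ^ 2 := by ring
      _ ≤ R * lX := mul_le_mul_of_nonneg_left hQlX (by linarith)
  obtain ⟨k, hk⟩ : ∃ k, k = round (t - centre ⟨q, r⟩) := ⟨_, rfl⟩
  obtain ⟨γ, hγ⟩ : ∃ γ : ℝ, γ = t - (r : ℝ) / q - (k : ℝ) := ⟨_, rfl⟩
  have hγR : |γ| ≤ R / X := by
    rw [nearDist, ← hk] at hnd
    rw [hγ]
    exact hnd
  have hγQ : |(Q : ℝ) * γ| ≤ 1 / 2 := by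
    rw [abs_mul, Nat.abs_cast]
    refine (mul_le_mul_of_nonneg_left hγR (Nat.cast_nonneg Q)).trans ?_
    rw [mul_div_assoc', div_le_iff₀ hX0]
    linarith
  have htw : classTwist Q a X t = classTwist Q a X ((r : ℝ) / q + γ) := by
    rw [show (r : ℝ) / q + γ = t - (k : ℝ) by rw [hγ]; ring,
      ShiftedPrimeDifferences.classTwist_sub_intCast]
  have hmain : ‖classTwist Q a X t‖ ≤
      ‖classFactor Q a q r‖ * ‖geomSum X γ‖ + 144 * C₂ * Q * Y := by
    have h1 := hmaj Q a X q r γ hQ hq (by omega) hqQ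
    rw [← hlXr, ← htw] at h1
    have h2 : C₂ * (X / lX ^ E) * (1 + 2 * π * |γ| * X) ≤ 144 * C₂ * Q * Y := by
      have h3 : 1 + 2 * π * |γ| * X ≤ 72 * R := by
        have h4 : |γ| * X ≤ R := by rwa [← le_div_iff₀ hX0]
        nlinarith [Real.pi_le_four, Real.pi_pos, abs_nonneg γ]
      refine (mul_le_mul_of_nonneg_left h3 (by positivity)).trans ?_
      rw [hE, hY, hR, show 2 * b + A + 2 = 2 * b + (A + 2) by omega, pow_add]
      have e : C₂ * (X / (lX ^ (2 * b) * lX ^ (A + 2))) * (72 * lX ^ (2 * b)) =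
          72 * C₂ * (X / lX ^ (A + 2)) := by field_simp
      rw [e, show 144 * C₂ * Q * ((L : ℝ) / l ^ (A + 2)) =
        72 * C₂ * (2 * Q * L / l ^ (A + 2)) by ring]
      exact mul_le_mul_of_nonneg_left (div_le_div₀ (by positivity) hX2Q (by positivity)
        (pow_le_pow_left₀ hl0.le hllX _)) (by positivity)
    refine (norm_le_norm_add_norm_sub' _ _).trans (add_le_add ?_ (h1.trans h2))
    exact (norm_mul _ _).le
  refine (hreduce (G := 4 / √(U : ℝ) + 2 * arcKernel L U J θ) ?_).trans (le_of_eq (by ring))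
  refine (mul_le_mul_of_nonneg_left hmain hφ0).trans ?_
  rw [mul_add]
  have h6 := mul_le_of_le_one_left (show 0 ≤ 144 * C₂ * (Q : ℝ) * Y by positivity) hφQ
  have h7 : 0 ≤ 2 * C₁ * (Q : ℝ) * Y := by positivity
  suffices hmain' : (Q.totient : ℝ) / Q * (‖classFactor Q a q r‖ * ‖geomSum X γ‖) ≤
      L * (4 / √(U : ℝ) + 2 * arcKernel L U J θ) by linarith
  rcases classFactor_cases hQ hq hcop ha with h0 | ⟨g, d, hgd, hgQ, hd, hfac⟩
  · rw [h0, norm_zero, zero_mul, mul_zero]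
    positivity
  obtain ⟨e, he⟩ := hgQ
  obtain ⟨r', hr'⟩ : ∃ r', r' = e * r % d := ⟨_, rfl⟩
  have hdist : nearDist (θ - (r' : ℝ) / d) = nearDist ((Q : ℝ) * γ) := by
    have hg0 : (g : ℝ) ≠ 0 := Nat.cast_ne_zero.2 (by rintro rfl; simp at hgd; omega)
    have hd0' : (d : ℝ) ≠ 0 := Nat.cast_ne_zero.2 hd.ne'
    have hdiv : ((e * r : ℕ) : ℝ) = r' + d * ((e * r / d : ℕ) : ℝ) := by
      exact_mod_cast (show e * r = r' + d * (e * r / d) by rw [hr', Nat.mod_add_div])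
    generalize e * r / d = j at hdiv
    push_cast at hdiv
    rw [show θ - (r' : ℝ) / d = (Q : ℝ) * γ + (((j : ℤ) + (Q : ℤ) * k : ℤ) : ℝ) from ?_,
      ThreePrimes.nearDist_add_intCast]
    have hQe : (Q : ℝ) = g * e := by exact_mod_cast he
    have hqe : (q : ℝ) = g * d := by exact_mod_cast hgd
    have hθ : θ = (Q : ℝ) * t := by rw [ht]; field_simp
    rw [hθ, hγ, hqe]
    push_cast
    rw [hQe]
    field_simp
    linear_combination hdiv
  have hgeom : ‖geomSum X γ‖ ≤ 2 * Q * clip L (θ - (r' : ℝ) / d) := by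
    rw [clip, hdist]
    split_ifs with h0
    · exact (ShiftedPrimeDifferences.norm_geomSum_le_card X γ).trans hX2Q
    · rw [mul_min_of_nonneg _ _ (by positivity)]
      refine le_min ((ShiftedPrimeDifferences.norm_geomSum_le_card X γ).trans hX2Q) ?_
      rw [ThreePrimes.nearDist_eq_abs hγQ] at h0 ⊢
      rw [abs_mul, Nat.abs_cast] at h0 ⊢
      have hγ1 : |γ| ≤ 1 / 2 := by
        rw [abs_mul, Nat.abs_cast] at hγQ
        exact (le_mul_of_one_le_left (abs_nonneg γ) hQ1).trans hγQ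
      have hγ0 : 0 < |γ| := by
        rcases (abs_nonneg γ).eq_or_lt with h | h
        · exact absurd (by rw [← h, mul_zero]) h0
        · exact h
      refine (ShiftedPrimeDifferences.norm_geomSum_le_inv X hγ0
        (le_of_eq (ThreePrimes.nearDist_eq_abs hγ1).symm)).trans (le_of_sub_nonneg ?_)
      have : 0 ≤ 1 / (2 * |γ|) := by positivity
      field_simp
      norm_num
  have h8 := arc_term_le (r := r') hJ hU hUJ hd (hr' ▸ Nat.mod_lt _ hd) θ
  calc (Q.totient : ℝ) / Q * (‖classFactor Q a q r‖ * ‖geomSum X γ‖)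
      = ((Q.totient : ℝ) * ‖classFactor Q a q r‖) * ‖geomSum X γ‖ / Q := by ring
    _ ≤ (d.totient : ℝ)⁻¹ * (2 * Q * clip L (θ - (r' : ℝ) / d)) / Q := by gcongr
    _ = 2 * ((d.totient : ℝ)⁻¹ * clip L (θ - (r' : ℝ) / d)) := by field_simp
    _ ≤ 2 * (L * (2 / √(U : ℝ) + arcKernel L U J θ)) := mul_le_mul_of_nonneg_left h8 two_pos.le
    _ = _ := by ring

end FA.DenseThreePrimes
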