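import Mathlib.Algebra.Field.ZMod
import Mathlib.Data.ZMod.Basic
import Mathlib.Data.Finset.Image
import Mathlib.Algebra.Order.BigOperators.Group.Finset
import Mathlib.Algebra.BigOperators.Ring.Finset
import Mathlib.Algebra.BigOperators.Fin
import Mathlib.Data.Real.Basic
import Mathlib.Algebra.Order.Floor.Semiring
import Mathlib.Algebra.Order.Archimedean.Real.Basic
import Mathlib.Tactic.LinearCombination
import Mathlib.Tactic.Linarith
import Mathlib.Tactic.Positivity

/-!
# Pollard's theorem

`∑_x min (t, r x) ≥ t min (p, |A| + |B| - t)` for the numbers `r x` of representations `x = a + b`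
in `ZMod p`, and from it a lower bound for the solutions of `x + y + z = n` in three sets, or three
bounded weights, whose densities have sum above `1`.
-/

set_option autoImplicit false

noncomputable section

namespace FA.DenseThreePrimes

open Finset

variable {p : ℕ} [Fact p.Prime]

/-- The representations `x = a + b`. -/
def reps (A B : Finset (ZMod p)) (x : ZMod p) : ℕ := (A.filter fun a => x - a ∈ B).card

theorem reps_comm (A B : Finset (ZMod p)) (x : ZMod p) : reps A B x = reps B A x := by
  refine card_nbij' (fun a => x - a) (fun a => x - a) ?_ ?_ ?_ ?_ <;>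
    intro a ha <;> simp only [coe_filter, Set.mem_ofPred_eq, sub_sub_cancel] at ha ⊢
  · exact ⟨ha.2, ha.1⟩
  · exact ⟨ha.2, ha.1⟩

theorem reps_union {A A' : Finset (ZMod p)} (B : Finset (ZMod p)) (h : Disjoint A A')
    (x : ZMod p) : reps (A ∪ A') B x = reps A B x + reps A' B x := by
  rw [reps, filter_union, card_union_of_disjoint (disjoint_filter_filter h)]
  rfl

theorem reps_image_sub (A B : Finset (ZMod p)) (e x : ZMod p) :
    reps (A.image (· - e)) B x = reps A B (x + e) := by
  rw [reps, filter_image, card_image_of_injective _ (sub_left_injective (b := e))]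
  exact congrArg card (filter_congr fun a _ => by rw [sub_sub_eq_add_sub])

theorem reps_le_card (A B : Finset (ZMod p)) (x : ZMod p) : reps A B x ≤ B.card := by
  rw [reps_comm]
  exact card_filter_le _ _

theorem sum_reps (A B : Finset (ZMod p)) : ∑ x, reps A B x = A.card * B.card := by
  simp only [reps, card_filter]
  rw [sum_comm, card_eq_sum_ones A, sum_mul]
  refine sum_congr rfl fun a _ => ?_
  rw [← card_filter, one_mul]
  exact card_nbij' (fun x => x - a) (fun b => b + a)
    (fun x hx => (mem_filter.1 hx).2) (fun b hb => mem_filter.2 ⟨mem_univ _, by simpa using hb⟩)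
    (fun x _ => sub_add_cancel x a) (fun b _ => add_sub_cancel_right b a)

/-- Dyson's transform splits the representations. -/
theorem reps_split (A B : Finset (ZMod p)) (e : ZMod p) (x : ZMod p) :
    reps A B x = reps (A ∪ B.image (· - e)) (B.filter fun b => b - e ∈ A) x +
      reps (A \ (B.filter fun b => b - e ∈ A).image (· - e))
        (B.filter fun b => b - e ∉ A) x := by
  obtain ⟨C, hC⟩ : ∃ C, C = B.filter fun b => b - e ∈ A := ⟨_, rfl⟩
  obtain ⟨D, hD⟩ : ∃ D, D = B.filter fun b => b - e ∉ A := ⟨_, rfl⟩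
  rw [← hC, ← hD]
  have hCA : C.image (· - e) ⊆ A := by
    rw [hC]
    exact image_subset_iff.2 fun b hb => (mem_filter.1 hb).2
  have hB : C ∪ D = B := by rw [hC, hD, filter_union_filter_not_eq]
  have hCD : Disjoint C D := by rw [hC, hD]; exact disjoint_filter_filter_not _ _ _
  have hDA : Disjoint A (D.image (· - e)) := by
    rw [disjoint_left]
    intro a ha had
    obtain ⟨d, hd, rfl⟩ := mem_image.1 had
    rw [hD, mem_filter] at hd
    exact hd.2 ha
  obtain ⟨A₀, hA₀⟩ : ∃ A₀, A₀ = A \ C.image (· - e) := ⟨_, rfl⟩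
  have hA : C.image (· - e) ∪ A₀ = A := by rw [hA₀, union_sdiff_of_subset hCA]
  have hdis : Disjoint (C.image (· - e)) A₀ := by rw [hA₀]; exact disjoint_sdiff
  have hU : A ∪ B.image (· - e) = A ∪ D.image (· - e) := by
    rw [← hB, image_union, ← union_assoc, union_eq_left.2 hCA]
  rw [← hA₀, hU, reps_union _ hDA, reps_comm A B, ← hB, reps_union _ hCD, reps_comm C A,
    reps_comm D A]
  conv_lhs => rw [← hA, reps_union _ hdis, reps_union _ hdis]
  conv_rhs => rw [← hA, reps_union _ hdis]
  rw [reps_image_sub C D, reps_image_sub D C, reps_comm D C (x + e)]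
  ring

/-- **Pollard's theorem.** -/
theorem pollard : ∀ (A B : Finset (ZMod p)) (t : ℕ), t ≤ A.card → t ≤ B.card →
    t * min p (A.card + B.card - t) ≤ ∑ x, min t (reps A B x) := by
  intro A B
  induction hb : B.card using Nat.strong_induction_on generalizing A B with
  | h n ih =>
    intro t htA htB
    subst hb
    rcases Nat.eq_zero_or_pos t with rfl | ht
    · simp
    by_cases hex : ∃ e, 0 < (B.filter fun b => b - e ∈ A).card ∧
        (B.filter fun b => b - e ∈ A).card < B.card
    · obtain ⟨e, hc0, hcB⟩ := hex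
      obtain ⟨C, hC⟩ : ∃ C, C = B.filter fun b => b - e ∈ A := ⟨_, rfl⟩
      obtain ⟨D, hD⟩ : ∃ D, D = B.filter fun b => b - e ∉ A := ⟨_, rfl⟩
      obtain ⟨A', hA'⟩ : ∃ A', A' = A ∪ B.image (· - e) := ⟨_, rfl⟩
      obtain ⟨A₀, hA₀⟩ : ∃ A₀, A₀ = A \ C.image (· - e) := ⟨_, rfl⟩
      rw [← hC] at hc0 hcB
      have hsplit : ∀ x, reps A B x = reps A' C x + reps A₀ D x := fun x => by
        rw [hA', hA₀, hD, hC, reps_split]
      have hsum : C.card + D.card = B.card := by
        rw [hC, hD]
        exact card_filter_add_card_filter_not _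
      have hinj : Function.Injective fun b : ZMod p => b - e := sub_left_injective
      have hA0card : A₀.card + C.card = A.card := by
        rw [hA₀, ← card_image_of_injective C hinj]
        refine card_sdiff_add_card_eq_card (image_subset_iff.2 fun b hb => ?_)
        rw [hC] at hb
        exact (mem_filter.1 hb).2
      have hA'card : A'.card + C.card = A.card + B.card := by
        rw [hA', ← card_image_of_injective B hinj, ← card_union_add_card_inter A,
          ← card_image_of_injective C hinj]
        congr 2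
        ext y
        simp only [mem_image, mem_inter, hC, mem_filter]
        constructor
        · rintro ⟨b, ⟨hb, hbA⟩, rfl⟩
          exact ⟨hbA, b, hb, rfl⟩
        · rintro ⟨hy, b, hb, rfl⟩
          exact ⟨b, ⟨hb, hy⟩, rfl⟩
      by_cases htC : t ≤ C.card
      · have h := ih C.card hcB A' C rfl t (by omega) htC
        rw [hA'card] at h
        exact h.trans (sum_le_sum fun x _ => min_le_min le_rfl (by rw [hsplit x]; omega))
      · have h := ih D.card (by omega) A₀ D rfl (t - C.card) (by omega) (by omega)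
        have hA'p : A'.card ≤ p := (card_le_univ _).trans_eq (ZMod.card p)
        have hmin : min p (A₀.card + D.card - (t - C.card)) = A₀.card + D.card - (t - C.card) :=
          min_eq_right (by omega)
        rw [hmin] at h
        calc t * min p (A.card + B.card - t) ≤ t * (A.card + B.card - t) :=
              Nat.mul_le_mul_left t (min_le_right _ _)
          _ = A'.card * C.card + (t - C.card) * (A₀.card + D.card - (t - C.card)) := by
              obtain ⟨u, hu⟩ : ∃ u, t = C.card + u := ⟨t - C.card, by omega⟩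
              obtain ⟨v, hv⟩ : ∃ v, A.card + B.card = t + (C.card + v) :=
                ⟨A.card + B.card - t - C.card, by omega⟩
              rw [show t - C.card = u by omega, show A.card + B.card - t = C.card + v by omega,
                show A₀.card + D.card - u = v by omega,
                show A'.card = t + v by omega, hu]
              ring
          _ ≤ ∑ x, (reps A' C x + min (t - C.card) (reps A₀ D x)) := by
              rw [sum_add_distrib, sum_reps]
              exact Nat.add_le_add_left h _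
          _ ≤ _ := sum_le_sum fun x _ => by
              have := reps_le_card A' C x
              rw [hsplit x]
              omega
    · push Not at hex
      rcases Nat.lt_or_ge B.card 2 with hB | hB
      · obtain rfl : t = 1 := by omega
        refine le_trans ?_ (le_of_eq (sum_congr rfl fun x _ =>
          (min_eq_right ((reps_le_card A B x).trans (by omega))).symm))
        rw [sum_reps, show B.card = 1 by omega, mul_one, one_mul, Nat.add_sub_cancel]
        exact min_le_right _ _
      obtain ⟨b₁, hb₁, b₂, hb₂, hne⟩ := one_lt_card.1 hB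
      obtain ⟨a, ha⟩ : A.Nonempty := card_pos.1 (by omega)
      have hclosed : ∀ a ∈ A, a + (b₂ - b₁) ∈ A := fun a ha => by
        have h1 := hex (b₁ - a) (card_pos.2 ⟨b₁, mem_filter.2 ⟨hb₁, by simpa using ha⟩⟩)
        have h2 := eq_of_subset_of_card_le (filter_subset _ B) h1
        rw [← h2, mem_filter] at hb₂
        rw [show a + (b₂ - b₁) = b₂ - (b₁ - a) by abel]
        exact hb₂.2
      have hk : ∀ k : ℕ, a + k * (b₂ - b₁) ∈ A := fun k => by
        induction k with
        | zero => simpa using ha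
        | succ k ih =>
          rw [Nat.cast_succ, add_mul, one_mul, ← add_assoc]
          exact hclosed _ ih
      have huniv : A = univ := eq_univ_iff_forall.2 fun y => by
        have h1 := hk ((y - a) * (b₂ - b₁)⁻¹).val
        rwa [ZMod.natCast_zmod_val, mul_assoc,
          inv_mul_cancel₀ (sub_ne_zero.2 hne.symm), mul_one, add_sub_cancel] at h1
      have hr : ∀ x, reps A B x = B.card := fun x => by
        rw [reps_comm, reps, huniv]
        simp
      simp only [hr, min_eq_left htB, sum_const, card_univ, ZMod.card, smul_eq_mul]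
      rw [mul_comm p]
      exact Nat.mul_le_mul_left t (min_le_left _ _)

/-- The solutions of `x + y + z = n` in three dense sets. -/
theorem three_sets_count {A B C : Finset (ZMod p)} {σ : ℝ} (hσ : 0 < σ)
    (hp : 8 / σ ≤ p) (hA : σ * p ≤ A.card) (hB : σ * p ≤ B.card) (hC : σ * p ≤ C.card)
    (h : (1 + σ) * p ≤ (A.card : ℝ) + B.card + C.card) (n : ZMod p) :
    σ ^ 3 / 64 * (p : ℝ) ^ 2 ≤
      (((A ×ˢ B).filter fun z => n - z.1 - z.2 ∈ C).card : ℝ) := by
  rw [div_le_iff₀ hσ] at hp
  obtain ⟨t, ht⟩ : ∃ t, t = ⌊σ * p / 4⌋₊ := ⟨_, rfl⟩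
  have ht1 : (t : ℝ) ≤ σ * p / 4 := ht ▸ Nat.floor_le (by positivity)
  have ht2 : σ * p / 8 ≤ t := by
    have := Nat.lt_floor_add_one (σ * p / 4)
    rw [← ht] at this
    linarith
  have htA : t ≤ A.card := by exact_mod_cast (show (t : ℝ) ≤ A.card by linarith)
  have htB : t ≤ B.card := by exact_mod_cast (show (t : ℝ) ≤ B.card by linarith)
  obtain ⟨e, he⟩ : ∃ e, e = σ ^ 2 / 32 * p := ⟨_, rfl⟩
  have he0 : 0 ≤ e := he ▸ by positivity
  obtain ⟨D, hD⟩ : ∃ D : Finset (ZMod p), D = univ.filter fun x => e ≤ reps A B x := ⟨_, rfl⟩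
  have hkey : (t : ℝ) * min (p : ℝ) ((A.card : ℝ) + B.card - t) ≤ t * D.card + p * e := by
    have h0 : ((t * min p (A.card + B.card - t) : ℕ) : ℝ) ≤
        ((∑ x, min t (reps A B x) : ℕ) : ℝ) := Nat.cast_le.2 (pollard A B t htA htB)
    rw [Nat.cast_mul, Nat.cast_min, Nat.cast_sub (by omega), Nat.cast_add, Nat.cast_sum] at h0
    refine h0.trans ?_
    rw [← sum_filter_add_sum_filter_not univ (fun x => e ≤ reps A B x), ← hD]
    refine add_le_add ((sum_le_card_nsmul _ _ (t : ℝ) fun x _ =>
      Nat.cast_le.2 (min_le_left _ _)).trans_eq (by rw [nsmul_eq_mul, mul_comm])) ?_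
    refine (sum_le_card_nsmul _ _ e fun x hx => ?_).trans ?_
    · rw [mem_filter, not_le] at hx
      exact (Nat.cast_le.2 (min_le_right _ _)).trans hx.2.le
    · rw [nsmul_eq_mul]
      refine mul_le_mul_of_nonneg_right ?_ he0
      exact_mod_cast (card_le_univ _).trans_eq (ZMod.card p)
  have hpσ : 0 < (p : ℝ) := Nat.cast_pos.2 (Fact.out : p.Prime).pos
  have hDlow : min (p : ℝ) ((A.card : ℝ) + B.card - t) - σ * p / 4 ≤ D.card := by
    refine le_of_mul_le_mul_left ?_ (show (0 : ℝ) < t by nlinarith)
    nlinarith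
  have hcount : (((A ×ˢ B).filter fun z => n - z.1 - z.2 ∈ C).card : ℝ) =
      ∑ c ∈ C, (reps A B (n - c) : ℝ) := by
    have hf := card_eq_sum_card_fiberwise (t := C)
      (s := (A ×ˢ B).filter fun z => n - z.1 - z.2 ∈ C)
      (f := fun z : ZMod p × ZMod p => n - z.1 - z.2) fun z hz => (mem_filter.1 hz).2
    rw [← Nat.cast_sum, Nat.cast_inj, hf]
    refine sum_congr rfl fun c hc => ?_
    rw [reps]
    refine card_nbij' Prod.fst (fun a => (a, n - c - a)) (fun z hz => ?_) (fun a ha => ?_)
      (fun z hz => ?_) (fun a _ => rfl)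
    · simp only [coe_filter, mem_filter, mem_product, Set.mem_ofPred_eq] at hz ⊢
      refine ⟨hz.1.1.1, ?_⟩
      rw [← hz.2, show n - (n - z.1 - z.2) - z.1 = z.2 by abel]
      exact hz.1.1.2
    · simp only [coe_filter, mem_filter, mem_product, Set.mem_ofPred_eq] at ha ⊢
      rw [show n - a - (n - c - a) = c by abel]
      exact ⟨⟨⟨ha.1, ha.2⟩, hc⟩, rfl⟩
    · simp only [coe_filter, mem_filter, mem_product, Set.mem_ofPred_eq] at hz
      refine Prod.ext rfl ?_
      rw [← hz.2]
      abel_nf
  rw [hcount]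
  obtain ⟨E, hE⟩ : ∃ E : Finset (ZMod p), E = C.filter fun c => n - c ∈ D := ⟨_, rfl⟩
  have hEcard : (C.card : ℝ) + D.card ≤ E.card + p := by
    have h1 : C.card + (D.image (n - ·)).card ≤ E.card + p := by
      rw [← card_union_add_card_inter, add_comm E.card]
      refine Nat.add_le_add ((card_le_univ _).trans_eq (ZMod.card p)) (card_le_card fun y hy => ?_)
      rw [mem_inter, mem_image] at hy
      obtain ⟨hyC, d, hd, rfl⟩ := hy
      rw [hE, mem_filter, sub_sub_cancel]
      exact ⟨hyC, hd⟩
    rw [card_image_of_injective _ sub_right_injective] at h1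
    exact_mod_cast h1
  refine le_trans ?_ (sum_le_sum_of_subset_of_nonneg (hE ▸ filter_subset _ C : E ⊆ C)
    fun c _ _ => Nat.cast_nonneg _)
  refine le_trans ?_ (card_nsmul_le_sum _ _ e fun c hc => ?_)
  · rw [nsmul_eq_mul]
    have hE2 : σ * p / 2 ≤ E.card := by
      rcases le_total (p : ℝ) ((A.card : ℝ) + B.card - t) with h' | h'
      · rw [min_eq_left h'] at hDlow
        linarith
      · rw [min_eq_right h'] at hDlow
        linarith
    calc σ ^ 3 / 64 * (p : ℝ) ^ 2 = σ * p / 2 * e := by rw [he]; ring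
      _ ≤ _ := mul_le_mul_of_nonneg_right hE2 he0
  · rw [hE, mem_filter, hD, mem_filter] at hc
    exact hc.2.2

/-- **Three bounded weights with densities above `1` in sum.** -/
theorem three_weights_count {G σ : ℝ} (hG : 1 ≤ G) (hσ : 0 < σ)
    (hp : 8 / σ ≤ p) {f : Fin 3 → ZMod p → ℝ} (h0 : ∀ i x, 0 ≤ f i x) (hle : ∀ i x, f i x ≤ G)
    (hlow : ∀ i, 2 * σ * G * p ≤ ∑ x, f i x) (h : G * (1 + 4 * σ) * p ≤ ∑ i, ∑ x, f i x)
    (n : ZMod p) :
    σ ^ 6 / 64 * (p : ℝ) ^ 2 ≤ ∑ x, ∑ y, f 0 x * f 1 y * f 2 (n - x - y) := by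
  obtain ⟨S, hS⟩ : ∃ S : Fin 3 → Finset (ZMod p), S = fun i => univ.filter fun x => σ ≤ f i x :=
    ⟨_, rfl⟩
  have hmass : ∀ i, ∑ x, f i x ≤ G * (S i).card + σ * p := fun i => by
    rw [← sum_filter_add_sum_filter_not univ (fun x => σ ≤ f i x), hS]
    refine add_le_add ((sum_le_card_nsmul _ _ G fun x _ => hle i x).trans_eq
      (by rw [nsmul_eq_mul, mul_comm])) ((sum_le_card_nsmul _ _ σ fun x hx => ?_).trans ?_)
    · exact (not_le.1 (mem_filter.1 hx).2).le
    · rw [nsmul_eq_mul, mul_comm σ]
      refine mul_le_mul_of_nonneg_right ?_ hσ.le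
      exact_mod_cast (card_le_univ _).trans_eq (ZMod.card p)
  have hσp : σ * p ≤ G * (σ * p) := le_mul_of_one_le_left (by positivity) hG
  have hcard : ∀ i, σ * p ≤ (S i).card := fun i =>
    le_of_mul_le_mul_left (by linarith [hlow i, hmass i]) (show 0 < G by linarith)
  have htot : (1 + σ) * p ≤ ((S 0).card : ℝ) + (S 1).card + (S 2).card := by
    refine le_of_mul_le_mul_left ?_ (show 0 < G by linarith)
    rw [Fin.sum_univ_three] at h
    linarith [hmass 0, hmass 1, hmass 2]
  have hcnt := three_sets_count hσ hp (hcard 0) (hcard 1) (hcard 2) htot n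
  calc σ ^ 6 / 64 * (p : ℝ) ^ 2 = σ ^ 3 / 64 * (p : ℝ) ^ 2 * σ ^ 3 := by ring
    _ ≤ (((S 0 ×ˢ S 1).filter fun z => n - z.1 - z.2 ∈ S 2).card : ℝ) * σ ^ 3 :=
        mul_le_mul_of_nonneg_right hcnt (by positivity)
    _ ≤ ∑ z ∈ (S 0 ×ˢ S 1).filter (fun z => n - z.1 - z.2 ∈ S 2),
          f 0 z.1 * f 1 z.2 * f 2 (n - z.1 - z.2) := by
        rw [← nsmul_eq_mul]
        refine card_nsmul_le_sum _ _ _ fun z hz => ?_
        simp only [hS, mem_filter, mem_product, mem_univ, true_and] at hz
        rw [pow_succ, sq]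
        exact mul_le_mul (mul_le_mul hz.1.1 hz.1.2 hσ.le (h0 _ _)) hz.2 hσ.le
          (mul_nonneg (h0 _ _) (h0 _ _))
    _ ≤ ∑ z ∈ (univ : Finset (ZMod p)) ×ˢ (univ : Finset (ZMod p)),
          f 0 z.1 * f 1 z.2 * f 2 (n - z.1 - z.2) :=
        sum_le_sum_of_subset_of_nonneg (subset_univ _) fun z _ _ =>
          mul_nonneg (mul_nonneg (h0 _ _) (h0 _ _)) (h0 _ _)
    _ = _ := sum_product' _ _ fun x y => f 0 x * f 1 y * f 2 (n - x - y)

end FA.DenseThreePrimes
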