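import Fermat.Agent.DenseThreePrimes.Majorant
import Fermat.Agent.PrimeRestriction.LargeValues
import Fermat.Agent.PrimeRestriction.Main

/-!
# Restriction for weights with the majorant of the primes

Bourgain's estimate for weights whose exponential sums lie below the Fejér majorant of the primes,
by the large values as in `PrimeRestriction`; it holds for the weighted primes of one class with
constants independent of the modulus.
-/

set_option autoImplicit false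

noncomputable section

namespace FA.DenseThreePrimes

open Finset
open FA.ThreePrimes (eAdd trigSum)
open FA.PrimeRestriction (energy energy_nonneg arcKernel truncDivisors gridNorm sum_arcKernel_le
  exists_weighted_moment_le exists_div_totient_le)
open scoped Real ComplexConjugate

/-- A weight on `[1, N]` with the properties of `Λ` used by the restriction estimate. -/
structure IsTrickMajorant (A N : ℕ) (w : ℕ → ℝ) : Prop where
  nonneg : ∀ n, 0 ≤ w n
  sum_le : ∑ n ∈ Icc 1 N, w n ≤ 9 * N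
  le_log : ∀ n ∈ Icc 1 N, w n ≤ 2 * Real.log N
  twist_le : ∀ U J : ℕ, 1 ≤ U → U ≤ 2 ^ J → 2 ^ (J + 4) ≤ N → ∀ θ : ℝ,
    ‖trigSum (fun n => (w n : ℂ)) N θ‖ ≤
      N * (4 / √(U : ℝ) + 1 / Real.log N ^ A + 2 * arcKernel N U J θ)

/-- The weighted sum on the grid. -/
def wRestrict (N : ℕ) (w : ℕ → ℝ) (a : ℕ → ℂ) (h : ℕ) : ℂ :=
  ∑ n ∈ Icc 1 N, a n * (√(w n) : ℝ) * eAdd ((n : ℝ) * h / N)

/-- `|wRestrict| ^ 2 ≤ 9 N ‖a‖²`. -/
theorem norm_wRestrict_sq_le {A N : ℕ} {w : ℕ → ℝ} (hw : IsTrickMajorant A N w) (a : ℕ → ℂ)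
    (h : ℕ) : ‖wRestrict N w a h‖ ^ 2 ≤ 9 * N * energy N a := by
  refine (pow_le_pow_left₀ (norm_nonneg _) (norm_sum_le _ _) 2).trans ?_
  simp only [norm_mul, ThreePrimes.norm_eAdd, mul_one, Complex.norm_real, Real.norm_eq_abs,
    abs_of_nonneg (Real.sqrt_nonneg _)]
  refine (sum_mul_sq_le_sq_mul_sq _ _ _).trans ?_
  rw [mul_comm (9 * (N : ℝ)), energy]
  refine mul_le_mul_of_nonneg_left ?_ (sum_nonneg fun _ _ => sq_nonneg _)
  simp only [Real.sq_sqrt (hw.nonneg _)]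
  exact hw.sum_le

theorem sum_wRestrict_sq_le {A N : ℕ} (hN : 0 < N) {w : ℕ → ℝ} (hw : IsTrickMajorant A N w)
    (a : ℕ → ℂ) :
    ∑ h ∈ range N, ‖wRestrict N w a h‖ ^ 2 ≤ N * (energy N a * (2 * Real.log N)) := by
  refine (le_of_eq (PrimeRestriction.sum_norm_sq_full hN fun n => a n * (√(w n) : ℝ))).trans
    (mul_le_mul_of_nonneg_left ?_ (Nat.cast_nonneg N))
  rw [energy, sum_mul]
  refine sum_le_sum fun n hn => ?_
  rw [norm_mul, mul_pow, Complex.norm_real, Real.norm_eq_abs, sq_abs,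
    Real.sq_sqrt (hw.nonneg n)]
  exact mul_le_mul_of_nonneg_left (hw.le_log n hn) (sq_nonneg _)

/-- **Duality.** -/
theorem sq_sum_wRestrict_le (N : ℕ) {w : ℕ → ℝ} (hw : ∀ n, 0 ≤ w n) (a : ℕ → ℂ) (H : Finset ℕ) :
    (∑ h ∈ H, ‖wRestrict N w a h‖) ^ 2 ≤
      energy N a * ∑ h ∈ H, ∑ k ∈ H, ‖trigSum (fun n => (w n : ℂ)) N (((h : ℝ) - k) / N)‖ := by
  obtain ⟨c, hc⟩ : ∃ c : ℕ → ℂ,
      c = fun h => conj (wRestrict N w a h) / (‖wRestrict N w a h‖ : ℂ) := ⟨_, rfl⟩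
  have hc1 : ∀ h, ‖c h‖ ≤ 1 := fun h => by
    rw [hc]
    simp only [norm_div, Complex.norm_conj, Complex.norm_real, norm_norm]
    exact div_self_le_one _
  have hcf : ∀ h, c h * wRestrict N w a h = (‖wRestrict N w a h‖ : ℂ) := fun h => by
    rw [hc]
    simp only
    rw [div_mul_eq_mul_div, Complex.conj_mul', sq]
    exact mul_self_div_self _
  obtain ⟨S, hS⟩ : ∃ S : ℕ → ℂ,
      S = fun n : ℕ => ∑ h ∈ H, c h * eAdd ((n : ℝ) * h / N) := ⟨_, rfl⟩
  have hF : ∑ h ∈ H, ‖wRestrict N w a h‖ ≤ ∑ n ∈ Icc 1 N, ‖a n‖ * (√(w n) * ‖S n‖) := by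
    refine le_trans (le_of_eq (Complex.norm_of_nonneg
      (sum_nonneg fun h _ => norm_nonneg (wRestrict N w a h))).symm) ?_
    have e : ((∑ h ∈ H, ‖wRestrict N w a h‖ : ℝ) : ℂ) =
        ∑ n ∈ Icc 1 N, a n * (√(w n) : ℝ) * S n := by
      rw [Complex.ofReal_sum, sum_congr rfl fun h _ => (hcf h).symm]
      simp only [wRestrict, hS, mul_sum]
      rw [sum_comm]
      exact sum_congr rfl fun n _ => sum_congr rfl fun h _ => by ring
    rw [e]
    refine (norm_sum_le _ _).trans (le_of_eq (sum_congr rfl fun n _ => ?_))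
    rw [norm_mul, norm_mul, Complex.norm_real, Real.norm_eq_abs,
      abs_of_nonneg (Real.sqrt_nonneg _), mul_assoc]
  refine (pow_le_pow_left₀ (sum_nonneg fun _ _ => norm_nonneg _) hF 2).trans
    ((sum_mul_sq_le_sq_mul_sq _ _ _).trans (mul_le_mul_of_nonneg_left ?_ (energy_nonneg N a)))
  simp only [mul_pow, Real.sq_sqrt (hw _)]
  have e : ((∑ n ∈ Icc 1 N, w n * ‖S n‖ ^ 2 : ℝ) : ℂ) =
      ∑ h ∈ H, ∑ k ∈ H, c h * conj (c k) * trigSum (fun n => (w n : ℂ)) N (((h : ℝ) - k) / N) := by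
    rw [Complex.ofReal_sum]
    simp only [trigSum, mul_sum]
    rw [sum_congr rfl fun h _ => sum_comm (s := H) (t := Icc 1 N), sum_comm]
    refine sum_congr rfl fun n _ => ?_
    rw [Complex.ofReal_mul, Complex.ofReal_pow, ← Complex.mul_conj', hS]
    simp only [map_sum, sum_mul_sum]
    rw [mul_sum]
    refine sum_congr rfl fun h _ => ?_
    rw [mul_sum]
    refine sum_congr rfl fun k _ => ?_
    rw [map_mul, show (n : ℝ) * (((h : ℝ) - k) / N) = (n : ℝ) * h / N - (n : ℝ) * k / N by ring,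
      PrimeRestriction.eAdd_sub]
    ring
  refine le_trans (le_of_eq (Complex.norm_of_nonneg (sum_nonneg fun n _ =>
    mul_nonneg (hw _) (sq_nonneg ‖S n‖))).symm) ?_
  rw [e]
  refine (norm_sum_le _ _).trans (sum_le_sum fun h _ => (norm_sum_le _ _).trans
    (sum_le_sum fun k _ => ?_))
  rw [norm_mul, norm_mul, Complex.norm_conj]
  exact mul_le_of_le_one_left (norm_nonneg _) (mul_le_one₀ (hc1 h) (norm_nonneg _) (hc1 k))

/-- **The large values.** -/
theorem exists_weighted_large_values (A : ℕ) {k : ℕ} (hk : 1 ≤ k) : ∃ C : ℝ, 0 < C ∧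
    ∀ N : ℕ, 3 ≤ N → ∀ w : ℕ → ℝ, IsTrickMajorant (3 * A + 3) N w → ∀ a : ℕ → ℂ,
      0 < energy N a → ∀ δ : ℝ, 0 < δ → δ ≤ 3 →
      1 / Real.log N ^ A ≤ δ → ∀ H : Finset ℕ, H ⊆ range N →
      (∀ h ∈ H, δ ^ 2 * (N * energy N a) ≤ ‖wRestrict N w a h‖ ^ 2) →
      (H.card : ℝ) ^ k * δ ^ (2 * k + 3) ≤ C := by
  obtain ⟨η, hη⟩ : ∃ η : ℝ, η = 1 / (4 * (2 * k + 3)) := ⟨_, rfl⟩
  have hη0 : 0 < η := by rw [hη]; positivity
  obtain ⟨C₂, hC₂, hmom⟩ := exists_weighted_moment_le k hη0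
  obtain ⟨C₃, hC₃, hphi⟩ := exists_div_totient_le hη0
  obtain ⟨K, hK⟩ : ∃ K : ℝ, K = 512 * (4 + 4 / η) * C₃ := ⟨_, rfl⟩
  have hK0 : 0 < K := by rw [hK]; positivity
  obtain ⟨K₁, hK₁, hpow⟩ := ThreePrimes.exists_log_pow_le (10 * A + 2 * (3 * A + 3 + 4))
  obtain ⟨G, hG⟩ : ∃ G : ℝ, G = max (max (4 * K * 2 ^ 22) 65536) 1 := ⟨_, rfl⟩
  obtain ⟨T, hT⟩ : ∃ T : ℕ, T = max ⌈Real.exp 9⌉₊ ⌈(G * K₁) ^ 2⌉₊ := ⟨_, rfl⟩
  refine ⟨max ((T : ℝ) ^ k * 3 ^ (2 * k + 3)) (7 * ((2 * K) ^ (k + 1) * C₂)),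
    lt_max_of_lt_right (by positivity), fun N hN w hw a hB δ hδ0 hδ3 hδ H hH hlarge => ?_⟩
  rcases Nat.lt_or_ge N T with hsmall | hbig
  · refine le_trans ?_ (le_max_left _ _)
    refine mul_le_mul (pow_le_pow_left₀ (Nat.cast_nonneg _) (Nat.cast_le.2 ?_) k)
      (pow_le_pow_left₀ hδ0.le hδ3 _) (by positivity) (by positivity)
    exact (card_le_card hH).trans ((card_range N).le.trans hsmall.le)
  refine le_trans ?_ (le_max_right _ _)
  rw [hT] at hbig
  simp only [max_le_iff] at hbig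
  have hN0 : (0 : ℝ) < N := Nat.cast_pos.2 (by omega)
  obtain ⟨l, hl⟩ : ∃ l, l = Real.log N := ⟨_, rfl⟩
  have hlC : 9 ≤ l := by
    rw [hl, Real.le_log_iff_exp_le hN0]
    exact (Nat.le_ceil _).trans (Nat.cast_le.2 hbig.1)
  have hl1 : 1 ≤ l := by linarith
  have hl0 : 0 < l := by linarith
  have hG1 : 1 ≤ G := hG ▸ le_max_right _ _
  have hlN : G * l ^ (10 * A + 2 * (3 * A + 3 + 4)) ≤ N := by
    refine (mul_le_mul_of_nonneg_left (hl ▸ hpow N (by exact_mod_cast (show 1 ≤ N by omega)))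
      (by linarith)).trans ?_
    rw [← mul_assoc]
    refine (mul_le_mul_of_nonneg_right (Real.le_sqrt_of_sq_le
      ((Nat.le_ceil _).trans (Nat.cast_le.2 hbig.2))) (Real.sqrt_nonneg _)).trans
        (le_of_eq (Real.mul_self_sqrt hN0.le))
  rw [← hl] at hδ
  rw [div_le_iff₀ (by positivity)] at hδ
  -- the parameters
  obtain ⟨U, hU⟩ : ∃ U, U = ⌈1024 / δ ^ 4⌉₊ := ⟨_, rfl⟩
  have hd4 : δ ^ 4 ≤ 81 := le_trans (pow_le_pow_left₀ hδ0.le hδ3 4) (by norm_num)
  have hUlo : 1024 / δ ^ 4 ≤ U := hU ▸ Nat.le_ceil _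
  have hUone : 1 ≤ 1024 / δ ^ 4 := by
    rw [one_le_div (by positivity)]
    linarith
  have hUhi : (U : ℝ) * δ ^ 4 ≤ 2048 := by
    have h1 := (Nat.ceil_lt_add_one (show 0 ≤ 1024 / δ ^ 4 by positivity)).le
    rw [← hU] at h1
    have h2 : (U : ℝ) ≤ 2048 / δ ^ 4 := h1.trans (by
      rw [show (2048 : ℝ) / δ ^ 4 = 1024 / δ ^ 4 + 1024 / δ ^ 4 by ring]
      linarith)
    rwa [le_div_iff₀ (by positivity)] at h2
  have hU1 : (1 : ℝ) ≤ U := hUone.trans hUlo
  have hU1' : 1 ≤ U := by exact_mod_cast hU1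
  have hUl : (U : ℝ) ≤ 2048 * l ^ (4 * A) := by
    calc (U : ℝ) = U * 1 := (mul_one _).symm
      _ ≤ U * (δ * l ^ A) ^ 4 := mul_le_mul_of_nonneg_left (one_le_pow₀ hδ) (by linarith)
      _ = (U : ℝ) * δ ^ 4 * l ^ (4 * A) := by rw [mul_pow, ← pow_mul, mul_comm A 4]; ring
      _ ≤ _ := mul_le_mul_of_nonneg_right hUhi (by positivity)
  obtain ⟨J, hJ⟩ : ∃ J, J = Nat.log 2 U + 1 := ⟨_, rfl⟩
  have hUJ : U ≤ 2 ^ J := hJ ▸ (Nat.lt_pow_succ_log_self one_lt_two U).le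
  have h2J : 2 ^ J ≤ 2 * U := by
    rw [hJ, pow_succ, mul_comm]
    exact Nat.mul_le_mul_left 2 (Nat.pow_log_le_self 2 (by omega))
  have hJN : 2 ^ (J + 4) ≤ N := by
    have h1 : 2 ^ (J + 4) ≤ 32 * U := by rw [pow_add]; omega
    refine h1.trans ?_
    have h2 : (32 : ℝ) * U ≤ N := by
      refine le_trans ?_ hlN
      calc (32 : ℝ) * U ≤ 32 * (2048 * l ^ (4 * A)) :=
            mul_le_mul_of_nonneg_left hUl (by norm_num)
        _ = 65536 * l ^ (4 * A) := by ring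
        _ ≤ _ := mul_le_mul (hG ▸ le_trans (le_max_right _ _) (le_max_left _ _))
            (pow_le_pow_right₀ hl1 (by omega)) (by positivity) (by linarith)
    exact_mod_cast h2
  obtain ⟨V, hV⟩ : ∃ V : ℝ, V = (U : ℝ) ^ η := ⟨_, rfl⟩
  have hV1 : 1 ≤ V := hV ▸ Real.one_le_rpow hU1 hη0.le
  have hJV : (J : ℝ) + 1 ≤ (4 + 4 / η) * V := by
    have h1 := Real.log_le_log (by positivity)
      (show ((2 : ℝ) ^ J) ≤ 2 * U by exact_mod_cast h2J)
    rw [Real.log_pow, Real.log_mul two_ne_zero (by linarith)] at h1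
    have h2 := Real.log_le_rpow_div (Nat.cast_nonneg (α := ℝ) U) hη0
    rw [← hV] at h2
    have h3 := Real.log_two_gt_d9
    have h4 := Real.log_two_lt_d9
    have h5 : (J : ℝ) / 2 ≤ (J : ℝ) * Real.log 2 := by
      rw [div_eq_mul_inv]
      exact mul_le_mul_of_nonneg_left (by norm_num; linarith) (Nat.cast_nonneg J)
    rw [add_mul, div_mul_eq_mul_div]
    have h6 : 4 * V / η = 4 * (V / η) := by ring
    have h7 : 0 ≤ V / η := by positivity
    rw [h6]
    linarith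
  have hphi' : ∀ q ∈ Icc 1 U, (q : ℝ) / q.totient ≤ C₃ * V := fun q hq =>
    hV ▸ hphi q U (mem_Icc.1 hq).1 (mem_Icc.1 hq).2
  -- the pairs
  obtain ⟨R, hR⟩ : ∃ R : ℝ, R = H.card := ⟨_, rfl⟩
  have hR0 : 0 ≤ R := hR ▸ Nat.cast_nonneg _
  obtain ⟨X, hX⟩ : ∃ X, X = ∑ m ∈ Ioc 0 N, (truncDivisors U m : ℝ) * gridNorm N H m := ⟨_, rfl⟩
  have hX0 : 0 ≤ X := hX ▸ sum_nonneg fun m _ => mul_nonneg (Nat.cast_nonneg _) (sq_nonneg _)
  have hmain : δ ^ 2 * R ^ 2 ≤
      (δ ^ 2 / 4) * R ^ 2 + K * V ^ 2 / N * ((U : ℝ) * R ^ 2 + X) := by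
    have hlow : δ ^ 2 * R ^ 2 * (N * energy N a) ≤ (∑ h ∈ H, ‖wRestrict N w a h‖) ^ 2 := by
      have h1 : R * √(δ ^ 2 * (N * energy N a)) ≤ ∑ h ∈ H, ‖wRestrict N w a h‖ := by
        rw [hR, ← nsmul_eq_mul, ← sum_const]
        refine sum_le_sum fun h hh => ?_
        rw [Real.sqrt_le_left (norm_nonneg _)]
        exact hlarge h hh
      refine le_trans (le_of_eq ?_) (pow_le_pow_left₀ (by positivity) h1 2)
      rw [mul_pow, Real.sq_sqrt (by positivity)]
      ring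
    have hpt : ∀ α : ℝ, ‖trigSum (fun n => (w n : ℂ)) N α‖ ≤
        N * (δ ^ 2 / 4 + 2 * arcKernel N U J α) := by
      intro α
      refine (hw.twist_le U J hU1' hUJ hJN α).trans ?_
      refine mul_le_mul_of_nonneg_left (add_le_add ?_ le_rfl) hN0.le
      have h1 : 4 / √(U : ℝ) ≤ δ ^ 2 / 8 := by
        have h2 : 32 / δ ^ 2 ≤ √(U : ℝ) := by
          refine Real.le_sqrt_of_sq_le (le_trans (le_of_eq ?_) hUlo)
          ring
        rw [div_le_iff₀ (by positivity)] at h2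
        rw [div_le_div_iff₀ (by positivity) (by norm_num)]
        linarith
      have h2 : 1 / Real.log N ^ (3 * A + 3) ≤ δ ^ 2 / 8 := by
        rw [← hl, div_le_div_iff₀ (by positivity) (by norm_num)]
        calc 1 * 8 ≤ 1 * l := by linarith
          _ ≤ (δ * l ^ A) ^ 2 * l ^ (A + 3) :=
              mul_le_mul (one_le_pow₀ hδ) (le_self_pow₀ hl1 (by omega)) hl0.le (by positivity)
          _ = _ := by ring
      linarith
    refine le_of_mul_le_mul_right (hlow.trans ((sq_sum_wRestrict_le N hw.nonneg a H).trans ?_))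
      (mul_pos hN0 hB)
    rw [mul_comm (energy N a), ← mul_assoc]
    refine mul_le_mul_of_nonneg_right ?_ hB.le
    refine (sum_le_sum fun h _ => sum_le_sum fun k _ => hpt _).trans ?_
    simp only [← mul_sum, sum_add_distrib, sum_const, nsmul_eq_mul, ← hR]
    rw [mul_comm (δ ^ 2 / 4 * R ^ 2 + _)]
    refine mul_le_mul_of_nonneg_left (add_le_add (le_of_eq (by ring)) ?_) hN0.le
    refine (mul_le_mul_of_nonneg_left (sum_arcKernel_le hJN H hphi') two_pos.le).trans ?_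
    rw [← hR, ← hX]
    rw [← mul_assoc, mul_div_assoc']
    refine mul_le_mul_of_nonneg_right (div_le_div_of_nonneg_right ?_ hN0.le) (by positivity)
    rw [hK]
    calc 2 * (256 * ((J : ℝ) + 1) * (C₃ * V)) ≤ 2 * (256 * ((4 + 4 / η) * V) * (C₃ * V)) := by
          gcongr
      _ = _ := by ring
  have hUterm : K * V ^ 2 / N * ((U : ℝ) * R ^ 2) ≤ δ ^ 2 / 4 * R ^ 2 := by
    rw [← mul_assoc]
    refine mul_le_mul_of_nonneg_right ?_ (sq_nonneg R)
    have hVU : V ^ 2 ≤ U := by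
      rw [hV, ← Real.rpow_natCast, ← Real.rpow_mul (by linarith)]
      refine Real.rpow_le_self_of_one_le hU1 ?_
      rw [hη]
      push_cast
      rw [div_mul_eq_mul_div, div_le_one (by positivity)]
      linarith [(Nat.cast_nonneg k : (0 : ℝ) ≤ k)]
    rw [div_mul_eq_mul_div, div_le_iff₀ hN0]
    calc K * V ^ 2 * U ≤ K * U * U := by gcongr
      _ ≤ K * (2048 * l ^ (4 * A)) * (2048 * l ^ (4 * A)) := by gcongr
      _ = (4 * K * 2 ^ 22 / 4 * l ^ (8 * A)) * 1 := by ring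
      _ ≤ (G / 4 * l ^ (8 * A)) * (δ * l ^ A) ^ 2 := by
          refine mul_le_mul (mul_le_mul_of_nonneg_right (div_le_div_of_nonneg_right
            (hG ▸ le_trans (le_max_left _ _) (le_max_left _ _)) (by norm_num)) (by positivity))
            (one_le_pow₀ hδ) zero_le_one (by positivity)
      _ = δ ^ 2 / 4 * (G * l ^ (10 * A)) := by ring
      _ ≤ _ := by
          refine mul_le_mul_of_nonneg_left (le_trans ?_ hlN) (by positivity)
          exact mul_le_mul_of_nonneg_left (pow_le_pow_right₀ hl1 (by omega)) (by linarith)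
  have hkey : δ ^ 2 * R ^ 2 ≤ 2 * K * V ^ 2 * (X / N) := by
    rw [mul_add] at hmain
    have : K * V ^ 2 / N * X = K * V ^ 2 * (X / N) := by ring
    linarith
  have hpk := (pow_le_pow_left₀ (by positivity) hkey (k + 1)).trans_eq
    (show (2 * K * V ^ 2 * (X / N)) ^ (k + 1) =
      (2 * K) ^ (k + 1) * V ^ (2 * (k + 1)) * (X ^ (k + 1) / (N : ℝ) ^ (k + 1)) by
        rw [mul_pow, mul_pow, div_pow, pow_mul])
  have hXk : X ^ (k + 1) / (N : ℝ) ^ (k + 1) ≤ C₂ * V * R ^ (k + 2) := by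
    rw [div_le_iff₀ (by positivity), hV, hR, hX, mul_right_comm]
    exact hmom U N hU1' (by omega) H hH
  rcases hR0.eq_or_lt with h | h
  · rw [← hR, ← h, zero_pow (by omega), zero_mul]
    positivity
  have hVδ : V ^ (2 * k + 3) * δ ≤ 7 := by
    refine le_of_pow_le_pow_left₀ (show 4 ≠ 0 by norm_num) (by norm_num) ?_
    rw [mul_pow, hV, ← Real.rpow_natCast ((U : ℝ) ^ η), ← Real.rpow_mul (by linarith),
      ← Real.rpow_natCast (((U : ℝ) ^ (η * ((2 * k + 3 : ℕ) : ℝ)))),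
      ← Real.rpow_mul (by linarith)]
    have e : η * ((2 * k + 3 : ℕ) : ℝ) * ((4 : ℕ) : ℝ) = 1 := by
      rw [hη]
      push_cast
      field_simp
    rw [e, Real.rpow_one]
    linarith
  rw [← hR]
  refine le_of_mul_le_mul_left ?_ (pow_pos h (k + 2))
  calc R ^ (k + 2) * (R ^ k * δ ^ (2 * k + 3)) = (δ ^ 2 * R ^ 2) ^ (k + 1) * δ := by ring
    _ ≤ (2 * K) ^ (k + 1) * V ^ (2 * (k + 1)) * (C₂ * V * R ^ (k + 2)) * δ :=
        mul_le_mul_of_nonneg_right (hpk.trans (mul_le_mul_of_nonneg_left hXk (by positivity)))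
          hδ0.le
    _ = (2 * K) ^ (k + 1) * C₂ * R ^ (k + 2) * (V ^ (2 * k + 3) * δ) := by ring
    _ ≤ (2 * K) ^ (k + 1) * C₂ * R ^ (k + 2) * 7 :=
        mul_le_mul_of_nonneg_left hVδ (by positivity)
    _ = _ := by ring

/-- **The restriction estimate on the grid.** -/
theorem exists_weighted_restriction {p : ℝ} (hp : 2 < p) : ∃ (A' : ℕ) (C : ℝ), 0 < C ∧
    ∀ N : ℕ, 1 ≤ N → ∀ w : ℕ → ℝ, IsTrickMajorant A' N w → ∀ a : ℕ → ℂ,
      ∑ h ∈ range N, ‖wRestrict N w a h‖ ^ p ≤ C * (N * energy N a) ^ (p / 2) := by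
  classical
  obtain ⟨k, hk⟩ : ∃ k : ℕ, k = ⌊3 / (p - 2)⌋₊ + 1 := ⟨_, rfl⟩
  obtain ⟨A, hA⟩ : ∃ A : ℕ, A = ⌈1 / (p - 2)⌉₊ := ⟨_, rfl⟩
  have hk0 : 1 ≤ k := by omega
  have hkR : (0 : ℝ) < k := Nat.cast_pos.2 hk0
  obtain ⟨γ, hγ⟩ : ∃ γ : ℝ, γ = ((2 * k + 3 : ℕ) : ℝ) / k := ⟨_, rfl⟩
  have hγ0 : 0 ≤ γ := hγ ▸ by positivity
  have hγp : γ < p := by
    rw [hγ, div_lt_iff₀ hkR]
    have h1 := Nat.lt_floor_add_one (3 / (p - 2))
    rw [div_lt_iff₀ (by linarith)] at h1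
    rw [hk]
    push_cast at h1 ⊢
    linarith
  obtain ⟨C, hC, hlarge⟩ := exists_weighted_large_values A hk0
  obtain ⟨C', hC'⟩ : ∃ C' : ℝ, C' = max C 1 := ⟨_, rfl⟩
  have hC'1 : 1 ≤ C' := hC' ▸ le_max_right _ _
  obtain ⟨ρ, hρ⟩ : ∃ ρ : ℝ, ρ = (1 / 2 : ℝ) ^ (p - γ) := ⟨_, rfl⟩
  have hρ0 : 0 ≤ ρ := hρ ▸ Real.rpow_nonneg (by norm_num) _
  have hρ1 : ρ < 1 := hρ ▸ Real.rpow_lt_one (by norm_num) (by norm_num) (by linarith)
  obtain ⟨D, hD⟩ : ∃ D : ℝ, D = C' * 2 ^ γ * 3 ^ (p - γ) / (1 - ρ) := ⟨_, rfl⟩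
  have hD0 : 0 < D := hD ▸ div_pos (by positivity) (by linarith)
  refine ⟨3 * A + 3, 2 * 9 ^ (p / 2) + (2 + D), by positivity, fun N hN w hw a => ?_⟩
  have hB0 := energy_nonneg N a
  obtain ⟨W, hW⟩ : ∃ W, W = (N : ℝ) * energy N a := ⟨_, rfl⟩
  have hW0 : 0 ≤ W := hW ▸ by positivity
  rw [← hW]
  by_cases hsmall : N < 3 ∨ energy N a = 0
  · have h1 : ∀ h, ‖wRestrict N w a h‖ ^ p ≤ 9 ^ (p / 2) * W ^ (p / 2) := fun h => by
      rw [← Real.mul_rpow (by norm_num) hW0,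
        show p = ((2 : ℕ) : ℝ) * (p / 2) by push_cast; ring, Real.rpow_mul (norm_nonneg _),
        Real.rpow_natCast, show ((2 : ℕ) : ℝ) * (p / 2) / 2 = p / 2 by push_cast; ring]
      refine Real.rpow_le_rpow (sq_nonneg _) ((norm_wRestrict_sq_le hw a h).trans
        (le_of_eq ?_)) (by linarith)
      rw [hW, mul_assoc]
    refine (sum_le_card_nsmul _ _ _ fun h _ => h1 h).trans ?_
    rw [card_range, nsmul_eq_mul]
    rcases hsmall with h | h
    · rw [add_mul, mul_assoc 2]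
      refine le_add_of_le_of_nonneg (mul_le_mul_of_nonneg_right ?_ (by positivity)) (by positivity)
      exact_mod_cast (show N ≤ 2 by omega)
    · rw [hW, h, mul_zero, Real.zero_rpow (by linarith), mul_zero, mul_zero, mul_zero]
  rw [not_or, not_lt] at hsmall
  have hB : 0 < energy N a := lt_of_le_of_ne hB0 (Ne.symm hsmall.2)
  have hN3 := hsmall.1
  have hN0 : (0 : ℝ) < N := Nat.cast_pos.2 (by omega)
  have hWpos : 0 < W := hW ▸ mul_pos hN0 hB
  refine le_trans ?_ (mul_le_mul_of_nonneg_right (le_add_of_nonneg_left (by positivity))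
    (by positivity))
  obtain ⟨x, hx⟩ : ∃ x : ℕ → ℝ, x = fun h => ‖wRestrict N w a h‖ / √W := ⟨_, rfl⟩
  have hx0 : ∀ h, 0 ≤ x h := fun h => hx ▸ div_nonneg (norm_nonneg _) (Real.sqrt_nonneg _)
  have hx3 : ∀ h, x h ≤ 3 := fun h => by
    rw [hx, div_le_iff₀ (Real.sqrt_pos.2 hWpos)]
    refine le_of_pow_le_pow_left₀ two_ne_zero (by positivity)
      ((norm_wRestrict_sq_le hw a h).trans ?_)
    rw [mul_pow, Real.sq_sqrt hW0, mul_assoc, ← hW]
    exact mul_le_mul_of_nonneg_right (by norm_num) hW0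
  suffices hx' : ∑ h ∈ range N, x h ^ p ≤ 2 + D by
    refine le_trans (le_of_eq ?_) (mul_le_mul_of_nonneg_right hx' (Real.rpow_nonneg hW0 _))
    rw [sum_mul]
    refine sum_congr rfl fun h _ => ?_
    rw [hx]
    simp only
    rw [Real.div_rpow (norm_nonneg _) (Real.sqrt_nonneg _), Real.sqrt_eq_rpow,
      ← Real.rpow_mul hW0, show (1 / 2 : ℝ) * p = p / 2 by ring,
      div_mul_cancel₀ _ (Real.rpow_pos_of_pos hWpos _).ne']
  obtain ⟨l, hl⟩ : ∃ l, l = Real.log N := ⟨_, rfl⟩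
  have hl1 : 1 ≤ l := by
    rw [hl, Real.le_log_iff_exp_le hN0]
    exact Real.exp_one_lt_three.le.trans (by exact_mod_cast hN3)
  obtain ⟨e, he⟩ : ∃ e, e = 1 / l ^ A := ⟨_, rfl⟩
  have he0 : 0 < e := he ▸ by positivity
  rw [← sum_filter_add_sum_filter_not (range N) (fun h => x h < e)]
  refine add_le_add ?_ ?_
  · refine (sum_le_sum (g := fun h => e ^ (p - 2) * x h ^ 2) fun h hh => ?_).trans ?_
    · rw [mem_filter] at hh
      rw [show p = p - 2 + ((2 : ℕ) : ℝ) by push_cast; ring,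
        Real.rpow_add_natCast' (hx0 h) (by push_cast; linarith)]
      push_cast
      rw [sub_add_cancel]
      exact mul_le_mul_of_nonneg_right (Real.rpow_le_rpow (hx0 h) hh.2.le (by linarith))
        (sq_nonneg _)
    rw [← mul_sum]
    have h2 : ∑ h ∈ (range N).filter (fun h => x h < e), x h ^ 2 ≤ 2 * l := by
      refine (sum_le_sum_of_subset_of_nonneg (filter_subset _ _) fun i _ _ => sq_nonneg _).trans ?_
      simp only [hx, div_pow, Real.sq_sqrt hW0, ← sum_div]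
      rw [div_le_iff₀ hWpos, hW, hl]
      exact (sum_wRestrict_sq_le (by omega) hw a).trans (le_of_eq (by ring))
    refine (mul_le_mul_of_nonneg_left h2 (by positivity)).trans ?_
    rw [he, one_div, Real.inv_rpow (by positivity), inv_mul_le_iff₀ (by positivity),
      mul_comm (_ ^ (p - 2)) (2 : ℝ)]
    refine mul_le_mul_of_nonneg_left ?_ two_pos.le
    rw [← Real.rpow_natCast, ← Real.rpow_mul (by linarith)]
    refine le_trans (le_of_eq (Real.rpow_one l).symm) (Real.rpow_le_rpow_of_exponent_le hl1 ?_)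
    have h3 := Nat.le_ceil (1 / (p - 2))
    rw [div_le_iff₀ (by linarith), ← hA] at h3
    exact h3
  obtain ⟨I, hI⟩ := exists_pow_lt_of_lt_one (show 0 < e / 3 by positivity)
    (show (1 / 2 : ℝ) < 1 by norm_num)
  obtain ⟨lev, hlev⟩ : ∃ lev : ℕ → ℝ, lev = fun n => 3 * (1 / 2) ^ (n + 1) := ⟨_, rfl⟩
  obtain ⟨S, hS⟩ : ∃ S : ℕ → Finset ℕ,
    S = fun n => (range N).filter fun h => lev n ≤ x h ∧ e ≤ x h := ⟨_, rfl⟩
  have hcover : ∀ h ∈ (range N).filter (fun h => ¬ x h < e), x h ^ p ≤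
      ∑ n ∈ range I, if h ∈ S n then (2 * lev n) ^ p else 0 := by
    intro h hh
    rw [mem_filter, not_lt] at hh
    obtain ⟨n, hn1, hn2⟩ := exists_nat_pow_near_of_lt_one
      (show 0 < x h / 3 by linarith [he0.trans_le hh.2]) (by linarith [hx3 h] : x h / 3 ≤ 1)
      (show (0 : ℝ) < 1 / 2 by norm_num) (by norm_num)
    have hnI : n < I := by
      by_contra hcon
      have := pow_le_pow_of_le_one (show (0 : ℝ) ≤ 1 / 2 by norm_num) (by norm_num) (not_lt.1 hcon)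
      linarith [div_le_div_of_nonneg_right hh.2 (show (0 : ℝ) ≤ 3 by norm_num)]
    refine le_trans ?_ (single_le_sum (fun i _ => ?_) (mem_range.2 hnI))
    · rw [if_pos]
      · refine Real.rpow_le_rpow (hx0 h) ?_ (by linarith)
        rw [hlev]
        simp only [pow_succ]
        linarith
      · rw [hS, mem_filter, hlev]
        exact ⟨hh.1, by linarith, hh.2⟩
    · split_ifs
      · exact Real.rpow_nonneg (by rw [hlev]; positivity) _
      · exact le_rfl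
  have hcard : ∀ n, ((S n).card : ℝ) ≤ C' / lev n ^ γ := fun n => by
    have hlev0 : 0 < lev n := by rw [hlev]; positivity
    obtain ⟨d, hd⟩ : ∃ d, d = max (lev n) e := ⟨_, rfl⟩
    have hd0 : 0 < d := hd ▸ lt_max_of_lt_left hlev0
    have hd3 : d ≤ 3 := by
      rw [hd, hlev]
      refine max_le (mul_le_of_le_one_right (by norm_num) (pow_le_one₀ (by norm_num) (by norm_num)))
        ?_
      rw [he, div_le_iff₀ (by positivity)]
      linarith [one_le_pow₀ (n := A) hl1]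
    have h1 := hlarge N hN3 w hw a hB d hd0 hd3 (hl ▸ he ▸ hd ▸ le_max_right _ _) (S n)
      (hS ▸ filter_subset _ _) fun h hh => ?_
    · rw [le_div_iff₀ (Real.rpow_pos_of_pos hlev0 _)]
      refine le_trans (mul_le_mul_of_nonneg_left (Real.rpow_le_rpow hlev0.le
        (hd ▸ le_max_left _ _) hγ0) (Nat.cast_nonneg _)) ?_
      have h2 : (((S n).card : ℝ) * d ^ γ) ^ k ≤ C' := by
        rw [mul_pow, ← Real.rpow_natCast (d ^ γ), ← Real.rpow_mul hd0.le, hγ,
          div_mul_cancel₀ _ hkR.ne', Real.rpow_natCast]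
        exact h1.trans (hC' ▸ le_max_left _ _)
      rcases le_or_gt (((S n).card : ℝ) * d ^ γ) 1 with h3 | h3
      · linarith
      · exact (le_self_pow₀ h3.le (by omega)).trans h2
    · rw [hS, mem_filter] at hh
      have h2 : d ≤ x h := hd ▸ max_le hh.2.1 hh.2.2
      rw [hx, le_div_iff₀ (Real.sqrt_pos.2 hWpos)] at h2
      refine le_trans (le_of_eq ?_) (pow_le_pow_left₀ (by positivity) h2 2)
      rw [mul_pow, Real.sq_sqrt hW0, hW]
  refine (sum_le_sum hcover).trans ?_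
  rw [sum_comm]
  refine (sum_le_sum (g := fun n => C' * 2 ^ γ * 3 ^ (p - γ) * ρ ^ n) fun n _ => ?_).trans ?_
  · refine (sum_le_sum_of_subset_of_nonneg (filter_subset _ _) fun i _ _ => ?_).trans ?_
    · split_ifs
      · exact Real.rpow_nonneg (by rw [hlev]; positivity) _
      · exact le_rfl
    rw [← sum_filter, sum_const, nsmul_eq_mul]
    refine (mul_le_mul_of_nonneg_right ((Nat.cast_le.2 (card_le_card fun h hh => ?_)).trans
      (hcard n)) (Real.rpow_nonneg (by rw [hlev]; positivity) _)).trans (le_of_eq ?_)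
    · exact (mem_filter.1 hh).2
    have hy : (0 : ℝ) < 3 * (1 / 2) ^ n := by positivity
    have e1 : 2 * lev n = 3 * (1 / 2) ^ n := by rw [hlev]; simp only [pow_succ]; ring
    have e2 : lev n = 3 * (1 / 2) ^ n / 2 := by rw [hlev]; simp only [pow_succ]; ring
    have e3 : ρ ^ n = ((1 / 2 : ℝ) ^ n) ^ (p - γ) := by
      rw [hρ, ← Real.rpow_natCast, ← Real.rpow_mul (by norm_num), ← Real.rpow_natCast,
        ← Real.rpow_mul (by norm_num), mul_comm]
    rw [e1, e2, e3, Real.div_rpow hy.le two_pos.le, div_div_eq_mul_div, mul_assoc (C' * 2 ^ γ),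
      ← Real.mul_rpow (by norm_num) (by positivity), Real.rpow_sub hy]
    field_simp
  · rw [← mul_sum, hD, div_eq_mul_inv (C' * 2 ^ γ * 3 ^ (p - γ))]
    refine mul_le_mul_of_nonneg_left ?_ (by positivity)
    rw [← tsum_geometric_of_lt_one hρ0 hρ1]
    exact (summable_geometric_of_lt_one hρ0 hρ1).sum_le_tsum _ fun i _ => by positivity

end FA.DenseThreePrimes
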